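/-
Project S36 (Carayol), cell [S36-END]: THE END-GAME, abstract form.

`pku_core_abs` is the packaging theorem `pk_core_abs` of JT3/Pack/Main.lean (S30) in MASTER FORM:
it returns, together with the representation `ρ'`, the minimal stable subspace `U ≤ W` it was cut
from, and for every `g` the quadratic relation `ρV(g)² - t ρV(g) + ε(g) = 0` ON `U`, where
`X² - t X + ε(g)` is the characteristic polynomial of `ρ'(g)`.

* `pku_rel_on_U`      : a quadratic relation on the lattice `pkb_lat ι U` holds on `U`;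
* `pku_core_abs`      : the master form;
* `pku_res`           : the restriction of a representation to a stable subspace;
* `pku_fixed_of_unip` : if `ρ'(s)` has characteristic polynomial `(X - 1)²` for every `s` of a
                        subgroup `I`, then `U` contains a nonzero vector fixed by `I`
                        (Kolchin of level two, `pkq_kolchin`);
* `pku_core`          : tensor form (`W` = the simultaneous eigenspace in `K ⊗ Tp`) with the clause
                        "if no nonzero vector of `W` is fixed by the inertia group `I_A`, `A | q`,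
                        then `ρ'` is not unipotent on inertia at `q`";
* `pku_S36_of_tate`   : the conclusion of S36 for a character `χ` of the Hecke algebra from the Tate
                        package and the clause [INV-W]: for `q ≠ p` with `v_q(N) = 2` no nonzero
                        `χ`-eigenvector of `K ⊗ Tp` is fixed by an inertia group at `q`.
Prefix `pku_`.  Owner: helper28.
-/
import Mathlib
import Fermat.Agent.JT3.Pack.Main
import Fermat.Agent.S35.PackQ

set_option autoImplicit false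
set_option linter.unusedSectionVars false

namespace Fermat.Agent.S36

open IsLocalRing TensorProduct Polynomial Fermat.Agent.JT3 Fermat.Agent.S35

local notation "GQ" => (AlgebraicClosure ℚ ≃ₐ[ℚ] AlgebraicClosure ℚ)
local notation "Qbar" => AlgebraicClosure ℚ

section relU

variable {O : Type*} [CommRing O] [IsDomain O] [IsPrincipalIdealRing O]
  {K : Type*} [Field K] [Algebra O K] [NoZeroSMulDivisors O K]
  {M : Type*} [AddCommGroup M] [Module O M]
  {V : Type*} [AddCommGroup V] [Module K V] [Module O V] [IsScalarTower O K V]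
  (ι : M →ₗ[O] V) (U : Submodule K V)
  {G : Type*} [Group G] (ρM : G →* Module.End O M) (ρV : G →* Module.End K V)
  (hc : ∀ σ m, ι (ρM σ m) = ρV σ (ι m)) (hst : ∀ σ, U ≤ U.comap (ρV σ))

/-- A quadratic relation on the lattice holds on the subspace it spans. -/
theorem pku_rel_on_U (hU : U ≤ Submodule.span K (ι '' (pkb_lat ι U : Set M))) (g : G) (t e : O)
    (h : pkb_rho ι U ρM ρV hc hst g * pkb_rho ι U ρM ρV hc hst g
      - t • pkb_rho ι U ρM ρV hc hst g + e • (1 : Module.End O (pkb_lat ι U)) = 0) :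
    ∀ u ∈ U, ρV g (ρV g u) - algebraMap O K t • ρV g u + algebraMap O K e • u = 0 := by
  set R : Module.End K V :=
    ρV g * ρV g - algebraMap O K t • ρV g + algebraMap O K e • (1 : Module.End K V) with hR
  have hker : Submodule.span K (ι '' (pkb_lat ι U : Set M)) ≤ LinearMap.ker R := by
    rw [Submodule.span_le]
    rintro _ ⟨m, hm, rfl⟩
    rw [SetLike.mem_coe, LinearMap.mem_ker]
    have h1 := congrArg (fun x : pkb_lat ι U => ι (x : M)) (LinearMap.congr_fun h ⟨m, hm⟩)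
    simp only [LinearMap.add_apply, LinearMap.sub_apply, Module.End.mul_apply,
      LinearMap.smul_apply, Module.End.one_apply, LinearMap.zero_apply, Submodule.coe_add,
      Submodule.coe_sub, Submodule.coe_smul, pkb_rho_coe, Submodule.coe_zero, map_add, map_sub,
      map_smul, hc, map_zero] at h1
    rw [hR]
    simp only [LinearMap.add_apply, LinearMap.sub_apply, Module.End.mul_apply,
      LinearMap.smul_apply, Module.End.one_apply, algebraMap_smul]
    exact h1
  intro u hu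
  have h2 := hker (hU hu)
  rw [LinearMap.mem_ker, hR] at h2
  simpa only [LinearMap.add_apply, LinearMap.sub_apply, Module.End.mul_apply,
    LinearMap.smul_apply, Module.End.one_apply] using h2

end relU

section abs

variable (p : ℕ) [Fact p.Prime] (N : ℕ) (S : Finset ℕ)
  {O : Type} [CommRing O] [IsDomain O] [IsDiscreteValuationRing O]
  [IsAdicComplete (maximalIdeal O) O] [CharZero O]
  {K : Type} [Field K] [Algebra O K] [IsFractionRing O K]
  {M : Type} [AddCommGroup M] [Module O M] [Module.Free O M] [Module.Finite O M]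
  {V : Type} [AddCommGroup V] [Module K V] [Module O V] [IsScalarTower O K V]
  [FiniteDimensional K V]

/-- **The packaging theorem, master form.** -/
theorem pku_core_abs (hpS : p ∈ S) (hNS : ∀ q : ℕ, q.Prime → q ∣ N → q ∈ S)
    (hp : (p : O) ∈ maximalIdeal O)
    (ι : M →ₗ[O] V) (hι : IsBaseChange K ι) (hιinj : Function.Injective ι)
    (hrat : ∀ U : Submodule K V, U ≤ Submodule.span K (ι '' (pkb_lat ι U : Set M)))
    (ρM : GQ →* Module.End O M) (ρV : GQ →* Module.End K V)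
    (hc : ∀ σ m, ι (ρM σ m) = ρV σ (ι m))
    (contM : GaloisActionIsAdicContinuous O ρM)
    (unramM : ∀ q : ℕ, q.Prime → ¬ q ∣ N → q ≠ p → ∀ P : ValuationSubring Qbar,
      P.LiesOverPrime q → ∀ σ ∈ P.inertiaSubgroupIn ℚ, ρM σ = 1)
    (a : ℕ → O) (W : Submodule K V) (hW0 : W ≠ ⊥) (hWst : ∀ σ, W ≤ W.comap (ρV σ))
    (hfrobW : ∀ ℓ : ℕ, pk_Good N S ℓ → ∀ A : ValuationSubring Qbar, A.LiesOverPrime ℓ →
      ∀ φ : GQ, A.IsFrobeniusAt φ ℓ → ∀ u ∈ W,
        ρV φ (ρV φ u) - algebraMap O K (a ℓ) • ρV φ u + (ℓ : K) • u = 0) :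
    ∃ (ρ' : GaloisRepAdic O) (U : Submodule K V), U ≤ W ∧ U ≠ ⊥ ∧
      (∀ σ, U ≤ U.comap (ρV σ)) ∧
      (∀ ℓ : ℕ, pk_Good N S ℓ → ∀ A : ValuationSubring Qbar, A.LiesOverPrime ℓ →
        ∀ φ : GQ, A.IsFrobeniusAt φ ℓ →
          LinearMap.charpoly (ρ'.ρ φ) = X ^ 2 - C (a ℓ) * X + C ((ℓ : O))) ∧
      (∀ q : ℕ, q.Prime → ¬ q ∣ N → q ≠ p → ρ'.IsUnramifiedAt q) ∧
      (∀ g : GQ, ∃ t : O,
        LinearMap.charpoly (ρ'.ρ g) = X ^ 2 - C t * X + C (cya_eps p O hp g) ∧
        ∀ u ∈ U, ρV g (ρV g u) - algebraMap O K t • ρV g u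
          + algebraMap O K (cya_eps p O hp g) • u = 0) := by
  classical
  have hinjK : Function.Injective (algebraMap O K) := IsFractionRing.injective O K
  have : NoZeroSMulDivisors O K := pk_noZeroSMulDivisors hinjK
  have : CharZero K := charZero_of_injective_algebraMap hinjK
  obtain ⟨U, hUW, hU0, hUst, hmin⟩ := pk_exists_minimal_le ρV W hW0 hWst
  have hUrat := hrat U
  -- the lattice
  have contΛ : GaloisActionIsAdicContinuous O (pkb_rho ι U ρM ρV hc hUst) :=
    pkb_adicContinuous ι U ρM ρV hc hUst contM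
  have hrank : Module.finrank O (pkb_lat ι U) = Module.finrank K U := pkb_finrank ι U hι hUrat
  have hUpos : 0 < Module.finrank K U := by
    rw [Module.finrank_pos_iff, Submodule.nontrivial_iff_ne_bot]
    exact hU0
  -- the Frobenius relation on the lattice
  have hfrobΛ : ∀ ℓ : ℕ, pk_Good N S ℓ → ∀ A : ValuationSubring Qbar, A.LiesOverPrime ℓ →
      ∀ φ : GQ, A.IsFrobeniusAt φ ℓ →
        pkb_rho ι U ρM ρV hc hUst φ * pkb_rho ι U ρM ρV hc hUst φ
          - a ℓ • pkb_rho ι U ρM ρV hc hUst φ + (ℓ : O) • 1 = 0 := by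
    intro ℓ hℓ A hA φ hφ
    ext x
    apply hιinj
    have hx : ι (x : M) ∈ W := hUW x.2
    have h1 := hfrobW ℓ hℓ A hA φ hφ _ hx
    simp only [LinearMap.add_apply, LinearMap.sub_apply, Module.End.mul_apply,
      LinearMap.smul_apply, Module.End.one_apply, LinearMap.zero_apply, Submodule.coe_add,
      Submodule.coe_sub, Submodule.coe_smul, pkb_rho_coe, Submodule.coe_zero, map_add, map_sub,
      map_smul, hc, map_zero]
    rw [← h1, algebraMap_smul, Nat.cast_smul_eq_nsmul, Nat.cast_smul_eq_nsmul]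
  -- the relation for all σ
  have hgood : ∀ ℓ : ℕ, ℓ.Prime → ℓ ∉ S → pk_Good N S ℓ := fun ℓ hℓ hℓS =>
    ⟨hℓ, fun hdvd => hℓS (hNS ℓ hℓ hdvd), fun h => hℓS (Finset.mem_coe.1 h)⟩
  have hrel := gcl_good_cyclo p hp (pkb_rho ι U ρM ρV hc hUst) contΛ S hpS
    (fun ℓ hℓ hℓS A hA φ hφ => ⟨a ℓ, hfrobΛ ℓ (hgood ℓ hℓ hℓS) A hA φ hφ⟩)
  choose t ht using hrel
  -- oddness: rank 1 or rank 2 with the right characteristic polynomials
  have hfr : Module.finrank K (K ⊗[O] (pkb_lat ι U)) = Module.finrank O (pkb_lat ι U) :=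
    Module.finrank_baseChange
  have : Nontrivial (K ⊗[O] (pkb_lat ι U)) := by
    apply Module.nontrivial_of_finrank_pos (R := K)
    rw [hfr, hrank]
    exact hUpos
  set ε' : GQ →* Kˣ :=
    (Units.map (algebraMap O K : O →* K)).comp (cya_eps p O hp).toHomUnits with hε'
  have hε'coe : ∀ g, ((ε' g : Kˣ) : K) = algebraMap O K (cya_eps p O hp g) := fun g => rfl
  have hodd := pko_main (K := K) (U := K ⊗[O] (pkb_lat ι U))
    (ρ := pk_bc K (pkb_rho ι U ρM ρV hc hUst)) (ε := ε') (t := fun g => algebraMap O K (t g))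
    two_ne_zero
    (fun W hW => pkb_irreducible ι U ρM ρV hc hUst hι hUrat hmin W hW)
    (fun g => by
      rw [hε'coe]
      exact pk_bc_relation K (pkb_rho ι U ρM ρV hc hUst) g (ht g))
    (c := complexConjugation) complexConjugation_mul_self
    (by rw [hε'coe, cya_eps_complexConjugation, map_neg, map_one])
  have hℓp : ∀ ℓ : ℕ, pk_Good N S ℓ → ℓ ≠ p := by
    rintro ℓ hℓ rfl
    exact hℓ.2.2 (Finset.mem_coe.2 hpS)
  -- the relation at Frobenius elements, with `ε φ` in place of `ℓ`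
  have hfrobΛ' : ∀ ℓ : ℕ, pk_Good N S ℓ → ∀ A : ValuationSubring Qbar, A.LiesOverPrime ℓ →
      ∀ φ : GQ, A.IsFrobeniusAt φ ℓ →
        pkb_rho ι U ρM ρV hc hUst φ * pkb_rho ι U ρM ρV hc hUst φ
          - a ℓ • pkb_rho ι U ρM ρV hc hUst φ + cya_eps p O hp φ • 1 = 0 := by
    intro ℓ hℓ A hA φ hφ
    rw [cya_eps_frob p O hp hℓ.1 (hℓp ℓ hℓ) A hA φ hφ]
    exact hfrobΛ ℓ hℓ A hA φ hφ
  rcases hodd with h1 | ⟨h2, hchar⟩
  · -- rank one
    rw [hfr] at h1
    obtain ⟨ρ', hρ'char, hρ'unr⟩ := pkr_rankOne_main h1 (pkb_rho ι U ρM ρV hc hUst) contΛ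
      (cya_eps p O hp) (fun n => cya_eps_continuous p O hp n)
    refine ⟨ρ', U, hUW, hU0, hUst, fun ℓ hℓ A hA φ hφ => ?_, fun q hq hqN hqp => ?_,
      fun g => ⟨t g, hρ'char g (t g) (ht g),
        pku_rel_on_U ι U ρM ρV hc hUst hUrat g (t g) _ (ht g)⟩⟩
    · rw [hρ'char φ (a ℓ) (hfrobΛ' ℓ hℓ A hA φ hφ),
        cya_eps_frob p O hp hℓ.1 (hℓp ℓ hℓ) A hA φ hφ]
    · exact hρ'unr q fun P hP σ hσ =>
        ⟨pkb_rho_eq_one ι U ρM ρV hc hUst (unramM q hq hqN hqp P hP σ hσ),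
          cya_eps_inertia p O hp hq hqp P hP hσ⟩
  · -- rank two
    rw [hfr] at h2
    have : Nontrivial (pkb_lat ι U) := by
      apply Module.nontrivial_of_finrank_pos (R := O)
      rw [h2]
      norm_num
    have hcharΛ : ∀ g : GQ, LinearMap.charpoly (pkb_rho ι U ρM ρV hc hUst g) =
        X ^ 2 - C (t g) * X + C (cya_eps p O hp g) := by
      intro g
      apply Polynomial.map_injective (algebraMap O K) hinjK
      rw [← LinearMap.charpoly_baseChange (A := K), ← pk_bc_apply, hchar g, hε'coe]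
      simp only [Polynomial.map_add, Polynomial.map_sub, Polynomial.map_mul, Polynomial.map_pow,
        Polynomial.map_X, Polynomial.map_C]
    refine ⟨{ V := pkb_lat ι U
              finrank_eq := h2
              ρ := pkb_rho ι U ρM ρV hc hUst
              isAdicContinuous := contΛ }, U, hUW, hU0, hUst, fun ℓ hℓ A hA φ hφ => ?_,
              fun q hq hqN hqp => ?_,
              fun g => ⟨t g, hcharΛ g, pku_rel_on_U ι U ρM ρV hc hUst hUrat g (t g) _ (ht g)⟩⟩
    · have ht0 : t φ - a ℓ = 0 := pk_eq_of_smul_one (Λ := pkb_lat ι U)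
        (pkc_sub_smul_one_eq_zero (pkb_rho ι U ρM ρV hc hUst) φ (ht φ) (hfrobΛ' ℓ hℓ A hA φ hφ))
      change LinearMap.charpoly (pkb_rho ι U ρM ρV hc hUst φ) = _
      rw [hcharΛ φ, sub_eq_zero.1 ht0, cya_eps_frob p O hp hℓ.1 (hℓp ℓ hℓ) A hA φ hφ]
    · intro P hP σ hσ
      exact pkb_rho_eq_one ι U ρM ρV hc hUst (unramM q hq hqN hqp P hP σ hσ)

end abs

section res

variable {K V : Type*} [Field K] [AddCommGroup V] [Module K V]
  {G : Type*} [Group G] (ρ : G →* Module.End K V)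
  (U : Submodule K V) (hUst : ∀ g, U ≤ U.comap (ρ g))

/-- The restriction of a representation to a stable subspace. -/
def pku_res : G →* Module.End K U where
  toFun g := (ρ g).restrict (p := U) (q := U) (fun _ hu => hUst g hu)
  map_one' := by
    ext x
    simp
  map_mul' g h := by
    ext x
    simp [LinearMap.restrict_apply]

@[simp] theorem pku_res_coe (g : G) (u : U) : ((pku_res ρ U hUst g u : U) : V) = ρ g (u : V) :=
  rfl

include hUst in
/-- **Kolchin on `U`**: if `ρ(s)² - 2ρ(s) + 1 = 0` on `U` for every `s` of a subgroup `I`, then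
`U ≠ 0` contains a nonzero vector fixed by `I`. -/
theorem pku_fixed_of_rel [FiniteDimensional K V] (h2 : (2 : K) ≠ 0) (hU0 : U ≠ ⊥)
    (I : Subgroup G)
    (hrel : ∀ s ∈ I, ∀ u ∈ U, ρ s (ρ s u) - (2 : K) • ρ s u + u = 0) :
    ∃ u ∈ U, u ≠ 0 ∧ ∀ s ∈ I, ρ s u = u := by
  have hunip : ∀ s : I, ((pku_res ρ U hUst).comp I.subtype s - 1)
      * ((pku_res ρ U hUst).comp I.subtype s - 1) = 0 := by
    intro s
    ext u
    have h1 := hrel s.1 s.2 u.1 u.2
    simp only [MonoidHom.comp_apply, Subgroup.coe_subtype, Module.End.mul_apply,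
      LinearMap.sub_apply, Module.End.one_apply, LinearMap.zero_apply, map_sub,
      Submodule.coe_sub, pku_res_coe, Submodule.coe_zero]
    rw [← h1, two_smul]
    abel
  have htop : (⊤ : Submodule K U) ≠ ⊥ := by
    have : Nontrivial U := (Submodule.nontrivial_iff_ne_bot).2 hU0
    exact top_ne_bot
  obtain ⟨w, -, hw0, hfix⟩ := pkq_kolchin ((pku_res ρ U hUst).comp I.subtype) h2 hunip ⊤ htop
    (fun _ _ _ => Submodule.mem_top)
  refine ⟨w.1, w.2, fun h => hw0 (Subtype.ext h), fun s hs => ?_⟩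
  have := congrArg Subtype.val (hfix ⟨s, hs⟩)
  simpa using this

end res

/-- a monic quadratic equal to `(X - 1)²` has trace `2` -/
theorem pku_trace_of_unip {O : Type*} [CommRing O] {t e : O}
    (h : (X ^ 2 - C t * X + C e : O[X]) = (X - 1) ^ 2) : t = 2 := by
  have h1 := congrArg (fun P : O[X] => P.coeff 1) h
  have e2 : ((X - 1) ^ 2 : O[X]) = X ^ 2 - C 2 * X + C 1 := by
    rw [map_one, show (C (2 : O) : O[X]) = 2 from map_ofNat C 2]
    ring
  rw [e2] at h1
  simp only [coeff_add, coeff_sub, coeff_X_pow, coeff_C_mul, coeff_X_one, coeff_C] at h1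
  simpa using h1

section core

variable (p : ℕ) [Fact p.Prime] (N : ℕ) (S : Finset ℕ)
  {Tp : Type} [AddCommGroup Tp] [Module ℤ_[p] Tp] [Module.Free ℤ_[p] Tp] [Module.Finite ℤ_[p] Tp]
  (ρ : GQ →* Module.End ℤ_[p] Tp) (Tl : ℕ → Module.End ℤ_[p] Tp)
  (O : Type) [CommRing O] [IsDomain O] [IsDiscreteValuationRing O]
  [IsAdicComplete (maximalIdeal O) O] [CharZero O] [Algebra ℤ_[p] O]
  (K : Type) [Field K] [Algebra O K] [IsFractionRing O K] [Algebra ℤ_[p] K]
  [IsScalarTower ℤ_[p] O K]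

/-- **The packaging theorem with the Carayol clause, eigenvector form.** -/
theorem pku_core (hpS : p ∈ S) (hNS : ∀ q : ℕ, q.Prime → q ∣ N → q ∈ S)
    (cont : GaloisActionIsAdicContinuous ℤ_[p] ρ)
    (unram : ∀ q : ℕ, q.Prime → ¬ q ∣ N → q ≠ p → ∀ P : ValuationSubring Qbar,
      P.LiesOverPrime q → ∀ σ ∈ P.inertiaSubgroupIn ℚ, ρ σ = 1)
    (Tl_ρ : ∀ (ℓ : ℕ) (σ : GQ), Commute (Tl ℓ) (ρ σ))
    (frob : ∀ ℓ : ℕ, pk_Good N S ℓ → ∀ A : ValuationSubring Qbar, A.LiesOverPrime ℓ →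
      ∀ φ : GQ, A.IsFrobeniusAt φ ℓ → ρ φ * ρ φ - Tl ℓ * ρ φ + (ℓ : ℤ_[p]) • 1 = 0)
    (hp : (p : O) ∈ maximalIdeal O) (a : ℕ → O)
    (hev : ∃ v : K ⊗[ℤ_[p]] Tp, v ≠ 0 ∧
      ∀ ℓ, pk_Good N S ℓ → (Tl ℓ).baseChange K v = algebraMap O K (a ℓ) • v) :
    ∃ ρ' : GaloisRepAdic O,
      (∀ ℓ : ℕ, pk_Good N S ℓ → ∀ A : ValuationSubring Qbar, A.LiesOverPrime ℓ →
        ∀ φ : GQ, A.IsFrobeniusAt φ ℓ →
          LinearMap.charpoly (ρ'.ρ φ) = X ^ 2 - C (a ℓ) * X + C ((ℓ : O))) ∧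
      (∀ q : ℕ, q.Prime → ¬ q ∣ N → q ≠ p → ρ'.IsUnramifiedAt q) ∧
      (∀ q : ℕ, q.Prime → q ≠ p →
        (∃ A : ValuationSubring Qbar, A.LiesOverPrime q ∧ ∀ w : K ⊗[ℤ_[p]] Tp,
          (∀ ℓ, pk_Good N S ℓ → (Tl ℓ).baseChange K w = algebraMap O K (a ℓ) • w) →
          (∀ s ∈ A.inertiaSubgroupIn ℚ, (ρ s).baseChange K w = w) → w = 0) →
        ¬ ρ'.IsUnipotentOnInertiaAt q) := by
  have hinjK : Function.Injective (algebraMap O K) := IsFractionRing.injective O K
  have : CharZero K := charZero_of_injective_algebraMap hinjK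
  have : IsLocalHom (algebraMap ℤ_[p] O) := pk_isLocalHom_padic p hp _
  have hW0 : pk_eigenspace p N S Tl O K a ≠ ⊥ := by
    obtain ⟨v, hv0, hv⟩ := hev
    intro h
    apply hv0
    have : v ∈ pk_eigenspace p N S Tl O K a := hv
    rw [h, Submodule.mem_bot] at this
    exact this
  obtain ⟨ρ', U, hUW, hU0, hUst, h1, h2, h3⟩ := pku_core_abs p N S hpS hNS hp
    (pkb_iota ℤ_[p] O K Tp)
    (pkb_iota_isBaseChange ℤ_[p] O K Tp) (pk_iota_injective ℤ_[p] O K Tp hinjK)
    (pk_le_span_lat ℤ_[p] O K Tp) (pk_bc O ρ) (pk_bc K ρ)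
    (fun σ m => pkb_iota_baseChange ℤ_[p] O K Tp (ρ σ) m)
    (pk_adicContinuous_bc ρ cont)
    (fun q hq hqN hqp P hP σ hσ => by
      rw [pk_bc_apply, unram q hq hqN hqp P hP σ hσ, LinearMap.baseChange_one])
    a (pk_eigenspace p N S Tl O K a) hW0
    (pk_eigenspace_stable p N S ρ Tl O K Tl_ρ a)
    (fun ℓ hℓ A hA φ hφ u hu =>
      pk_frob_eigenspace p N S ρ Tl O K a hℓ φ Tl_ρ (frob ℓ hℓ A hA φ hφ) u hu)
  refine ⟨ρ', h1, h2, fun q hq hqp hinv hunip => ?_⟩
  obtain ⟨A, hA, hinv⟩ := hinv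
  -- the relation `(s - 1)² = 0` on `U` for `s ∈ I_A`
  have hrel : ∀ s ∈ A.inertiaSubgroupIn ℚ, ∀ u ∈ U,
      pk_bc K ρ s (pk_bc K ρ s u) - (2 : K) • pk_bc K ρ s u + u = 0 := by
    intro s hs u hu
    obtain ⟨t, hchar, hrelU⟩ := h3 s
    have hε : cya_eps p O hp s = 1 := cya_eps_inertia p O hp hq hqp A hA hs
    rw [hunip A hA s hs] at hchar
    have ht : t = 2 := pku_trace_of_unip hchar.symm
    have h4 := hrelU u hu
    rw [hε, ht, map_one, one_smul, map_ofNat] at h4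
    exact h4
  obtain ⟨u, huU, hu0, hfix⟩ := pku_fixed_of_rel (pk_bc K ρ) U hUst two_ne_zero hU0
    (A.inertiaSubgroupIn ℚ) hrel
  exact hu0 (hinv u (hUW huU) (fun s hs => hfix s hs))

end core

section final

variable {p : ℕ} [Fact p.Prime] {N : ℕ} [NeZero N] {S : Finset ℕ}

/-- **S36 for a character `χ` of the Hecke algebra, from the Tate package** and the clause
[INV-W]: for every prime `q ≠ p` with `v_q(N) = 2` there is a valuation ring `A` of `Q̄` over `q`
such that no nonzero `χ`-eigenvector of `K ⊗ Tp` is fixed by the inertia group `I_A`.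
(`𝒪'' := 𝒪'`; the hypothesis `hres` of the frozen statement is not needed.) -/
theorem pku_S36_of_tate (D : pk_Tate p N S) (hpS : p ∈ S)
    (hNS : ∀ q : ℕ, q.Prime → q ∣ N → q ∈ S)
    (O : Type) [CommRing O] [IsDomain O] [IsDiscreteValuationRing O]
    [IsAdicComplete (maximalIdeal O) O] [Finite (ResidueField O)] [CharZero O]
    [Algebra ℤ_[p] O] (hp : (p : O) ∈ maximalIdeal O)
    (χ : CuspForm.heckeAlgebra N 2 (↑S : Set ℕ) →+* O)
    (χ₀ : ↥(Algebra.adjoin ℤ_[p] (pk_heckeSet N S D.Tl)) →ₐ[ℤ_[p]] O)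
    (hχ₀ : ∀ (ℓ : ℕ) (hℓ : ℓ.Prime) (hℓN : ¬ ℓ ∣ N) (hℓS : ℓ ∉ (↑S : Set ℕ)),
      χ₀ ⟨D.Tl ℓ, pk_mem_heckeSet D.Tl hℓ hℓN hℓS⟩ = χ (CuspForm.heckeAlgebra.T hℓ hℓN hℓS))
    (hinv : ∀ q : ℕ, q.Prime → q ≠ p → N.factorization q = 2 →
      ∃ A : ValuationSubring Qbar, A.LiesOverPrime q ∧
        ∀ u : FractionRing O ⊗[ℤ_[p]] D.Tp,
          (∀ (ℓ : ℕ) (hℓ : ℓ.Prime) (hℓN : ¬ ℓ ∣ N) (hℓS : ℓ ∉ (↑S : Set ℕ)),
            (D.Tl ℓ).baseChange (FractionRing O) u =
              algebraMap O (FractionRing O) (χ (CuspForm.heckeAlgebra.T hℓ hℓN hℓS)) • u) →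
          (∀ s ∈ A.inertiaSubgroupIn ℚ, (D.ρ s).baseChange (FractionRing O) u = u) → u = 0) :
    ∃ (O'' : Type) (_ : CommRing O'') (_ : IsDomain O'') (_ : IsDiscreteValuationRing O'')
      (_ : IsAdicComplete (maximalIdeal O'') O'') (_ : Finite (ResidueField O''))
      (_ : CharZero O'') (_ : Algebra O O'') (_ : Module.Finite O O'')
      (_ : IsLocalHom (algebraMap O O'')),
      Function.Injective (algebraMap O O'') ∧
      ∃ ρ : GaloisRepAdic O'',
        (∀ (ℓ : ℕ) (hℓ : ℓ.Prime) (hℓN : ¬ ℓ ∣ N) (hℓS : ℓ ∉ (↑S : Set ℕ)),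
          ∀ A : ValuationSubring Qbar, A.LiesOverPrime ℓ →
            ∀ σ : GQ, A.IsFrobeniusAt σ ℓ →
              LinearMap.charpoly (ρ.ρ σ) =
                X ^ 2 - C (algebraMap O O'' (χ (CuspForm.heckeAlgebra.T hℓ hℓN hℓS))) * X
                  + C ((ℓ : O''))) ∧
        (∀ q : ℕ, q.Prime → q ≠ p → N.factorization q = 2 →
          ¬ ρ.IsUnipotentOnInertiaAt q) := by
  classical
  have hinjO : Function.Injective (algebraMap ℤ_[p] O) := pk_padic_injective p (algebraMap ℤ_[p] O)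
  have hinj : Function.Injective (algebraMap ℤ_[p] (FractionRing O)) := by
    rw [IsScalarTower.algebraMap_eq ℤ_[p] O (FractionRing O)]
    exact (IsFractionRing.injective O (FractionRing O)).comp hinjO
  have : FaithfulSMul ℤ_[p] (FractionRing O) :=
    (faithfulSMul_iff_algebraMap_injective _ _).2 hinj
  obtain ⟨v, hv0, hv⟩ := pk_eigen_tensor (Algebra.adjoin ℤ_[p] (pk_heckeSet N S D.Tl))
    (pk_hecke_comm D) ((IsScalarTower.toAlgHom ℤ_[p] O (FractionRing O)).comp χ₀)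
  let a : ℕ → O := fun ℓ =>
    if h : pk_Good N S ℓ then χ (CuspForm.heckeAlgebra.T h.1 h.2.1 h.2.2) else 0
  have ha : ∀ (ℓ : ℕ) (h : pk_Good N S ℓ), a ℓ = χ (CuspForm.heckeAlgebra.T h.1 h.2.1 h.2.2) :=
    fun ℓ h => by simp only [a, dif_pos h]
  obtain ⟨ρ', h1, -, h3⟩ := pku_core p N S D.ρ D.Tl O (FractionRing O) hpS hNS D.cont D.unram
    D.Tl_ρ D.frob hp a ⟨v, hv0, fun ℓ hℓ => by
      have := hv ⟨D.Tl ℓ, pk_mem_heckeSet D.Tl hℓ.1 hℓ.2.1 hℓ.2.2⟩
      rw [this, ha ℓ hℓ]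
      congr 1
      change algebraMap O (FractionRing O) (χ₀ _) = _
      rw [hχ₀ ℓ hℓ.1 hℓ.2.1 hℓ.2.2]⟩
  refine ⟨O, inferInstance, inferInstance, inferInstance, inferInstance, inferInstance,
    inferInstance, Algebra.id O, inferInstance, inferInstance, Function.injective_id, ρ', ?_, ?_⟩
  · intro ℓ hℓ hℓN hℓS A hA σ hσ
    have hgood : pk_Good N S ℓ := ⟨hℓ, hℓN, hℓS⟩
    rw [h1 ℓ hgood A hA σ hσ, ha ℓ hgood]
    simp only [Algebra.algebraMap_self, RingHom.id_apply]
  · intro q hq hqp hq2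
    obtain ⟨A, hA, hA0⟩ := hinv q hq hqp hq2
    refine h3 q hq hqp ⟨A, hA, fun w hw hfix => hA0 w (fun ℓ hℓ hℓN hℓS => ?_) hfix⟩
    have h4 := hw ℓ ⟨hℓ, hℓN, hℓS⟩
    rw [ha ℓ ⟨hℓ, hℓN, hℓS⟩] at h4
    exact h4

end final

end Fermat.Agent.S36
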