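/-
Project S36 (Carayol), leaf [V3-INST](0) (helper15): the hypotheses `heA`, `hfA` of `s36v_main`
(S36/Val3.lean) — "the Gauss valuation `VA` of `E₂` has `e = f = 1` over the Gauss valuation `VF`
of `E₁`" — in abstract form, in the vocabulary of SS/Model/TwoValW.lean and S36/Ins1/Val.lean.
Prefix `s36vh_`.

* `s36vh_residue_top`        : `K' ⊆ E` (`K' = β E₁`) with the one-valuation data
  `s36i_Data K' R' q V t r` (`κ(V) = κ(R')[t̄]`, degree `q`); `K1 → E` a second subfield (`K1 = E₁`)
  containing `t` and such that every element of `R'` is congruent mod `𝔪(V)` to an element of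
  `V ∩ K1`.  Then every element of `V` is congruent mod `𝔪(V)` to an element of `V ∩ K1`:
  `f(V | V ∩ K1) = 1`.
* `s36vh_inertiaDeg_one`     : `∀ a ∈ V, ∃ r ∈ R, a ≡ r mod 𝔪(V)` ⟹ `f(centre of V | 𝔪_R) = 1`
  (`= hfA`);
* `s36vh_ramificationIdx_one`: a uniformiser of `R` generates `𝔪(V)` ⟹ `e(centre of V | 𝔪_R) = 1`
  (`= heA`).
-/
import Mathlib
import Fermat.Agent.S36.Ins1.Val

set_option autoImplicit false
set_option linter.unusedSectionVars false
set_option linter.style.haveILetI false

open Fermat.Agent.JT3 Fermat.Agent.SS IsLocalRing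

namespace Fermat.Agent.S36

section Top

variable (K' : Type*) {E : Type*} [Field K'] [Field E] [Algebra K' E] [FiniteDimensional K' E]
  [Algebra.IsSeparable K' E]
  (R' : Type*) [CommRing R'] [IsDomain R'] [IsDiscreteValuationRing R'] [Algebra R' K']
  [IsFractionRing R' K'] [Algebra R' E] [IsScalarTower R' K' E]

variable {K' R'} {q : ℕ} {V : ValuationSubring E} {t : E} {r : R'}

include K' in
/-- **`f(V | V ∩ K1) = 1`**, element form. -/
theorem s36vh_residue_top (D : s36i_Data K' R' q V t r) {K1 : Type*} [Field K1] [Algebra K1 E]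
    (ht : ∃ y : K1, algebraMap K1 E y = t)
    (hb : ∀ c : R', ∃ y : K1, algebraMap K1 E y ∈ V ∧
      algebraMap R' E c - algebraMap K1 E y ∈ V.nonunits)
    (a : E) (ha : a ∈ V) :
    ∃ y : K1, algebraMap K1 E y ∈ V ∧ a - algebraMap K1 E y ∈ V.nonunits := by
  obtain ⟨hD, hF, hfin, hfree, hrk⟩ := ssm_tw_inst K' (E := E) R'
  haveI := hD
  haveI := hfin
  haveI := hfree
  have hV := D.overR
  obtain ⟨-, -, -, hf, -⟩ := s36i_core D
  haveI hP : (ssm_tw_centre K' R' V hV).IsMaximal := ssm_tw_centre_isMaximal hV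
  haveI : (ssm_tw_centre K' R' V hV).LiesOver (maximalIdeal R') :=
    ⟨(ssm_tw_comap_centre hV).symm⟩
  letI : Field (R' ⧸ maximalIdeal R') := Ideal.Quotient.field (maximalIdeal R')
  letI : Field (↥(integralClosure R' E) ⧸ ssm_tw_centre K' R' V hV) :=
    Ideal.Quotient.field (ssm_tw_centre K' R' V hV)
  rw [Ideal.inertiaDeg_eq_of_isMaximal (maximalIdeal R') (ssm_tw_centre K' R' V hV)] at hf
  -- the image of `V ∩ K1` in the residue field
  let A' : Subalgebra (R' ⧸ maximalIdeal R')
      (↥(integralClosure R' E) ⧸ ssm_tw_centre K' R' V hV) :=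
    { carrier := {x | ∃ s : ↥(integralClosure R' E),
        Ideal.Quotient.mk (ssm_tw_centre K' R' V hV) s = x ∧
          ∃ y : K1, algebraMap K1 E y ∈ V ∧ (s : E) - algebraMap K1 E y ∈ V.nonunits}
      mul_mem' := by
        rintro _ _ ⟨s1, rfl, y1, hy1, h1⟩ ⟨s2, rfl, y2, hy2, h2⟩
        refine ⟨s1 * s2, map_mul _ _ _, y1 * y2, ?_, ?_⟩
        · rw [map_mul]; exact V.mul_mem _ _ hy1 hy2
        · have e : ((s1 * s2 : ↥(integralClosure R' E)) : E) - algebraMap K1 E (y1 * y2) =
              (s1 : E) * ((s2 : E) - algebraMap K1 E y2) +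
                algebraMap K1 E y2 * ((s1 : E) - algebraMap K1 E y1) := by
            rw [map_mul, MulMemClass.coe_mul]
            ring
          rw [e]
          exact ssm_tw_nonunits_add _ (ssm_tw_nonunits_mul _ (ssm_tw_le hV s1.1 s1.2) h2)
            (ssm_tw_nonunits_mul _ hy2 h1)
      add_mem' := by
        rintro _ _ ⟨s1, rfl, y1, hy1, h1⟩ ⟨s2, rfl, y2, hy2, h2⟩
        refine ⟨s1 + s2, map_add _ _ _, y1 + y2, ?_, ?_⟩
        · rw [map_add]; exact V.add_mem _ _ hy1 hy2
        · have e : ((s1 + s2 : ↥(integralClosure R' E)) : E) - algebraMap K1 E (y1 + y2) =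
              ((s1 : E) - algebraMap K1 E y1) + ((s2 : E) - algebraMap K1 E y2) := by
            rw [map_add, AddMemClass.coe_add]
            ring
          rw [e]
          exact ssm_tw_nonunits_add _ h1 h2
      algebraMap_mem' := by
        intro c
        obtain ⟨c, rfl⟩ := Ideal.Quotient.mk_surjective c
        obtain ⟨y, hy, hcy⟩ := hb c
        refine ⟨algebraMap R' ↥(integralClosure R' E) c, ?_, y, hy, hcy⟩
        rw [Ideal.Quotient.algebraMap_mk_of_liesOver] }
  have hsimple := Subalgebra.isSimpleOrder_of_finrank_prime (R' ⧸ maximalIdeal R')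
    (↥(integralClosure R' E) ⧸ ssm_tw_centre K' R' V hV) (hf ▸ D.q_prime)
  have hti : t ∈ integralClosure R' E := (s36i_integral D t).2 D.t_mem
  have htA : Ideal.Quotient.mk (ssm_tw_centre K' R' V hV) ⟨t, hti⟩ ∈ A' := by
    obtain ⟨y, hy⟩ := ht
    refine ⟨⟨t, hti⟩, rfl, y, hy ▸ D.t_mem, ?_⟩
    show t - algebraMap K1 E y ∈ V.nonunits
    rw [hy, sub_self]
    exact (ssm_tw_nonunits_iff V 0).2 ⟨V.zero_mem, Or.inl rfl⟩
  have hai : a ∈ integralClosure R' E := (s36i_integral D a).2 ha
  rcases hsimple.eq_bot_or_eq_top A' with h | h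
  · exfalso
    rw [h] at htA
    obtain ⟨b, hb'⟩ := Algebra.mem_bot.1 htA
    obtain ⟨z, rfl⟩ := Ideal.Quotient.mk_surjective b
    rw [Ideal.Quotient.algebraMap_mk_of_liesOver] at hb'
    have h3 := (Ideal.Quotient.eq).1 hb'.symm
    rw [ssm_tw_mem_centre] at h3
    exact D.nres z h3
  · have hmem : Ideal.Quotient.mk (ssm_tw_centre K' R' V hV) ⟨a, hai⟩ ∈ A' := by
      rw [h]; exact Algebra.mem_top
    obtain ⟨s, hs, y, hy, hsy⟩ := hmem
    refine ⟨y, hy, ?_⟩
    have h3 := (Ideal.Quotient.eq).1 hs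
    rw [ssm_tw_mem_centre] at h3
    have e : a - algebraMap K1 E y =
        ((s : E) - algebraMap K1 E y) -
          ((s - ⟨a, hai⟩ : ↥(integralClosure R' E)) : E) := by
      rw [AddSubgroupClass.coe_sub]
      ring
    rw [e]
    exact ssm_tw_nonunits_sub _ hsy h3

end Top

section EF

variable (K : Type*) {E : Type*} [Field K] [Field E] [Algebra K E] [FiniteDimensional K E]
  [Algebra.IsSeparable K E]
  (R : Type*) [CommRing R] [IsDomain R] [IsDiscreteValuationRing R] [Algebra R K]
  [IsFractionRing R K] [Algebra R E] [IsScalarTower R K E]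

variable {K R} {V : ValuationSubring E}

include K in
/-- **`hfA`**: if every element of `V` is congruent mod `𝔪(V)` to an element of `R`, the centre of
`V` on `integralClosure R E` has inertia degree one. -/
theorem s36vh_inertiaDeg_one (hV : ssm_tw_Over K R V)
    (hres : ∀ a ∈ V, ∃ r : R, a - algebraMap R E r ∈ V.nonunits) :
    (ssm_tw_centre K R V hV).inertiaDeg R = 1 := by
  obtain ⟨hD, hF, hfin, hfree, hrk⟩ := ssm_tw_inst K (E := E) R
  haveI := hD
  haveI := hfin
  haveI := hfree
  haveI hP : (ssm_tw_centre K R V hV).IsMaximal := ssm_tw_centre_isMaximal hV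
  haveI : (ssm_tw_centre K R V hV).LiesOver (maximalIdeal R) :=
    ⟨(ssm_tw_comap_centre hV).symm⟩
  letI : Field (R ⧸ maximalIdeal R) := Ideal.Quotient.field (maximalIdeal R)
  letI : Field (↥(integralClosure R E) ⧸ ssm_tw_centre K R V hV) :=
    Ideal.Quotient.field (ssm_tw_centre K R V hV)
  rw [Ideal.inertiaDeg_eq_of_isMaximal (maximalIdeal R) (ssm_tw_centre K R V hV)]
  have hbij : Function.Bijective (algebraMap (R ⧸ maximalIdeal R)
      (↥(integralClosure R E) ⧸ ssm_tw_centre K R V hV)) := by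
    refine ⟨(algebraMap (R ⧸ maximalIdeal R) _).injective, fun y => ?_⟩
    obtain ⟨s, rfl⟩ := Ideal.Quotient.mk_surjective y
    obtain ⟨r, hr⟩ := hres (s : E) (ssm_tw_le hV s.1 s.2)
    refine ⟨Ideal.Quotient.mk _ r, ?_⟩
    rw [Ideal.Quotient.algebraMap_mk_of_liesOver]
    refine ((Ideal.Quotient.eq).2 ?_).symm
    rw [ssm_tw_mem_centre]
    exact hr
  have e1 : (R ⧸ maximalIdeal R) ≃ₗ[R ⧸ maximalIdeal R]
      (↥(integralClosure R E) ⧸ ssm_tw_centre K R V hV) :=
    LinearEquiv.ofBijective (Algebra.linearMap (R ⧸ maximalIdeal R) _) hbij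
  rw [← e1.finrank_eq, Module.finrank_self]

include K in
/-- **`heA`**: if a uniformiser of `R` generates `𝔪(V)`, the centre of `V` on `integralClosure R E`
has ramification index one. -/
theorem s36vh_ramificationIdx_one (hV : ssm_tw_Over K R V) (π : R) (hπ : Irreducible π)
    (hunif : ∀ a ∈ V.nonunits, ∃ b ∈ V, a = algebraMap R E π * b) :
    (ssm_tw_centre K R V hV).ramificationIdx R = 1 := by
  obtain ⟨hD, hF, hfin, hfree, hrk⟩ := ssm_tw_inst K (E := E) R
  haveI := hD
  haveI := hfin
  haveI := hfree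
  have hinj : Function.Injective (algebraMap R E) := by
    rw [IsScalarTower.algebraMap_eq R K E]
    exact (algebraMap K E).injective.comp (IsFractionRing.injective R K)
  haveI : FaithfulSMul R E := (faithfulSMul_iff_algebraMap_injective R E).2 hinj
  haveI : Module.IsTorsionFree R E := inferInstance
  haveI : Module.IsTorsionFree R ↥(integralClosure R E) := inferInstance
  haveI hP : (ssm_tw_centre K R V hV).IsPrime := ssm_tw_centre_isPrime hV
  haveI : (ssm_tw_centre K R V hV).LiesOver (maximalIdeal R) :=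
    ⟨(ssm_tw_comap_centre hV).symm⟩
  have hp0 : maximalIdeal R ≠ ⊥ := IsDiscreteValuationRing.not_a_field R
  rw [← Ideal.ramificationIdx'_eq_ramificationIdx (maximalIdeal R) (ssm_tw_centre K R V hV) hp0]
  refine Ideal.ramificationIdx'_spec ?_ ?_
  · rw [pow_one]
    exact ssm_tw_map_le_centre hV
  · intro hle
    have hπm : algebraMap R ↥(integralClosure R E) π ∈
        (maximalIdeal R).map (algebraMap R ↥(integralClosure R E)) :=
      Ideal.mem_map_of_mem _ ((mem_maximalIdeal _).2 hπ.not_isUnit)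
    have h2 := hle hπm
    -- every element of `P ^ 2` is `π ^ 2` times an element of `V`
    have key : ∀ x ∈ (ssm_tw_centre K R V hV) ^ (1 + 1),
        ∃ b ∈ V, ((x : ↥(integralClosure R E)) : E) = algebraMap R E π ^ 2 * b := by
      intro x hx
      rw [pow_succ, pow_one] at hx
      refine Submodule.mul_induction_on hx ?_ ?_
      · intro m hm n hn
        rw [ssm_tw_mem_centre] at hm hn
        obtain ⟨b1, hb1, e1⟩ := hunif _ hm
        obtain ⟨b2, hb2, e2⟩ := hunif _ hn
        refine ⟨b1 * b2, V.mul_mem _ _ hb1 hb2, ?_⟩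
        rw [MulMemClass.coe_mul, e1, e2]
        ring
      · rintro x y ⟨b1, hb1, e1⟩ ⟨b2, hb2, e2⟩
        refine ⟨b1 + b2, V.add_mem _ _ hb1 hb2, ?_⟩
        rw [AddMemClass.coe_add, e1, e2]
        ring
    obtain ⟨b, hb, e⟩ := key _ h2
    have hπ0 : algebraMap R E π ≠ 0 := fun h0 => hπ.ne_zero (hinj (by rw [h0, map_zero]))
    have e' : algebraMap R E π * b = 1 := by
      have h3 : ((algebraMap R ↥(integralClosure R E) π : ↥(integralClosure R E)) : E) =
          algebraMap R E π := rfl
      rw [h3] at e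
      have h4 : algebraMap R E π * (algebraMap R E π * b) = algebraMap R E π * 1 := by
        rw [mul_one]
        calc algebraMap R E π * (algebraMap R E π * b) = algebraMap R E π ^ 2 * b := by ring
          _ = algebraMap R E π := e.symm
      exact mul_left_cancel₀ hπ0 h4
    -- so `π` is a unit of `V`, contradiction
    have hnon : algebraMap R E π ∈ V.nonunits :=
      (ssm_tw_over_nonunits hV π).2 ((mem_maximalIdeal _).2 hπ.not_isUnit)
    have h5 := ssm_tw_nonunits_mul V hb hnon
    rw [mul_comm, e'] at h5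
    exact ((ssm_tw_nonunits_iff V 1).1 h5).2.elim one_ne_zero (by simp [V.one_mem])

end EF

end Fermat.Agent.S36
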