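/-
Project S36 (preparation), cell [RED-N2], ABSTRACT CORE (helper15).  Prefix `s36nr_`.

Reduction of the norm modulo the maximal ideal IN THE PRESENCE OF RAMIFICATION.
`R` a local ring with maximal ideal `p` and residue field `κ`, `S` a finite free `R`-algebra.

* `s36nr_norm_add_nilpotent` : in a finite free algebra `B` over a domain `k`,
  `N_{B/k}(c + n) = c ^ [B : k]` for `c ∈ k` and `n` nilpotent;
* `s36nr_norm_of_pow_mem`    : `I` an ideal of `S` over `p`, `(s - r) ^ N ∈ I` with `r ∈ R`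
  ⟹ `N_{(S/I)/κ}(s̄) = r̄ ^ [S/I : κ]`;
* `s36nr_finrank_add`        : `pS = P₁ P₂`, `P₁`, `P₂` coprime over `p`
  ⟹ `[S/P₁ : κ] + [S/P₂ : κ] = rank_R S`;
* `s36nr_norm_two`           : `pS = P₁ P₂` coprime, `(s - r₁) ^ N₁ ∈ P₁`, `(s - r₂) ^ N₂ ∈ P₂`
  ⟹ `N_{S/R}(s) ≡ r₁ ^ d₁ · r₂ ^ d₂ mod p`, `d_i = [S/P_i : κ]`
  (typical use: `P₁ = Q₁` a prime with `e = f = 1`, `P₂ = Q₂ ^ e`, `f(Q₂) = 1`, `s ≡ r_i mod Q_i`);
* `s36nr_norm_two_surj`      : the same with `R → S/P₁` onto: `N_{S/R}(s) ≡ r₁ · r₂ ^ (n - 1)`,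
  `n = rank_R S` — the shape of the norm from level `N'q²` to level `N'q` along the component `V₁`
  (`V₂₀` with `e = f = 1`, `V₁₁` with `e = q - 1`, `f = 1`): `N(a) ≡ r₂₀ · r₁₁ ^ (q - 1)`;
* `s36nr_norm_one`           : variant with ONE ideal: `(s - r) ^ N ∈ pS` ⟹ `N_{S/R}(s) ≡ r ^ n`;
* `s36nr_norm_insep`         : `pS` maximal, `rank_R S = q = char κ`, `s ^ q ≡ r mod pS`
  ⟹ `N_{S/R}(s) ≡ r` (a component on which the degeneracy map is the Frobenius).
-/
import Mathlib
import Fermat.Agent.S35.RedN.Core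

set_option autoImplicit false
set_option linter.unusedSectionVars false
set_option linter.style.haveILetI false

noncomputable section

namespace Fermat.Agent.S36

open IsLocalRing Module Fermat.Agent.S35

/-! ### the norm of `scalar + nilpotent` -/

/-- in a finite free algebra `B` over a domain `k`: `N_{B/k}(c + n) = c ^ [B : k]` for `n`
nilpotent. -/
theorem s36nr_norm_add_nilpotent {k B : Type*} [CommRing k] [IsDomain k] [CommRing B]
    [Algebra k B] [Module.Free k B] [Module.Finite k B] (c : k) (n : B) (hn : IsNilpotent n) :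
    Algebra.norm k (algebraMap k B c + n) = c ^ Module.finrank k B := by
  rw [Algebra.norm_apply]
  have h1 : IsNilpotent (-(Algebra.lmul k B n) : Module.End k B) :=
    (hn.map (Algebra.lmul k B)).neg
  have h2 := LinearMap.eval_charpoly (-(Algebra.lmul k B n)) c
  rw [h1.charpoly_eq_X_pow_finrank, Polynomial.eval_pow, Polynomial.eval_X] at h2
  rw [h2]
  congr 1
  rw [map_add, AlgHom.commutes, sub_neg_eq_add]

/-- element form: `x - c` nilpotent ⟹ `N(x) = c ^ [B : k]`. -/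
theorem s36nr_norm_of_sub_nilpotent {k B : Type*} [CommRing k] [IsDomain k] [CommRing B]
    [Algebra k B] [Module.Free k B] [Module.Finite k B] (c : k) (x : B)
    (hx : IsNilpotent (x - algebraMap k B c)) :
    Algebra.norm k x = c ^ Module.finrank k B := by
  have := s36nr_norm_add_nilpotent c (x - algebraMap k B c) hx
  rwa [add_sub_cancel] at this

section Local

variable {R S : Type*} [CommRing R] [CommRing S] [Algebra R S] [IsLocalRing R]
  [Module.Free R S] [Module.Finite R S]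

attribute [local instance] Ideal.Quotient.field

/-- `I` an ideal of `S` over `p`, `(s - r) ^ N ∈ I` ⟹ `N_{(S/I)/κ}(s̄) = r̄ ^ [S/I : κ]`. -/
theorem s36nr_norm_of_pow_mem (I : Ideal S) [I.LiesOver (maximalIdeal R)] (s : S) (r : R) (N : ℕ)
    (h : (s - algebraMap R S r) ^ N ∈ I) :
    Algebra.norm (R ⧸ maximalIdeal R) (Ideal.Quotient.mk I s) =
      Ideal.Quotient.mk (maximalIdeal R) r ^
        Module.finrank (R ⧸ maximalIdeal R) (S ⧸ I) := by
  have : Module.Finite (R ⧸ maximalIdeal R) (S ⧸ I) :=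
    Module.Finite.of_restrictScalars_finite R _ _
  refine s36nr_norm_of_sub_nilpotent _ _ ⟨N, ?_⟩
  rw [Ideal.Quotient.algebraMap_mk_of_liesOver, ← map_sub, ← map_pow]
  exact Ideal.Quotient.eq_zero_iff_mem.2 h

/-- the CRT algebra isomorphism `S/pS ≃ S/P₁ × S/P₂` over `κ`. -/
def s36nr_crt (P1 P2 : Ideal S) [P1.LiesOver (maximalIdeal R)] [P2.LiesOver (maximalIdeal R)]
    (hmap : (maximalIdeal R).map (algebraMap R S) = P1 * P2) (hcop : IsCoprime P1 P2) :
    (S ⧸ (maximalIdeal R).map (algebraMap R S)) ≃ₐ[R ⧸ maximalIdeal R] ((S ⧸ P1) × S ⧸ P2) :=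
  { __ := (Ideal.quotEquivOfEq hmap).trans (Ideal.quotientMulEquivQuotientProd P1 P2 hcop),
    commutes' := Quotient.ind fun _ ↦ rfl }

/-- `[S/P₁ : κ] + [S/P₂ : κ] = rank_R S`. -/
theorem s36nr_finrank_add (P1 P2 : Ideal S) [P1.LiesOver (maximalIdeal R)]
    [P2.LiesOver (maximalIdeal R)]
    (hmap : (maximalIdeal R).map (algebraMap R S) = P1 * P2) (hcop : IsCoprime P1 P2) :
    Module.finrank (R ⧸ maximalIdeal R) (S ⧸ P1) + Module.finrank (R ⧸ maximalIdeal R) (S ⧸ P2) =
      Module.finrank R S := by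
  have : Module.Finite (R ⧸ maximalIdeal R) (S ⧸ P1) :=
    Module.Finite.of_restrictScalars_finite R _ _
  have : Module.Finite (R ⧸ maximalIdeal R) (S ⧸ P2) :=
    Module.Finite.of_restrictScalars_finite R _ _
  have h3 := (s36nr_crt P1 P2 hmap hcop).toLinearEquiv.finrank_eq
  rw [finrank_quotient_map, Module.finrank_prod] at h3
  exact h3.symm

/-- **[RED-N2], ideal form.**  `pS = P₁ P₂` with `P₁`, `P₂` coprime over `p`; if `s - r₁` is
nilpotent modulo `P₁` and `s - r₂` is nilpotent modulo `P₂` (`r_i ∈ R`), then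
`N_{S/R}(s) ≡ r₁ ^ d₁ · r₂ ^ d₂ mod p` with `d_i = [S/P_i : κ]`. -/
theorem s36nr_norm_two (P1 P2 : Ideal S) [P1.LiesOver (maximalIdeal R)]
    [P2.LiesOver (maximalIdeal R)]
    (hmap : (maximalIdeal R).map (algebraMap R S) = P1 * P2) (hcop : IsCoprime P1 P2)
    (s : S) (r1 r2 : R) (N1 N2 : ℕ) (h1 : (s - algebraMap R S r1) ^ N1 ∈ P1)
    (h2 : (s - algebraMap R S r2) ^ N2 ∈ P2) :
    Algebra.norm R s - r1 ^ Module.finrank (R ⧸ maximalIdeal R) (S ⧸ P1) *
      r2 ^ Module.finrank (R ⧸ maximalIdeal R) (S ⧸ P2) ∈ maximalIdeal R := by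
  have key := rdn_norm_mod P1 P2 hmap hcop s
  rw [s36nr_norm_of_pow_mem P1 s r1 N1 h1, s36nr_norm_of_pow_mem P2 s r2 N2 h2, ← map_pow,
    ← map_pow, ← map_mul] at key
  exact (Ideal.Quotient.eq).1 key

/-- **[RED-N2], the shape used along `V₁`**: `pS = P₁ P₂` coprime over `p`, `R → S/P₁` onto
(`P₁` a prime with `e = f = 1`), `s ≡ r₁ mod P₁`, `s - r₂` nilpotent modulo `P₂`
(`P₂ = Q ^ e` with `f(Q) = 1` and `s ≡ r₂ mod Q`).  Then `N_{S/R}(s) ≡ r₁ · r₂ ^ (n - 1) mod p`,
`n = rank_R S`. -/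
theorem s36nr_norm_two_surj (P1 P2 : Ideal S) [P1.LiesOver (maximalIdeal R)]
    [P2.LiesOver (maximalIdeal R)]
    (hmap : (maximalIdeal R).map (algebraMap R S) = P1 * P2) (hcop : IsCoprime P1 P2)
    (hsurj : ∀ s : S, ∃ r : R, s - algebraMap R S r ∈ P1)
    (s : S) (r1 r2 : R) (N2 : ℕ) (h1 : s - algebraMap R S r1 ∈ P1)
    (h2 : (s - algebraMap R S r2) ^ N2 ∈ P2) :
    Algebra.norm R s - r1 * r2 ^ (Module.finrank R S - 1) ∈ maximalIdeal R := by
  have hP1top : P1 ≠ ⊤ := by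
    intro h
    have h3 : maximalIdeal R = P1.under R := Ideal.LiesOver.over
    rw [h, Ideal.under, Ideal.comap_top] at h3
    exact (maximalIdeal.isMaximal R).ne_top h3
  haveI : Nontrivial (S ⧸ P1) := Ideal.Quotient.nontrivial_iff.mpr hP1top
  have hbij : Function.Bijective (algebraMap (R ⧸ maximalIdeal R) (S ⧸ P1)) := by
    refine ⟨(algebraMap (R ⧸ maximalIdeal R) (S ⧸ P1)).injective, fun y => ?_⟩
    obtain ⟨y, rfl⟩ := Ideal.Quotient.mk_surjective y
    obtain ⟨r, hr⟩ := hsurj y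
    refine ⟨Ideal.Quotient.mk _ r, ?_⟩
    rw [Ideal.Quotient.algebraMap_mk_of_liesOver]
    exact ((Ideal.Quotient.eq).2 hr).symm
  have hf1 : Module.finrank (R ⧸ maximalIdeal R) (S ⧸ P1) = 1 := by
    have e1 : (R ⧸ maximalIdeal R) ≃ₗ[R ⧸ maximalIdeal R] (S ⧸ P1) :=
      LinearEquiv.ofBijective (Algebra.linearMap (R ⧸ maximalIdeal R) (S ⧸ P1)) hbij
    rw [← e1.finrank_eq, Module.finrank_self]
  have hadd := s36nr_finrank_add P1 P2 hmap hcop
  have hf2 : Module.finrank (R ⧸ maximalIdeal R) (S ⧸ P2) = Module.finrank R S - 1 := by omega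
  have h1' : (s - algebraMap R S r1) ^ 1 ∈ P1 := by rwa [pow_one]
  have := s36nr_norm_two P1 P2 hmap hcop s r1 r2 1 N2 h1' h2
  rwa [hf1, hf2, pow_one] at this

/-- one ideal: `(s - r) ^ N ∈ pS` ⟹ `N_{S/R}(s) ≡ r ^ n mod p`, `n = rank_R S`. -/
theorem s36nr_norm_one (s : S) (r : R) (N : ℕ)
    (h : (s - algebraMap R S r) ^ N ∈ (maximalIdeal R).map (algebraMap R S)) :
    Algebra.norm R s - r ^ Module.finrank R S ∈ maximalIdeal R := by
  have : Module.Finite (R ⧸ maximalIdeal R) (S ⧸ (maximalIdeal R).map (algebraMap R S)) :=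
    Module.Finite.of_restrictScalars_finite R _ _
  have key := rdn_norm_quotient_mk (R := R) s
  have hnil : IsNilpotent (Ideal.Quotient.mk ((maximalIdeal R).map (algebraMap R S)) s -
      algebraMap (R ⧸ maximalIdeal R) _ (Ideal.Quotient.mk (maximalIdeal R) r)) := by
    refine ⟨N, ?_⟩
    rw [Ideal.Quotient.algebraMap_quotient_map_quotient, ← map_sub, ← map_pow]
    exact Ideal.Quotient.eq_zero_iff_mem.2 h
  rw [s36nr_norm_of_sub_nilpotent _ _ hnil, finrank_quotient_map, ← map_pow] at key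
  exact (Ideal.Quotient.eq).1 key.symm

/-- ONE prime, purely inseparable of degree `q`: `pS` maximal, `rank_R S = q = char κ`,
`s ^ q ≡ r mod pS` ⟹ `N_{S/R}(s) ≡ r mod p` — the shape of the norm along a component on which
the degeneracy map is the Frobenius (`V₀₂` over `V₂` for `α`, `V₂₀` over `V₁` for `β`). -/
theorem s36nr_norm_insep {q : ℕ} (hq : q.Prime) (hqR : (q : R) ∈ maximalIdeal R)
    (hrank : Module.finrank R S = q)
    [hmax : ((maximalIdeal R).map (algebraMap R S)).IsMaximal] (s : S) (r : R)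
    (h : s ^ q - algebraMap R S r ∈ (maximalIdeal R).map (algebraMap R S)) :
    Algebra.norm R s - r ∈ maximalIdeal R := by
  haveI : Fact q.Prime := ⟨hq⟩
  have : Module.Finite (R ⧸ maximalIdeal R) (S ⧸ (maximalIdeal R).map (algebraMap R S)) :=
    Module.Finite.of_restrictScalars_finite R _ _
  haveI : CharP (R ⧸ maximalIdeal R) q := by
    have h0 : ((q : ℕ) : R ⧸ maximalIdeal R) = 0 := by
      rw [← map_natCast (Ideal.Quotient.mk (maximalIdeal R))]
      exact Ideal.Quotient.eq_zero_iff_mem.2 hqR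
    have hd : ringChar (R ⧸ maximalIdeal R) ∣ q := ringChar.dvd h0
    have he : ringChar (R ⧸ maximalIdeal R) = q := by
      rcases (Nat.dvd_prime hq).1 hd with h | h
      · exact absurd h CharP.ringChar_ne_one
      · exact h
    rw [← he]
    exact ringChar.charP _
  have key := rdn_norm_quotient_mk (R := R) s
  have hfr : Module.finrank (R ⧸ maximalIdeal R)
      (S ⧸ (maximalIdeal R).map (algebraMap R S)) = q := by
    rw [finrank_quotient_map, hrank]
  rw [rdn_norm_of_pow q hfr _ (Ideal.Quotient.mk (maximalIdeal R) r) (by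
    rw [Ideal.Quotient.algebraMap_quotient_map_quotient, ← map_pow]
    exact (Ideal.Quotient.eq).2 h)] at key
  exact (Ideal.Quotient.eq).1 key.symm

end Local

end Fermat.Agent.S36
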