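/-
Project S36 (Carayol), cell [ONE-VAL] (helper15): the abstract "one valuation" lemma, twin of
`SS/Model/TwoVal.lean` (`ssm_tv_main`) in rank `q`.  Prefix `s36ov_`.

Setting: `R ⊆ S` Dedekind domains, `S` finite torsion-free of rank `q` (prime) over `R`, `p` a
maximal ideal of `R` of residue characteristic `q`, `Q` a prime of `S` over `p` whose residue field
contains `t̄ ∉ κ(p)` with `t̄ ^ q ∈ κ(p)`.  (Application: `R = β(V_F)`, the Gauss valuation ring of
`β E₁`, `S` its integral closure in `E₂`, `Q` the Gauss valuation of `E₂`, `t = λ`, `r = λ(X^q)`;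
and the `W₂`-mirror `R = V_V`, `Q = V_B`.)

Conclusion (`s36ov_main`): `f(Q | p) = q`, `e(Q | p) = 1`, `Q` is the ONLY prime over `p`,
`p S = Q`, and the residue extension is purely inseparable of exponent one:
`∀ s, ∃ r ∈ R, s ^ q ≡ r mod Q`.
-/
import Mathlib
import Fermat.Agent.SS.Model.TwoVal

set_option autoImplicit false
set_option linter.unusedSectionVars false
set_option linter.style.haveILetI false

namespace Fermat.Agent.S36

open Ideal Module Fermat.Agent.SS

section Dedekind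

variable {R S : Type*} [CommRing R] [IsDedekindDomain R] [CommRing S] [IsDedekindDomain S]
  [Algebra R S] [Module.Finite R S] [Module.IsTorsionFree R S]

/-- `f(Q | p) = q` in rank `q`. -/
theorem s36ov_inertiaDeg (p : Ideal R) [p.IsMaximal] {q : ℕ} (hq : q.Prime)
    (hrank : finrank R S = q) (Q : Ideal S) [Q.IsPrime] [Q.LiesOver p]
    (hchar : (q : S) ∈ Q) (t : S) (r : R) (ht1 : t ^ q - algebraMap R S r ∈ Q)
    (ht2 : ∀ r : R, t - algebraMap R S r ∉ Q) : Q.inertiaDeg R = q := by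
  have hle := ssm_tv_inertiaDeg_le p Q
  rw [hrank] at hle
  have hpos : 0 < Q.inertiaDeg R := inertiaDeg_pos Q R
  obtain ⟨m, hm⟩ := (ssm_tv_insep p hq Q hchar t r ht1 ht2).1
  have hq2 := hq.two_le
  have hm1 : m = 1 := by
    rcases Nat.lt_or_ge m 2 with h | h
    · interval_cases m
      · omega
      · rfl
    · have : q * 2 ≤ q * m := Nat.mul_le_mul_left q h
      omega
  rw [hm, hm1, mul_one]

/-- Counting in rank `q`: a prime with `f = q` is unramified and is the only prime over `p`. -/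
theorem s36ov_count (p : Ideal R) [p.IsMaximal] {q : ℕ} (hq : 1 ≤ q)
    (hrank : finrank R S = q) (Q : Ideal S) [Q.IsPrime] [Q.LiesOver p]
    (hf : Q.inertiaDeg R = q) :
    Q.ramificationIdx R = 1 ∧ ∀ P : Ideal S, P.IsPrime → P.LiesOver p → P = Q := by
  classical
  have hsum := Ideal.sum_ramification_inertia_eq_finrank p S
  rw [hrank] at hsum
  let Q0 : p.primesOver S := ⟨Q, ‹_›, ‹_›⟩
  rw [← Finset.add_sum_erase _ _ (Finset.mem_univ Q0)] at hsum
  have hpos : ∀ P : p.primesOver S, 1 ≤ P.1.ramificationIdx R * P.1.inertiaDeg R := by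
    intro P
    have := P.2.1
    exact Nat.succ_le_of_lt (Nat.mul_pos (ramificationIdx_pos P.1 R) (inertiaDeg_pos P.1 R))
  have he1 : 1 ≤ Q.ramificationIdx R := ramificationIdx_pos Q R
  change Q.ramificationIdx R * Q.inertiaDeg R + _ = _ at hsum
  rw [hf] at hsum
  have heq : Q.ramificationIdx R = 1 := by
    by_contra hne
    have h2 : 2 ≤ Q.ramificationIdx R := by omega
    have : 2 * q ≤ Q.ramificationIdx R * q := Nat.mul_le_mul_right q h2
    omega
  rw [heq, one_mul] at hsum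
  have hrest : ∑ P ∈ Finset.univ.erase Q0, P.1.ramificationIdx R * P.1.inertiaDeg R = 0 := by
    omega
  refine ⟨heq, fun P hP1 hP2 => ?_⟩
  by_contra hPQ
  have hmem : (⟨P, hP1, hP2⟩ : p.primesOver S) ∈ Finset.univ.erase Q0 :=
    Finset.mem_erase.2 ⟨fun h => hPQ (congrArg Subtype.val h), Finset.mem_univ _⟩
  have h0 := (Finset.sum_eq_zero_iff.1 hrest) _ hmem
  have := hpos ⟨P, hP1, hP2⟩
  omega

omit [IsDedekindDomain R] [IsDedekindDomain S] [Module.IsTorsionFree R S] in
/-- the residue extension is purely inseparable of exponent one. -/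
theorem s36ov_insep (p : Ideal R) [p.IsMaximal] {q : ℕ} (hq : q.Prime)
    (Q : Ideal S) [Q.IsPrime] [Q.LiesOver p] (hf : Q.inertiaDeg R = q)
    (hchar : (q : S) ∈ Q) (t : S) (r : R) (ht1 : t ^ q - algebraMap R S r ∈ Q)
    (ht2 : ∀ r : R, t - algebraMap R S r ∉ Q) (s : S) :
    ∃ r : R, s ^ q - algebraMap R S r ∈ Q := by
  have : Q.IsMaximal := Ideal.IsMaximal.of_liesOver_isMaximal Q p
  letI : Field (R ⧸ p) := Quotient.field p
  letI : Field (S ⧸ Q) := Quotient.field Q
  haveI : Fact q.Prime := ⟨hq⟩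
  haveI : CharP (S ⧸ Q) q := by
    have h0 : ((q : ℕ) : S ⧸ Q) = 0 := by
      rw [← map_natCast (Ideal.Quotient.mk Q)]
      exact Ideal.Quotient.eq_zero_iff_mem.2 hchar
    have hd : ringChar (S ⧸ Q) ∣ q := ringChar.dvd h0
    have he : ringChar (S ⧸ Q) = q := by
      rcases (Nat.dvd_prime hq).1 hd with h | h
      · exact absurd h CharP.ringChar_ne_one
      · exact h
    rw [← he]
    exact ringChar.charP _
  rw [inertiaDeg_eq_of_isMaximal p Q] at hf
  let A' : Subalgebra (R ⧸ p) (S ⧸ Q) :=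
    { carrier := {x | ∃ b : R ⧸ p, x ^ q = algebraMap (R ⧸ p) (S ⧸ Q) b}
      mul_mem' := by
        rintro x y ⟨a, ha⟩ ⟨b, hb⟩
        exact ⟨a * b, by rw [mul_pow, ha, hb, map_mul]⟩
      add_mem' := by
        rintro x y ⟨a, ha⟩ ⟨b, hb⟩
        exact ⟨a + b, by rw [add_pow_char, ha, hb, map_add]⟩
      algebraMap_mem' := fun b => ⟨b ^ q, by rw [map_pow]⟩ }
  have hsimple := Subalgebra.isSimpleOrder_of_finrank_prime (R ⧸ p) (S ⧸ Q) (hf ▸ hq)
  have htA : Ideal.Quotient.mk Q t ∈ A' := by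
    refine ⟨Ideal.Quotient.mk p r, ?_⟩
    rw [← map_pow, Ideal.Quotient.algebraMap_mk_of_liesOver]
    exact (Ideal.Quotient.eq).2 ht1
  rcases hsimple.eq_bot_or_eq_top A' with h | h
  · exfalso
    rw [h] at htA
    obtain ⟨b, hb⟩ := Algebra.mem_bot.1 htA
    obtain ⟨r', rfl⟩ := Ideal.Quotient.mk_surjective b
    rw [Ideal.Quotient.algebraMap_mk_of_liesOver] at hb
    exact ht2 r' ((Ideal.Quotient.eq).1 hb.symm)
  · have hmem : Ideal.Quotient.mk Q s ∈ A' := by rw [h]; exact Algebra.mem_top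
    obtain ⟨b, hb⟩ := hmem
    obtain ⟨r', rfl⟩ := Ideal.Quotient.mk_surjective b
    refine ⟨r', ?_⟩
    rw [← map_pow, Ideal.Quotient.algebraMap_mk_of_liesOver] at hb
    exact (Ideal.Quotient.eq).1 hb

/-- **The one valuation lemma** (Dedekind form). -/
theorem s36ov_main (p : Ideal R) [p.IsMaximal] (hp0 : p ≠ ⊥) {q : ℕ} (hq : q.Prime)
    (hrank : finrank R S = q) (Q : Ideal S) [Q.IsPrime] [Q.LiesOver p]
    (hchar : (q : S) ∈ Q) (t : S) (r : R) (ht1 : t ^ q - algebraMap R S r ∈ Q)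
    (ht2 : ∀ r : R, t - algebraMap R S r ∉ Q) :
    Q.inertiaDeg R = q ∧ Q.ramificationIdx R = 1 ∧
      (∀ P : Ideal S, P.IsPrime → P.LiesOver p → P = Q) ∧
      p.map (algebraMap R S) = Q ∧ (∀ s : S, ∃ r : R, s ^ q - algebraMap R S r ∈ Q) := by
  classical
  have hf := s36ov_inertiaDeg p hq hrank Q hchar t r ht1 ht2
  obtain ⟨he, hall⟩ := s36ov_count p hq.one_le hrank Q hf
  refine ⟨hf, he, hall, ?_, s36ov_insep p hq Q hf hchar t r ht1 ht2⟩
  rw [Ideal.map_algebraMap_eq_finsetProd_pow (R := S) hp0]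
  have hset : (p.primesOver S).toFinset = {Q} := by
    ext P
    simp only [Set.mem_toFinset, Finset.mem_singleton]
    constructor
    · rintro ⟨h1, h2⟩
      exact hall P h1 h2
    · rintro rfl
      exact ⟨‹_›, ‹_›⟩
  rw [hset, Finset.prod_singleton, he, pow_one]

end Dedekind

end Fermat.Agent.S36
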