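/-
Project S36 (Carayol), cell [NORM-ELT] (helper15): producers of the ELEMENT-form norm congruences
(nA), (nB), (nC1), (nC2) consumed by [ABEL3], from the abstract reductions of `S36/NormRes.lean`.
Prefix `s36nx_`.
-/
import Mathlib
import Fermat.Agent.S36.NormRes
import Fermat.Agent.S36.OneVal

set_option autoImplicit false
set_option linter.unusedSectionVars false
set_option linter.style.haveILetI false

namespace Fermat.Agent.S36

open IsLocalRing Module Ideal

section Local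

variable {R S : Type*} [CommRing R] [CommRing S] [Algebra R S] [IsLocalRing R]
  [Module.Free R S] [Module.Finite R S]

/-- an ideal `I ≠ ⊤` of `S` containing `p S` lies over `p`. -/
theorem s36nx_liesOver (I : Ideal S) (hI : I ≠ ⊤)
    (hle : (maximalIdeal R).map (algebraMap R S) ≤ I) : I.LiesOver (maximalIdeal R) := by
  refine ⟨?_⟩
  have h1 : maximalIdeal R ≤ I.under R := by
    rw [Ideal.under, ← Ideal.map_le_iff_le_comap]
    exact hle
  have h2 : I.under R ≠ ⊤ := by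
    rw [Ideal.under, Ne, Ideal.comap_eq_top_iff]
    exact hI
  exact ((maximalIdeal.isMaximal R).eq_of_le h2 h1)

/-- `f(Q | p) = 1` ⟹ `R → S/Q` is onto. -/
theorem s36nx_surj_of_inertiaDeg (Q : Ideal S) [Q.LiesOver (maximalIdeal R)] [Q.IsMaximal]
    (hf : Q.inertiaDeg R = 1) (s : S) : ∃ r : R, s - algebraMap R S r ∈ Q := by
  rw [Ideal.inertiaDeg_eq_of_isMaximal (maximalIdeal R) Q] at hf
  letI : Field (R ⧸ maximalIdeal R) := Ideal.Quotient.field (maximalIdeal R)
  have h1 : (1 : S ⧸ Q) ≠ 0 := one_ne_zero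
  have hf' : finrank (R ⧸ maximalIdeal R) (S ⧸ Q) = 1 := hf
  obtain ⟨c, hc⟩ := (finrank_eq_one_iff_of_nonzero' (1 : S ⧸ Q) h1).1 hf' (Ideal.Quotient.mk Q s)
  obtain ⟨r, rfl⟩ := Ideal.Quotient.mk_surjective c
  refine ⟨r, ?_⟩
  rw [Algebra.smul_def, mul_one, Ideal.Quotient.algebraMap_mk_of_liesOver] at hc
  exact (Ideal.Quotient.eq).1 hc.symm

/-- **(nC), ring form.**  `p S = Q_A · Q_C ^ (q - 1)`, `f(Q_A) = f(Q_C) = 1`, `x ≡ r mod Q_A`
(`r ∈ R`) ⟹ `N_{S/R}(x) ≡ r · x ^ (q - 1) mod Q_C`. -/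
theorem s36nx_nC {q : ℕ} (hq : 2 ≤ q) (hrank : finrank R S = q) (QA QC : Ideal S)
    [QA.IsMaximal] [QC.IsMaximal] [QA.LiesOver (maximalIdeal R)] [QC.LiesOver (maximalIdeal R)]
    (hne : QA ≠ QC) (hmap : (maximalIdeal R).map (algebraMap R S) = QA * QC ^ (q - 1))
    (hfA : QA.inertiaDeg R = 1) (hfC : QC.inertiaDeg R = 1) (x : S) (r : R)
    (hA : x - algebraMap R S r ∈ QA) :
    algebraMap R S (Algebra.norm R x) - algebraMap R S r * x ^ (q - 1) ∈ QC := by
  have hq1 : q - 1 ≠ 0 := by omega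
  have hCtop : QC ^ (q - 1) ≠ ⊤ := by
    intro h
    have : QC ^ (q - 1) ≤ QC := Ideal.pow_le_self hq1
    rw [h] at this
    exact (Ideal.IsMaximal.ne_top inferInstance) (top_le_iff.1 this)
  haveI : (QC ^ (q - 1)).LiesOver (maximalIdeal R) :=
    s36nx_liesOver _ hCtop (by rw [hmap]; exact (Ideal.mul_le_inf.trans inf_le_right))
  have hcop : IsCoprime QA (QC ^ (q - 1)) :=
    (Ideal.isCoprime_of_isMaximal hne).pow_right
  obtain ⟨r2, hr2⟩ := s36nx_surj_of_inertiaDeg QC hfC x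
  have h2 : (x - algebraMap R S r2) ^ (q - 1) ∈ QC ^ (q - 1) := Ideal.pow_mem_pow hr2 _
  have hsA : ∀ s : S, ∃ r : R, s - algebraMap R S r ∈ QA := s36nx_surj_of_inertiaDeg QA hfA
  have key := s36nr_norm_two_surj QA (QC ^ (q - 1)) hmap hcop hsA x r r2 (q - 1) hA h2
  rw [hrank] at key
  have key' : algebraMap R S (Algebra.norm R x - r * r2 ^ (q - 1)) ∈ QC := by
    have h3 : algebraMap R S (Algebra.norm R x - r * r2 ^ (q - 1)) ∈
        (maximalIdeal R).map (algebraMap R S) := Ideal.mem_map_of_mem _ key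
    rw [hmap] at h3
    exact Ideal.pow_le_self hq1 ((Ideal.mul_le_inf.trans inf_le_right) h3)
  have h4 : x ^ (q - 1) - algebraMap R S r2 ^ (q - 1) ∈ QC :=
    Ideal.mem_of_dvd _ (sub_dvd_pow_sub_pow _ _ _) hr2
  have h5 : algebraMap R S (Algebra.norm R x) - algebraMap R S r * x ^ (q - 1) =
      algebraMap R S (Algebra.norm R x - r * r2 ^ (q - 1)) -
        algebraMap R S r * (x ^ (q - 1) - algebraMap R S r2 ^ (q - 1)) := by
    simp only [map_sub, map_mul, map_pow]
    ring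
  rw [h5]
  exact QC.sub_mem key' (QC.mul_mem_left _ h4)

/-- **(nA), ring form.**  `p S` maximal, `rank_R S = q = char κ`, `(S/pS) ^ q ⊆ R/p`
(purely inseparable residue extension of degree `q`) ⟹ `N_{S/R}(x) ≡ x ^ q mod p S`. -/
theorem s36nx_nA {q : ℕ} (hq : q.Prime) (hqR : (q : R) ∈ maximalIdeal R)
    (hrank : finrank R S = q) [hmax : ((maximalIdeal R).map (algebraMap R S)).IsMaximal]
    (hinsep : ∀ s : S, ∃ r : R, s ^ q - algebraMap R S r ∈ (maximalIdeal R).map (algebraMap R S))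
    (x : S) :
    algebraMap R S (Algebra.norm R x) - x ^ q ∈ (maximalIdeal R).map (algebraMap R S) := by
  obtain ⟨r, hr⟩ := hinsep x
  have key := s36nr_norm_insep hq hqR hrank x r hr
  have h1 : algebraMap R S (Algebra.norm R x - r) ∈ (maximalIdeal R).map (algebraMap R S) :=
    Ideal.mem_map_of_mem _ key
  have h2 : algebraMap R S (Algebra.norm R x) - x ^ q =
      algebraMap R S (Algebra.norm R x - r) - (x ^ q - algebraMap R S r) := by
    simp only [map_sub]
    ring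
  rw [h2]
  exact Ideal.sub_mem _ h1 hr

end Local

section DVR

variable {R S : Type*} [CommRing R] [IsDomain R] [IsDiscreteValuationRing R] [CommRing S]
  [IsDedekindDomain S] [Algebra R S] [Module.Finite R S] [Module.IsTorsionFree R S]

/-- **(nA)/(nB), DVR form**: `R` a DVR of residue characteristic `q`, `S` Dedekind, finite
torsion-free of rank `q`, `Q` a prime over `p` with `t̄ ∉ κ(p)`, `t̄ ^ q ∈ κ(p)` (so `Q` is the only
prime of `S`, `e = 1`, `f = q`, purely inseparable) ⟹ `N_{S/R}(x) ≡ x ^ q mod Q` for ALL `x : S`. -/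
theorem s36nx_nA_dvr {q : ℕ} (hq : q.Prime) (hrank : finrank R S = q) (Q : Ideal S) [Q.IsPrime]
    [Q.LiesOver (maximalIdeal R)] (hchar : (q : S) ∈ Q) (t : S) (r : R)
    (ht1 : t ^ q - algebraMap R S r ∈ Q) (ht2 : ∀ r : R, t - algebraMap R S r ∉ Q) (x : S) :
    algebraMap R S (Algebra.intNorm R S x) - x ^ q ∈ Q := by
  have hp0 : maximalIdeal R ≠ ⊥ := IsDiscreteValuationRing.not_a_field R
  obtain ⟨-, -, -, hmap, hins⟩ :=
    s36ov_main (maximalIdeal R) hp0 hq hrank Q hchar t r ht1 ht2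
  have hQmax : Q.IsMaximal := Ideal.IsMaximal.of_liesOver_isMaximal Q (maximalIdeal R)
  haveI hmax : ((maximalIdeal R).map (algebraMap R S)).IsMaximal := by rw [hmap]; exact hQmax
  have hqR : (q : R) ∈ maximalIdeal R := by
    have h1 : algebraMap R S (q : R) ∈ Q := by rw [map_natCast]; exact hchar
    rw [Ideal.over_def Q (maximalIdeal R)]
    exact h1
  have key := s36nx_nA hq hqR hrank (by rw [hmap]; exact hins) x
  rw [hmap] at key
  rwa [Algebra.intNorm_eq_norm]

/-- **(nC1)/(nC2), DVR form**: `p S = Q_A · Q_C ^ (q - 1)`, `f(Q_A) = f(Q_C) = 1` (the output of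
`s36v_main`), `x ≡ r mod Q_A` with `r ∈ R` ⟹ `N_{S/R}(x) ≡ r · x ^ (q - 1) mod Q_C`. -/
theorem s36nx_nC_dvr {q : ℕ} (hq : 2 ≤ q) (hrank : finrank R S = q) (QA QC : Ideal S)
    [QA.IsPrime] [QC.IsPrime] [QA.LiesOver (maximalIdeal R)] [QC.LiesOver (maximalIdeal R)]
    (hne : QA ≠ QC) (hmap : (maximalIdeal R).map (algebraMap R S) = QA * QC ^ (q - 1))
    (hfA : QA.inertiaDeg R = 1) (hfC : QC.inertiaDeg R = 1) (x : S) (r : R)
    (hA : x - algebraMap R S r ∈ QA) :
    algebraMap R S (Algebra.intNorm R S x) - algebraMap R S r * x ^ (q - 1) ∈ QC := by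
  haveI : QA.IsMaximal := Ideal.IsMaximal.of_liesOver_isMaximal QA (maximalIdeal R)
  haveI : QC.IsMaximal := Ideal.IsMaximal.of_liesOver_isMaximal QC (maximalIdeal R)
  have key := s36nx_nC hq hrank QA QC hne hmap hfA hfC x r hA
  rwa [Algebra.intNorm_eq_norm]

end DVR

end Fermat.Agent.S36
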