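/-
Project S36 (Carayol), cell [VERT] (helper15): the valuation form of the norm (Mathlib only).
Prefix `s36nv_`.  Same vocabulary as `S36/Val3.lean`: `R ⊆ S` Dedekind domains, `S` finite
torsion-free over `R`, `PerfectField (FractionRing R)`; `f(Q | p) = Q.inertiaDeg R`.

* `s36nv_count_relNorm`  : `count_p (N_{S/R} I) = ∑_{Q | p} f(Q | p) · count_Q I` (`I ≠ ⊥`);
* `s36nv_count_intNorm`  : the same for `I = (x)`, `N (x) = (Algebra.intNorm R S x)`;
* `s36nv_intVal_prod`    : `v(N x) = ∏_{w | v} w(x) ^ f(w | v)` (`HeightOneSpectrum.intValuation`);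
* `s36nv_intVal_two` / `s36nv_intVal_one` : the two configurations of S36: exactly two primes
  `w_A ≠ w_C` over `v` (`v_F(N g) = f_A a + f_C c`), exactly one prime `w_B` (`v_V(N g) = f_B b`);
* `s36nv_norm_algebraMap`: `N_{L/K}(x) = intNorm R S x` for abstract fraction fields `K`, `L`;
* `s36nv_val_prod`, `s36nv_val_two`, `s36nv_val_one` : the same formulas for every `y : L`
  with `HeightOneSpectrum.valuation` and `Algebra.norm K`;
* `s36nv_log_two`, `s36nv_log_one` : the additive `ℤ`-valued forms (`WithZero.log`).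
-/
import Mathlib

set_option autoImplicit false
set_option linter.unusedSectionVars false
set_option linter.style.haveILetI false

namespace Fermat.Agent.S36

open Ideal Module UniqueFactorizationMonoid IsDedekindDomain WithZero

section Dedekind

variable {R S : Type*} [CommRing R] [IsDedekindDomain R] [CommRing S] [IsDedekindDomain S]
  [Algebra R S] [Module.Finite R S] [Module.IsTorsionFree R S] [PerfectField (FractionRing R)]

open scoped Classical in
/-- the relative norm of a nonzero prime `Q` of `S`: `count_p (N Q) = f(Q | p)` if `Q | p` and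
`0` otherwise. -/
theorem s36nv_count_relNorm_prime (p : Ideal R) [p.IsMaximal] (hp0 : p ≠ ⊥) (Q : Ideal S)
    (hQ : Prime Q) :
    (normalizedFactors (relNorm R Q)).count p =
      if Q ∈ p.primesOver S then Q.inertiaDeg R else 0 := by
  classical
  have hQ0 : Q ≠ ⊥ := hQ.ne_zero
  haveI hQp : Q.IsPrime := Ideal.isPrime_of_prime hQ
  haveI hQm : Q.IsMaximal := Ring.DimensionLEOne.maximalOfPrime hQ0 hQp
  have hrel := relNorm_eq_pow_of_isMaximal Q (under R Q)
  have hp0' : under R Q ≠ ⊥ := by
    intro h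
    have : Q.LiesOver ⊥ := ⟨h.symm⟩
    exact hQ0 (eq_bot_of_liesOver_bot R Q)
  have hpr : Prime (under R Q) := prime_of_isPrime hp0' inferInstance
  have hpp : Prime p := prime_of_isPrime hp0 inferInstance
  rw [hrel, normalizedFactors_pow, Multiset.count_nsmul,
    normalizedFactors_irreducible hpr.irreducible, normalize_eq, Multiset.count_singleton]
  by_cases h : p = under R Q
  · have hmem : Q ∈ p.primesOver S := ⟨hQp, ⟨h⟩⟩
    rw [if_pos h, if_pos hmem, mul_one]
  · have hmem : Q ∉ p.primesOver S := fun hm => h hm.2.over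
    rw [if_neg h, if_neg hmem, mul_zero]

open scoped Classical in
/-- **[VERT], ideal form.**  `count_p (N_{S/R} I) = ∑_{Q | p} f(Q | p) · count_Q I`. -/
theorem s36nv_count_relNorm (p : Ideal R) [p.IsMaximal] (hp0 : p ≠ ⊥) (I : Ideal S)
    (hI : I ≠ ⊥) :
    (normalizedFactors (relNorm R I)).count p =
      ∑ Q ∈ (p.primesOver S).toFinset, Q.inertiaDeg R * (normalizedFactors I).count Q := by
  classical
  induction I using UniqueFactorizationMonoid.induction_on_prime with
  | h₁ => exact absurd rfl hI
  | h₂ x hx =>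
    have hx' : x = ⊤ := by simpa using hx
    subst hx'
    rw [relNorm_top, ← Ideal.one_eq_top, ← Ideal.one_eq_top, normalizedFactors_one,
      normalizedFactors_one]
    simp
  | h₃ a Q ha hQ ih =>
    have hQ0 : Q ≠ 0 := hQ.ne_zero
    have h1 : relNorm R Q ≠ 0 := by
      rw [Ne, Ideal.zero_eq_bot, relNorm_eq_bot_iff]; exact hQ0
    have h2 : relNorm R a ≠ 0 := by
      rw [Ne, Ideal.zero_eq_bot, relNorm_eq_bot_iff]; exact ha
    rw [map_mul, normalizedFactors_mul h1 h2, normalizedFactors_mul hQ0 ha, Multiset.count_add,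
      ih ha, s36nv_count_relNorm_prime p hp0 Q hQ]
    simp only [Multiset.count_add, mul_add, Finset.sum_add_distrib]
    congr 1
    rw [normalizedFactors_irreducible hQ.irreducible, normalize_eq]
    simp only [Multiset.count_singleton]
    by_cases hmem : Q ∈ p.primesOver S
    · rw [if_pos hmem, Finset.sum_eq_single_of_mem Q (Set.mem_toFinset.2 hmem)]
      · simp
      · intro b _ hb
        rw [if_neg hb, mul_zero]
    · rw [if_neg hmem]
      symm
      apply Finset.sum_eq_zero
      intro b hb
      have : b ≠ Q := fun h => hmem (h ▸ Set.mem_toFinset.1 hb)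
      rw [if_neg this, mul_zero]

open scoped Classical in
/-- **[VERT], element form.**  `count_p (N_{S/R} x) = ∑_{Q | p} f(Q | p) · count_Q (x)`. -/
theorem s36nv_count_intNorm (p : Ideal R) [p.IsMaximal] (hp0 : p ≠ ⊥) (x : S) (hx : x ≠ 0) :
    (normalizedFactors (span {Algebra.intNorm R S x})).count p =
      ∑ Q ∈ (p.primesOver S).toFinset,
        Q.inertiaDeg R * (normalizedFactors (span ({x} : Set S))).count Q := by
  rw [← relNorm_singleton]
  exact s36nv_count_relNorm p hp0 _ (by rwa [Ne, span_singleton_eq_bot])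

/-! ### valuation forms -/

/-- the `w`-adic valuation of a nonzero element in terms of the factorisation of `(x)`. -/
theorem s36nv_intVal_eq {T : Type*} [CommRing T] [IsDedekindDomain T] (w : HeightOneSpectrum T)
    {x : T} (hx : x ≠ 0) :
    w.intValuation x =
      exp (-((normalizedFactors (span ({x} : Set T))).count w.asIdeal : ℤ)) := by
  have hsr : (span ({x} : Set T)) ≠ 0 := by
    rwa [Ne, Ideal.zero_eq_bot, span_singleton_eq_bot]
  rw [w.intValuation_if_neg hx, Ideal.count_associates_factors_eq hsr w.isPrime w.ne_bot]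

/-- `exp` of a finite sum. -/
theorem s36nv_exp_sum {ι : Type*} (s : Finset ι) (f : ι → ℤ) :
    (exp (∑ i ∈ s, f i) : ℤᵐ⁰) = ∏ i ∈ s, exp (f i) := by
  classical
  induction s using Finset.induction_on with
  | empty => simp
  | insert a s ha ih => rw [Finset.sum_insert ha, Finset.prod_insert ha, exp_add, ih]

/-- **[VERT], the configuration over `V_F`**: exactly two primes `w_A ≠ w_C` over `v`. -/
theorem s36nv_intVal_two (v : HeightOneSpectrum R)
    (wA wC : HeightOneSpectrum S)
    [wA.asIdeal.LiesOver v.asIdeal] [wC.asIdeal.LiesOver v.asIdeal] (hne : wA ≠ wC)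
    (hall : ∀ Q : Ideal S, Q.IsPrime → Q.LiesOver v.asIdeal → Q = wA.asIdeal ∨ Q = wC.asIdeal)
    (x : S) :
    v.intValuation (Algebra.intNorm R S x) =
      wA.intValuation x ^ wA.asIdeal.inertiaDeg R * wC.intValuation x ^ wC.asIdeal.inertiaDeg R := by
  classical
  by_cases hx : x = 0
  · subst hx
    have hf : wA.asIdeal.inertiaDeg R ≠ 0 := (inertiaDeg_pos wA.asIdeal R).ne'
    rw [Algebra.intNorm_zero, map_zero, map_zero, zero_pow hf, zero_mul]
  have hN : Algebra.intNorm R S x ≠ 0 := Algebra.intNorm_ne_zero.2 hx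
  have hset : (v.asIdeal.primesOver S).toFinset = {wA.asIdeal, wC.asIdeal} := by
    ext Q
    simp only [Set.mem_toFinset, Finset.mem_insert, Finset.mem_singleton]
    constructor
    · rintro ⟨h1, h2⟩
      exact hall Q h1 h2
    · rintro (rfl | rfl)
      · exact ⟨wA.isPrime, inferInstance⟩
      · exact ⟨wC.isPrime, inferInstance⟩
  have hne' : wA.asIdeal ≠ wC.asIdeal := fun h => hne (HeightOneSpectrum.ext h)
  have hc := s36nv_count_intNorm v.asIdeal v.ne_bot x hx
  rw [hset, Finset.sum_pair hne'] at hc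
  rw [s36nv_intVal_eq v hN, s36nv_intVal_eq wA hx, s36nv_intVal_eq wC hx, hc, ← exp_nsmul,
    ← exp_nsmul, ← exp_add]
  congr 1
  push_cast
  simp only [nsmul_eq_mul]
  ring

/-- **[VERT], the configuration over `V_V`**: exactly one prime `w_B` over `v`. -/
theorem s36nv_intVal_one (v : HeightOneSpectrum R)
    (wB : HeightOneSpectrum S) [wB.asIdeal.LiesOver v.asIdeal]
    (hall : ∀ Q : Ideal S, Q.IsPrime → Q.LiesOver v.asIdeal → Q = wB.asIdeal) (x : S) :
    v.intValuation (Algebra.intNorm R S x) = wB.intValuation x ^ wB.asIdeal.inertiaDeg R := by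
  classical
  by_cases hx : x = 0
  · subst hx
    have hf : wB.asIdeal.inertiaDeg R ≠ 0 := (inertiaDeg_pos wB.asIdeal R).ne'
    rw [Algebra.intNorm_zero, map_zero, map_zero, zero_pow hf]
  have hN : Algebra.intNorm R S x ≠ 0 := Algebra.intNorm_ne_zero.2 hx
  have hset : (v.asIdeal.primesOver S).toFinset = {wB.asIdeal} := by
    ext Q
    simp only [Set.mem_toFinset, Finset.mem_singleton]
    constructor
    · rintro ⟨h1, h2⟩
      exact hall Q h1 h2
    · rintro rfl
      exact ⟨wB.isPrime, inferInstance⟩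
  have hc := s36nv_count_intNorm v.asIdeal v.ne_bot x hx
  rw [hset, Finset.sum_singleton] at hc
  rw [s36nv_intVal_eq v hN, s36nv_intVal_eq wB hx, hc, ← exp_nsmul]
  congr 1
  push_cast
  simp only [nsmul_eq_mul]
  ring

/-- the height-one prime of `S` attached to a prime over `v`. -/
def s36nv_hos (v : HeightOneSpectrum R) (Q : v.asIdeal.primesOver S) : HeightOneSpectrum S :=
  ⟨Q.1, Q.2.1, haveI := Q.2.2; ne_bot_of_liesOver_of_ne_bot v.ne_bot Q.1⟩

@[simp] theorem s36nv_hos_asIdeal (v : HeightOneSpectrum R) (Q : v.asIdeal.primesOver S) :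
    (s36nv_hos v Q).asIdeal = Q.1 := rfl

/-- **[VERT], general form on `S`**: `v(N x) = ∏_{w | v} w(x) ^ f(w | v)`. -/
theorem s36nv_intVal_prod (v : HeightOneSpectrum R) (x : S) :
    v.intValuation (Algebra.intNorm R S x) =
      ∏ Q : v.asIdeal.primesOver S, (s36nv_hos v Q).intValuation x ^ Q.1.inertiaDeg R := by
  classical
  by_cases hx : x = 0
  · subst hx
    obtain ⟨P, hPm, hP⟩ := exists_maximal_ideal_liesOver_of_isIntegral (S := S) v.asIdeal
    let Q0 : v.asIdeal.primesOver S := ⟨P, hPm.isPrime, hP⟩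
    have hf : Q0.1.inertiaDeg R ≠ 0 := (inertiaDeg_pos Q0.1 R).ne'
    rw [Algebra.intNorm_zero, map_zero]
    symm
    apply Finset.prod_eq_zero (Finset.mem_univ Q0)
    rw [map_zero, zero_pow hf]
  have hN : Algebra.intNorm R S x ≠ 0 := Algebra.intNorm_ne_zero.2 hx
  have hc := s36nv_count_intNorm v.asIdeal v.ne_bot x hx
  rw [← Finset.sum_set_coe (v.asIdeal.primesOver S)] at hc
  rw [s36nv_intVal_eq v hN, hc]
  push_cast
  rw [← Finset.sum_neg_distrib, s36nv_exp_sum]
  refine Finset.prod_congr rfl fun Q _ => ?_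
  rw [s36nv_intVal_eq (s36nv_hos v Q) hx, ← exp_nsmul, s36nv_hos_asIdeal]
  congr 1
  simp only [nsmul_eq_mul]
  ring

end Dedekind

section Frac

variable {R S : Type*} [CommRing R] [IsDedekindDomain R] [CommRing S] [IsDedekindDomain S]
  [Algebra R S] [Module.Finite R S] [Module.IsTorsionFree R S]
  {K L : Type*} [Field K] [Field L] [Algebra R K] [IsFractionRing R K] [Algebra S L]
  [IsFractionRing S L] [Algebra K L] [Algebra R L] [IsScalarTower R K L] [IsScalarTower R S L]

open nonZeroDivisors in
/-- `N_{L/K}` restricted to `S` is `Algebra.intNorm R S` (abstract fraction fields). -/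
theorem s36nv_norm_algebraMap (x : S) :
    Algebra.norm K (algebraMap S L x) = algebraMap R K (Algebra.intNorm R S x) := by
  haveI : Algebra.IsIntegral R S := Algebra.IsIntegral.of_finite R S
  haveI : IsIntegralClosure S R L := IsIntegralClosure.of_isIntegrallyClosed S R L
  haveI : Algebra.IsAlgebraic K L := isAlgebraic_of_isFractionRing R S K L
  haveI : IsLocalization (Algebra.algebraMapSubmonoid S R⁰) L :=
    IsIntegralClosure.isLocalization R K L S
  haveI : FiniteDimensional K L := .of_isLocalization R S R⁰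
  exact (Algebra.algebraMap_intNorm (A := R) (K := K) (L := L) (B := S) x).symm

/-- extension of a multiplicative identity from `S` to its fraction field. -/
theorem s36nv_ext_frac (F G : L → ℤᵐ⁰) (hF : ∀ x y, F (x * y) = F x * F y)
    (hG : ∀ x y, G (x * y) = G x * G y) (hG0 : ∀ b : S, b ≠ 0 → G (algebraMap S L b) ≠ 0)
    (h : ∀ a : S, F (algebraMap S L a) = G (algebraMap S L a)) (y : L) : F y = G y := by
  obtain ⟨a, b, hb, rfl⟩ := IsFractionRing.div_surjective (A := S) y
  have hb0 : b ≠ 0 := nonZeroDivisors.ne_zero hb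
  have hbL : algebraMap S L b ≠ 0 := by
    rwa [Ne, map_eq_zero_iff _ (IsFractionRing.injective S L)]
  have h1 : algebraMap S L a / algebraMap S L b * algebraMap S L b = algebraMap S L a :=
    div_mul_cancel₀ _ hbL
  have h2 := congrArg F h1
  have h3 := congrArg G h1
  rw [hF, h, h] at h2
  rw [hG] at h3
  exact mul_right_cancel₀ (hG0 b hb0) (h2.trans h3.symm)

variable [PerfectField (FractionRing R)]

/-- **[VERT], two primes, fraction-field form.** -/
theorem s36nv_val_two (v : HeightOneSpectrum R) (wA wC : HeightOneSpectrum S)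
    [wA.asIdeal.LiesOver v.asIdeal] [wC.asIdeal.LiesOver v.asIdeal] (hne : wA ≠ wC)
    (hall : ∀ Q : Ideal S, Q.IsPrime → Q.LiesOver v.asIdeal → Q = wA.asIdeal ∨ Q = wC.asIdeal)
    (y : L) :
    v.valuation K (Algebra.norm K y) =
      wA.valuation L y ^ wA.asIdeal.inertiaDeg R * wC.valuation L y ^ wC.asIdeal.inertiaDeg R := by
  refine s36nv_ext_frac (S := S) (fun y => v.valuation K (Algebra.norm K y))
    (fun y => wA.valuation L y ^ wA.asIdeal.inertiaDeg R *
      wC.valuation L y ^ wC.asIdeal.inertiaDeg R) ?_ ?_ ?_ ?_ y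
  · intro x y
    simp only [map_mul]
  · intro x y
    simp only [map_mul, mul_pow]
    exact mul_mul_mul_comm _ _ _ _
  · intro b hb
    simp only [HeightOneSpectrum.valuation_of_algebraMap]
    exact mul_ne_zero (pow_ne_zero _ (wA.intValuation_ne_zero b hb))
      (pow_ne_zero _ (wC.intValuation_ne_zero b hb))
  · intro a
    simp only [s36nv_norm_algebraMap (R := R), HeightOneSpectrum.valuation_of_algebraMap]
    exact s36nv_intVal_two v wA wC hne hall a

/-- **[VERT], one prime, fraction-field form.** -/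
theorem s36nv_val_one (v : HeightOneSpectrum R) (wB : HeightOneSpectrum S)
    [wB.asIdeal.LiesOver v.asIdeal]
    (hall : ∀ Q : Ideal S, Q.IsPrime → Q.LiesOver v.asIdeal → Q = wB.asIdeal) (y : L) :
    v.valuation K (Algebra.norm K y) = wB.valuation L y ^ wB.asIdeal.inertiaDeg R := by
  refine s36nv_ext_frac (S := S) (fun y => v.valuation K (Algebra.norm K y))
    (fun y => wB.valuation L y ^ wB.asIdeal.inertiaDeg R) ?_ ?_ ?_ ?_ y
  · intro x y
    simp only [map_mul]
  · intro x y
    simp only [map_mul, mul_pow]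
  · intro b hb
    simp only [HeightOneSpectrum.valuation_of_algebraMap]
    exact pow_ne_zero _ (wB.intValuation_ne_zero b hb)
  · intro a
    simp only [s36nv_norm_algebraMap (R := R), HeightOneSpectrum.valuation_of_algebraMap]
    exact s36nv_intVal_one v wB hall a

/-- **[VERT], general fraction-field form**: `v(N_{L/K} y) = ∏_{w | v} w(y) ^ f(w | v)`. -/
theorem s36nv_val_prod (v : HeightOneSpectrum R) (y : L) :
    v.valuation K (Algebra.norm K y) =
      ∏ Q : v.asIdeal.primesOver S, (s36nv_hos v Q).valuation L y ^ Q.1.inertiaDeg R := by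
  refine s36nv_ext_frac (S := S) (fun y => v.valuation K (Algebra.norm K y))
    (fun y => ∏ Q : v.asIdeal.primesOver S, (s36nv_hos v Q).valuation L y ^ Q.1.inertiaDeg R)
    ?_ ?_ ?_ ?_ y
  · intro x y
    simp only [map_mul]
  · intro x y
    simp only [map_mul, mul_pow, Finset.prod_mul_distrib]
  · intro b hb
    simp only [HeightOneSpectrum.valuation_of_algebraMap]
    exact Finset.prod_ne_zero_iff.2 fun Q _ =>
      pow_ne_zero _ ((s36nv_hos v Q).intValuation_ne_zero b hb)
  · intro a
    simp only [s36nv_norm_algebraMap (R := R), HeightOneSpectrum.valuation_of_algebraMap]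
    exact s36nv_intVal_prod v a

/-- **[VERT], two primes, additive (`ℤ`-valued) form.** -/
theorem s36nv_log_two (v : HeightOneSpectrum R) (wA wC : HeightOneSpectrum S)
    [wA.asIdeal.LiesOver v.asIdeal] [wC.asIdeal.LiesOver v.asIdeal] (hne : wA ≠ wC)
    (hall : ∀ Q : Ideal S, Q.IsPrime → Q.LiesOver v.asIdeal → Q = wA.asIdeal ∨ Q = wC.asIdeal)
    {y : L} (hy : y ≠ 0) :
    log (v.valuation K (Algebra.norm K y)) =
      (wA.asIdeal.inertiaDeg R : ℤ) * log (wA.valuation L y) +
        (wC.asIdeal.inertiaDeg R : ℤ) * log (wC.valuation L y) := by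
  have hA : wA.valuation L y ≠ 0 := (Valuation.ne_zero_iff _).2 hy
  have hC : wC.valuation L y ≠ 0 := (Valuation.ne_zero_iff _).2 hy
  rw [s36nv_val_two v wA wC hne hall y, log_mul (pow_ne_zero _ hA) (pow_ne_zero _ hC), log_pow,
    log_pow, nsmul_eq_mul, nsmul_eq_mul]

/-- **[VERT], one prime, additive (`ℤ`-valued) form.** -/
theorem s36nv_log_one (v : HeightOneSpectrum R) (wB : HeightOneSpectrum S)
    [wB.asIdeal.LiesOver v.asIdeal]
    (hall : ∀ Q : Ideal S, Q.IsPrime → Q.LiesOver v.asIdeal → Q = wB.asIdeal) (y : L) :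
    log (v.valuation K (Algebra.norm K y)) =
      (wB.asIdeal.inertiaDeg R : ℤ) * log (wB.valuation L y) := by
  rw [s36nv_val_one v wB hall y, log_pow, nsmul_eq_mul]

end Frac

end Fermat.Agent.S36
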