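/-
Project S36 (Carayol), cell [NORM-ELT], VALUATION-SUBRING forms (helper15).  Prefix `s36nx_`.

The element-form norm congruences (nA), (nB), (nC1), (nC2) consumed by `s36a_abel3`
(S36/Abel3/Field.lean), in the vocabulary of SS/Model/TwoValW.lean and S36/Ins1/Val.lean:
`K ⊆ E` finite separable, `R` a DVR with fraction field `K`, `ssm_tw_Over K R V` (`V ∩ K = R`),
`ssm_tw_centre K R V hV` (the centre of `V` on `S = integralClosure R E`).

* `s36nx_norm_coe`   : `algebraMap K E (N_{E/K} x) = N_{S/R}(x)` for `x ∈ S`;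
* `s36nx_nA_val`     : (nA)/(nB): under the one-valuation data `s36i_Data K R q V t r`
                       (`[E : K] = q`, `V` purely inseparable of degree `q` over `R`):
                       `N_{E/K}(x) ≡ x ^ q mod 𝔪(V)` for every `x ∈ V`;
* `s36nx_integral_of_two` : if the primes of `S` over `𝔪_R` are the centres of `VA`, `VC`, then
                       `VA ∩ VC = S`;
* `s36nx_nC_val`     : (nC1)/(nC2): `𝔪_R S = Q_A · Q_C ^ (q - 1)`, `f(Q_A) = f(Q_C) = 1` (the output
                       of `s36v_main`), `x ∈ VA ∩ VC`, `r ∈ R`, `x ≡ r mod 𝔪(VA)`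
                       ⟹ `N_{E/K}(x) ≡ r · x ^ (q - 1) mod 𝔪(VC)`.
-/
import Mathlib
import Fermat.Agent.S36.NormElt
import Fermat.Agent.S36.NormVal
import Fermat.Agent.S36.Ins1.Val

set_option autoImplicit false
set_option linter.unusedSectionVars false
set_option linter.style.haveILetI false

open Fermat.Agent.JT3 Fermat.Agent.SS IsLocalRing

namespace Fermat.Agent.S36

section Main

variable (K : Type*) {E : Type*} [Field K] [Field E] [Algebra K E] [FiniteDimensional K E]
  [Algebra.IsSeparable K E]
  (R : Type*) [CommRing R] [IsDomain R] [IsDiscreteValuationRing R] [Algebra R K]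
  [IsFractionRing R K] [Algebra R E] [IsScalarTower R K E]

include K in
/-- `algebraMap K E (N_{E/K} x) = N_{S/R}(x)` for `x ∈ S = integralClosure R E`. -/
theorem s36nx_norm_coe (x : ↥(integralClosure R E)) :
    algebraMap K E (Algebra.norm K (x : E)) =
      ((algebraMap R ↥(integralClosure R E) (Algebra.norm R x) : ↥(integralClosure R E)) : E) := by
  obtain ⟨hD, hF, hfin, hfree, hrk⟩ := ssm_tw_inst K (E := E) R
  haveI := hD
  haveI := hF
  haveI := hfin
  haveI := hfree
  have hinj : Function.Injective (algebraMap R E) := by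
    rw [IsScalarTower.algebraMap_eq R K E]
    exact (algebraMap K E).injective.comp (IsFractionRing.injective R K)
  haveI : FaithfulSMul R E := (faithfulSMul_iff_algebraMap_injective R E).2 hinj
  haveI : Module.IsTorsionFree R E := inferInstance
  haveI : Module.IsTorsionFree R ↥(integralClosure R E) := inferInstance
  have h1 := s36nv_norm_algebraMap (R := R) (S := ↥(integralClosure R E)) (K := K) (L := E) x
  rw [Algebra.intNorm_eq_norm] at h1
  have h2 : (x : E) = algebraMap ↥(integralClosure R E) E x := rfl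
  rw [h2, h1, ← IsScalarTower.algebraMap_apply R K E]
  rfl

variable {K R} {q : ℕ} {V : ValuationSubring E} {t : E} {r : R}

include K in
/-- **(nA)/(nB), valuation-subring form**: under the one-valuation data (`[E : K] = q`, `V` the
only valuation of `E` over `R`, `e = 1`, `f = q` purely inseparable):
`N_{E/K}(x) ≡ x ^ q mod 𝔪(V)` for every `x ∈ V`. -/
theorem s36nx_nA_val (D : s36i_Data K R q V t r) (x : E) (hx : x ∈ V) :
    algebraMap K E (Algebra.norm K x) - x ^ q ∈ V.nonunits := by
  obtain ⟨hD, hF, hfin, hfree, hrk⟩ := ssm_tw_inst K (E := E) R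
  haveI := hD
  haveI := hF
  haveI := hfin
  haveI := hfree
  obtain ⟨hmap, -, hpow, -, -⟩ := s36i_core D
  have hxi : x ∈ integralClosure R E := (s36i_integral D x).2 hx
  haveI hmax : ((maximalIdeal R).map (algebraMap R ↥(integralClosure R E))).IsMaximal := by
    rw [hmap]; exact ssm_tw_centre_isMaximal D.overR
  have key := s36nx_nA D.q_prime D.q_mem (hrk.trans D.finrank_eq)
    (by rw [hmap]; exact hpow) (⟨x, hxi⟩ : ↥(integralClosure R E))
  rw [hmap, ssm_tw_mem_centre] at key
  rw [s36nx_norm_coe K R ⟨x, hxi⟩]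
  exact key

include K in
/-- if the primes of `S` over `𝔪_R` are the centres of `VA` and `VC`, then `VA ∩ VC = S`. -/
theorem s36nx_integral_of_two {VA VC : ValuationSubring E} (hVA : ssm_tw_Over K R VA)
    (hVC : ssm_tw_Over K R VC)
    (hall : ∀ P : Ideal ↥(integralClosure R E), P.IsPrime →
      P.comap (algebraMap R ↥(integralClosure R E)) = maximalIdeal R →
      P = ssm_tw_centre K R VA hVA ∨ P = ssm_tw_centre K R VC hVC)
    (a : E) (haA : a ∈ VA) (haC : a ∈ VC) : a ∈ integralClosure R E := by
  obtain ⟨x1, t1, ht1, h1⟩ := (ssm_tw_bridge hVA a).1 haA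
  obtain ⟨x2, t2, ht2, h2⟩ := (ssm_tw_bridge hVC a).1 haC
  let I : Ideal ↥(integralClosure R E) :=
    { carrier := {d | (d : E) * a ∈ integralClosure R E}
      add_mem' := by
        intro d e hd he
        show ((d + e : ↥(integralClosure R E)) : E) * a ∈ integralClosure R E
        push_cast
        rw [add_mul]
        exact (integralClosure R E).add_mem hd he
      zero_mem' := by
        show ((0 : ↥(integralClosure R E)) : E) * a ∈ integralClosure R E
        push_cast
        rw [zero_mul]
        exact (integralClosure R E).zero_mem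
      smul_mem' := by
        intro c d hd
        show ((c * d : ↥(integralClosure R E)) : E) * a ∈ integralClosure R E
        push_cast
        rw [mul_assoc]
        exact (integralClosure R E).mul_mem c.2 hd }
  have hI1 : t1 ∈ I := by
    show (t1 : E) * a ∈ integralClosure R E
    rw [mul_comm, h1]; exact x1.2
  have hI2 : t2 ∈ I := by
    show (t2 : E) * a ∈ integralClosure R E
    rw [mul_comm, h2]; exact x2.2
  have hItop : I = ⊤ := by
    by_contra hne
    obtain ⟨M, hM, hIM⟩ := Ideal.exists_le_maximal I hne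
    haveI := hM
    have hMc : M.comap (algebraMap R ↥(integralClosure R E)) = maximalIdeal R :=
      IsLocalRing.eq_maximalIdeal (Ideal.isMaximal_comap_of_isIntegral_of_isMaximal M)
    rcases hall M hM.isPrime hMc with h | h
    · exact ht1 (h ▸ hIM hI1)
    · exact ht2 (h ▸ hIM hI2)
  have h1I : (1 : ↥(integralClosure R E)) ∈ I := by rw [hItop]; exact Submodule.mem_top
  have : ((1 : ↥(integralClosure R E)) : E) * a ∈ integralClosure R E := h1I
  rw [OneMemClass.coe_one, one_mul] at this
  exact this

include K in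
/-- **(nC1)/(nC2), valuation-subring form**: `[E : K] = q`, `VA`, `VC` valuation subrings of `E` over
`R` with centres `Q_A ≠ Q_C`, `𝔪_R S = Q_A · Q_C ^ (q - 1)`, `f(Q_A) = f(Q_C) = 1` (the output of
`s36v_main`); `x ∈ VA ∩ VC`, `r ∈ R`, `x ≡ r mod 𝔪(VA)` ⟹
`N_{E/K}(x) ≡ r · x ^ (q - 1) mod 𝔪(VC)`. -/
theorem s36nx_nC_val (hq : 2 ≤ q) (hrank : Module.finrank K E = q) {VA VC : ValuationSubring E}
    (hVA : ssm_tw_Over K R VA) (hVC : ssm_tw_Over K R VC)
    (hne : ssm_tw_centre K R VA hVA ≠ ssm_tw_centre K R VC hVC)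
    (hmap : (maximalIdeal R).map (algebraMap R ↥(integralClosure R E)) =
      ssm_tw_centre K R VA hVA * ssm_tw_centre K R VC hVC ^ (q - 1))
    (hfA : (ssm_tw_centre K R VA hVA).inertiaDeg R = 1)
    (hfC : (ssm_tw_centre K R VC hVC).inertiaDeg R = 1)
    (x : E) (hxA : x ∈ VA) (hxC : x ∈ VC) (r : R) (hr : x - algebraMap R E r ∈ VA.nonunits) :
    algebraMap K E (Algebra.norm K x) - algebraMap R E r * x ^ (q - 1) ∈ VC.nonunits := by
  obtain ⟨hD, hF, hfin, hfree, hrk⟩ := ssm_tw_inst K (E := E) R
  haveI := hD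
  haveI := hF
  haveI := hfin
  haveI := hfree
  haveI hPA : (ssm_tw_centre K R VA hVA).IsMaximal := ssm_tw_centre_isMaximal hVA
  haveI hPC : (ssm_tw_centre K R VC hVC).IsMaximal := ssm_tw_centre_isMaximal hVC
  haveI : (ssm_tw_centre K R VA hVA).LiesOver (maximalIdeal R) :=
    ⟨(ssm_tw_comap_centre hVA).symm⟩
  haveI : (ssm_tw_centre K R VC hVC).LiesOver (maximalIdeal R) :=
    ⟨(ssm_tw_comap_centre hVC).symm⟩
  have hq1 : q - 1 ≠ 0 := by omega
  -- the primes over `𝔪_R` are `Q_A`, `Q_C`
  have hall : ∀ P : Ideal ↥(integralClosure R E), P.IsPrime →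
      P.comap (algebraMap R ↥(integralClosure R E)) = maximalIdeal R →
      P = ssm_tw_centre K R VA hVA ∨ P = ssm_tw_centre K R VC hVC := by
    intro P hP hPc
    have hle : (maximalIdeal R).map (algebraMap R ↥(integralClosure R E)) ≤ P := by
      rw [Ideal.map_le_iff_le_comap, hPc]
    rw [hmap] at hle
    rcases (Ideal.IsPrime.mul_le hP).1 hle with h | h
    · exact Or.inl (hPA.eq_of_le hP.ne_top h).symm
    · exact Or.inr (hPC.eq_of_le hP.ne_top (hP.le_of_pow_le h)).symm
  have hxi : x ∈ integralClosure R E := s36nx_integral_of_two hVA hVC hall x hxA hxC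
  have hA : (⟨x, hxi⟩ : ↥(integralClosure R E)) - algebraMap R ↥(integralClosure R E) r ∈
      ssm_tw_centre K R VA hVA := by
    rw [ssm_tw_mem_centre]
    exact hr
  have key := s36nx_nC hq (hrk.trans hrank) (ssm_tw_centre K R VA hVA)
    (ssm_tw_centre K R VC hVC) hne hmap hfA hfC ⟨x, hxi⟩ r hA
  rw [ssm_tw_mem_centre] at key
  rw [s36nx_norm_coe K R ⟨x, hxi⟩]
  exact key

end Main

end Fermat.Agent.S36
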