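/-
Project S36 (Carayol), cell [VAL3] (helper25): the abstract "third valuation" lemma (Mathlib only).
Prefix `s36v_`.

Setting: `R ⊆ S` Dedekind domains, `S` finite torsion-free of rank `q ≥ 2` over `R` (in the
application `R` is the Gauss valuation ring of the level-`N'q` function field `E₁`, `S` its integral
closure in the level-`N'q²` function field `E₂`, `[E₂ : E₁] = q`), `p` a maximal ideal of `R`,
`QA` a prime of `S` over `p` with `e = f = 1` (the Gauss valuation of `E₂`), and `z ∈ S` an element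
which is a unit at `QA`, lies in EVERY other prime over `p`, and whose norm has `p`-adic valuation
exactly `1` (in the application `z = λ(X^{q²}) - λ(X)` and `N(z)` is the different of level `q`,
which has valuation `1` by the thickness computation of S34).

Conclusion (`s36v_main`): there is exactly ONE other prime `QC` over `p`; it has `f = 1`,
`e = q - 1`, `z` is a uniformiser at `QC`, and `p S = QA * QC ^ (q - 1)`.
-/
import Mathlib

set_option autoImplicit false
set_option linter.unusedSectionVars false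

namespace Fermat.Agent.S36

open Ideal Module

section Dedekind

variable {R S : Type*} [CommRing R] [IsDedekindDomain R] [CommRing S] [IsDedekindDomain S]
  [Algebra R S] [Module.Finite R S] [Module.IsTorsionFree R S]

/-- `p ^ k ≤ p ^ 2` for `2 ≤ k`. -/
theorem s36v_pow_le (p : Ideal R) {k : ℕ} (hk : 2 ≤ k) : p ^ k ≤ p ^ 2 :=
  Ideal.pow_le_pow_right hk

/-- If `z` lies in an ideal `I` of `S` whose relative norm is contained in `p ^ 2`, the norm of `z`
lies in `p ^ 2`. -/
theorem s36v_norm_mem_sq (p : Ideal R) (I : Ideal S) (hI : relNorm R I ≤ p ^ 2) {z : S}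
    (hz : z ∈ I) : Algebra.intNorm R S z ∈ p ^ 2 := by
  have h1 : relNorm R (span ({z} : Set S)) ≤ relNorm R I :=
    relNorm_mono R ((span_singleton_le_iff_mem I).2 hz)
  rw [relNorm_singleton] at h1
  exact hI (h1 (mem_span_singleton_self _))

variable [PerfectField (FractionRing R)]

/-- The relative norm of a prime over the maximal ideal `p`. -/
theorem s36v_relNorm_prime (p : Ideal R) [p.IsMaximal] (Q : Ideal S) [Q.IsPrime] [Q.LiesOver p] :
    relNorm R Q = p ^ Q.inertiaDeg R := by
  have : Q.IsMaximal := Ideal.IsMaximal.of_liesOver_isMaximal Q p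
  exact relNorm_eq_pow_of_isMaximal Q p

/-- **The third valuation.** -/
theorem s36v_main (p : Ideal R) [p.IsMaximal] (hp0 : p ≠ ⊥) {q : ℕ} (hq : 2 ≤ q)
    (hrank : finrank R S = q) (QA : Ideal S) [QA.IsPrime] [QA.LiesOver p]
    (heA : QA.ramificationIdx R = 1) (hfA : QA.inertiaDeg R = 1) (z : S)
    (hz : ∀ Q : Ideal S, Q.IsPrime → Q.LiesOver p → Q ≠ QA → z ∈ Q)
    (hN : Algebra.intNorm R S z ∉ p ^ 2) :
    ∃ QC : Ideal S, QC.IsPrime ∧ QC.LiesOver p ∧ QC ≠ QA ∧
      (∀ Q : Ideal S, Q.IsPrime → Q.LiesOver p → Q = QA ∨ Q = QC) ∧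
      QC.inertiaDeg R = 1 ∧ QC.ramificationIdx R = q - 1 ∧ z ∈ QC ∧ z ∉ QC ^ 2 ∧
      p.map (algebraMap R S) = QA * QC ^ (q - 1) := by
  classical
  have hsum := Ideal.sum_ramification_inertia_eq_finrank p S
  rw [hrank] at hsum
  let Q0 : p.primesOver S := ⟨QA, ‹_›, ‹_›⟩
  rw [← Finset.add_sum_erase _ _ (Finset.mem_univ Q0)] at hsum
  change QA.ramificationIdx R * QA.inertiaDeg R + _ = _ at hsum
  rw [heA, hfA, one_mul] at hsum
  have hpos : ∀ P : p.primesOver S, 1 ≤ P.1.ramificationIdx R * P.1.inertiaDeg R := by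
    intro P
    have := P.2.1
    exact Nat.succ_le_of_lt (Nat.mul_pos (ramificationIdx_pos P.1 R) (inertiaDeg_pos P.1 R))
  -- there is another prime
  have hne : (Finset.univ.erase Q0).Nonempty := by
    rw [Finset.nonempty_iff_ne_empty]
    intro h
    rw [h, Finset.sum_empty] at hsum
    omega
  obtain ⟨P2, hP2⟩ := hne
  have hP2ne : P2.1 ≠ QA := by
    intro h
    have : P2 = Q0 := Subtype.ext h
    exact (Finset.mem_erase.1 hP2).1 this
  have hP2prime : P2.1.IsPrime := P2.2.1
  have hP2over : P2.1.LiesOver p := P2.2.2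
  have hP2max : P2.1.IsMaximal := Ideal.IsMaximal.of_liesOver_isMaximal P2.1 p
  have hzP2 : z ∈ P2.1 := hz P2.1 hP2prime hP2over hP2ne
  -- it is the only one
  have hP2' : ∀ P ∈ Finset.univ.erase Q0, P = P2 := by
    intro P hP
    by_contra hPne
    have hPprime : P.1.IsPrime := P.2.1
    have hPover : P.1.LiesOver p := P.2.2
    have hPmax : P.1.IsMaximal := Ideal.IsMaximal.of_liesOver_isMaximal P.1 p
    have hPne' : P.1 ≠ QA := by
      intro h
      have : P = Q0 := Subtype.ext h
      exact (Finset.mem_erase.1 hP).1 this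
    have hzP : z ∈ P.1 := hz P.1 hPprime hPover hPne'
    have hne12 : P.1 ≠ P2.1 := fun h => hPne (Subtype.ext h)
    have hcop : IsCoprime P.1 P2.1 := Ideal.isCoprime_of_isMaximal hne12
    have hmem : z ∈ P.1 * P2.1 := by
      rw [Ideal.mul_eq_inf_of_isCoprime hcop]
      exact ⟨hzP, hzP2⟩
    apply hN
    refine s36v_norm_mem_sq p (P.1 * P2.1) ?_ hmem
    rw [map_mul, s36v_relNorm_prime p P.1, s36v_relNorm_prime p P2.1, ← pow_add]
    apply s36v_pow_le
    have h1 : 0 < P.1.inertiaDeg R := inertiaDeg_pos P.1 R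
    have h2 : 0 < P2.1.inertiaDeg R := inertiaDeg_pos P2.1 R
    omega
  -- inertia degree one
  have hf : P2.1.inertiaDeg R = 1 := by
    by_contra hne1
    have h1 : 0 < P2.1.inertiaDeg R := inertiaDeg_pos P2.1 R
    apply hN
    refine s36v_norm_mem_sq p P2.1 ?_ hzP2
    rw [s36v_relNorm_prime p P2.1]
    apply s36v_pow_le
    omega
  -- `z` is a uniformiser
  have hz2 : z ∉ P2.1 ^ 2 := by
    intro hmem
    apply hN
    refine s36v_norm_mem_sq p (P2.1 ^ 2) ?_ hmem
    rw [map_pow, s36v_relNorm_prime p P2.1, hf, pow_one]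
  -- the ramification index
  have hrest : ∑ P ∈ Finset.univ.erase Q0, P.1.ramificationIdx R * P.1.inertiaDeg R =
      P2.1.ramificationIdx R * P2.1.inertiaDeg R := by
    rw [← Finset.add_sum_erase _ _ hP2]
    have hempty : (Finset.univ.erase Q0).erase P2 = ∅ := by
      rw [Finset.eq_empty_iff_forall_notMem]
      intro P hP
      have h1 := Finset.mem_erase.1 hP
      exact h1.1 (hP2' P h1.2)
    rw [hempty, Finset.sum_empty, add_zero]
  rw [hrest, hf, mul_one] at hsum
  have he : P2.1.ramificationIdx R = q - 1 := by omega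
  have hall : ∀ Q : Ideal S, Q.IsPrime → Q.LiesOver p → Q = QA ∨ Q = P2.1 := by
    intro P hP1 hP2''
    by_cases hPQ : P = QA
    · exact Or.inl hPQ
    · right
      have hmem : (⟨P, hP1, hP2''⟩ : p.primesOver S) ∈ Finset.univ.erase Q0 :=
        Finset.mem_erase.2 ⟨fun h => hPQ (congrArg Subtype.val h), Finset.mem_univ _⟩
      exact congrArg Subtype.val (hP2' _ hmem)
  refine ⟨P2.1, hP2prime, hP2over, hP2ne, hall, hf, he, hzP2, hz2, ?_⟩
  rw [Ideal.map_algebraMap_eq_finsetProd_pow (R := S) hp0]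
  have hset : (p.primesOver S).toFinset = {QA, P2.1} := by
    ext P
    simp only [Set.mem_toFinset, Finset.mem_insert, Finset.mem_singleton]
    constructor
    · rintro ⟨h1, h2⟩
      exact hall P h1 h2
    · rintro (rfl | rfl)
      · exact ⟨‹_›, ‹_›⟩
      · exact ⟨hP2prime, hP2over⟩
  rw [hset, Finset.prod_pair (Ne.symm hP2ne), heA, he, pow_one]

end Dedekind

end Fermat.Agent.S36
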