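/-
Project S36 (Carayol): THE GEOMETRIC SEAMS (architect: helper25).  Twin of `S35/Seams.lean`,
`S35/SeamsHes.lean`, `S35/SeamsNF.lean`, `S35/SeamsHesNF.lean` for the clause
"an inertia-fixed `q`-new vector of `T_λ J₀(N' q²)` is zero".

Notation: `q ∤ N'` prime, levels `N' ⊂ N' q ⊂ N' q q`; `α, β : F̄_{N' q} → F̄_{N' q q}` the two
degeneracy maps of the SECOND step (`heckeAlphaBar Kbar (N' * q) q`, `heckeBetaBar Kbar (N' * q) q`);
`A` a valuation ring of `Q̄` over `q`, `I_A` its inertia group.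

Chain (top to bottom):

  frozen S36  ⟸ `s36t_result_of` (S36/Top.lean) ⟸ `s36t_InvNew` = [INV-0] + [NEW-K]
  [INV-0]  `s36_Inv0`                 (Tate module)
     ⟸ [TATE-LIM]  `s36_Geom N' q`    (torsion classes)
     ⟸ [KUM]       `s36_KeyBar N' q`  (Kummer form over `Q̄`)
     ⟸ [DESC]      `s36_CoreNF N' q hq2` (q odd, Legendre cover) resp. `s36h_CoreNF N' q hq3`
                                          (q = 2, Hesse cover)
     ⟸ [M2] + [ACORE] : `s36_CoreAt` / `s36h_CoreAt` over every unramified number-field base.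

* `s36_Inv0`        : the only vector of `T_λ J₀(N' q q)` fixed by `I_A` and killed by both
                      push-forwards to `T_λ J₀(N' q)` is `0`;
* `s36_Geom N' q`   : a fixed nonzero integer `d` (uniform in `m`) kills the prime-to-`q` torsion
                      classes of `J₀(N' q q)` fixed by `I_A` and killed by both push-forwards;
* `s36_KeyBar N' q` : the Kummer form: `f ^ d = c · r ^ m`;
* `s36_NewAt`, `s36_CoreAt` : THE CORE over `(L, O)`, `O` UNRAMIFIED, in the cover field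
                      `E₂ = lg_E L (N' q q)`, with the norms to `E₁ = lg_E L (N' q)` along the
                      inclusion and to `β E₁ = E₁(X^q)` (NO Atkin–Lehner involution in the seam);
* `s36h_NewAt`, `s36h_CoreAt` : the Hesse twins (`hs_E`, `q ≠ 3`; in the application `q = 2`);
* `s36_CoreNF`, `s36h_CoreNF` : the core over all unramified number fields `L1 ⊇ T`, `T` a finite
                      INERTIA-FIXED set chosen by the provider, ONE exponent `d` for fixed `A`.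
Prefix `s36_` (Hesse: `s36h_`).
-/
import Mathlib
import Fermat.Agent.S35.Seams
import Fermat.Agent.S35.SeamsHes
import Fermat.Agent.S35.PMaps

set_option autoImplicit false
set_option linter.unusedSectionVars false
set_option linter.unusedVariables false
set_option linter.style.haveILetI false

noncomputable section

namespace Fermat.Agent.S36

open ModularCurve AlgebraicCurve IsLocalRing Fermat.Agent.JT3 Fermat.Agent.S24 Fermat.Agent.SS
  Fermat.Agent.S35

local notation "GQ" => (AlgebraicClosure ℚ ≃ₐ[ℚ] AlgebraicClosure ℚ)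
local notation "Qb" => AlgebraicClosure ℚ

/-! ### The Tate module -/

/-- **[INV-0]**: at every level `N' q q` (`q ∤ N'` prime, `q ≠ λ`) and for every valuation ring
`A` of `Q̄` over `q`, the only vector of `T_λ J₀(N' q q)` fixed by the inertia group `I_A` and killed
by the two degeneracy maps to level `N' q` is `0`. -/
def s36_Inv0 : Prop :=
  ∀ (N' q : ℕ) [NeZero N'] [NeZero q] (lam : ℕ) [Fact lam.Prime], q.Prime → q ≠ lam → ¬ q ∣ N' →
    ∀ A : ValuationSubring Qb, A.LiesOverPrime q →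
      ∀ x : tj_T (N' * q * q) lam,
        (∀ s ∈ A.inertiaSubgroupIn ℚ, tj_rho (N' * q * q) lam s x = x) →
        s35p_P1 (N' * q) q lam x = 0 → s35p_P2 (N' * q) q lam x = 0 → x = 0

/-! ### Over `Q̄` -/

section Bar

variable (N' q : ℕ) [NeZero N'] [NeZero q]

/-- **Geometric seam.** For every valuation ring `P` of `Q̄` over `q` there is `d ≠ 0` (UNIFORM
IN `m`) such that for every `m` prime to `q` and every `z ∈ J₀(N' q q)[m]` which is fixed by the
inertia group of `P` and is the class of a divisor whose push-forwards along `α` and `β` (to level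
`N' q`) are principal: `d z = 0`. -/
def s36_Geom : Prop :=
  ∀ P : ValuationSubring Qb, P.LiesOverPrime q →
    ∃ d : ℕ, d ≠ 0 ∧ ∀ m : ℕ, ¬ q ∣ m →
      ∀ D : Divisor.degZero (K := Kbar) (F := Fbar (N' * q * q)),
        m • (Pic0.mk D : JZero (N' * q * q)) = 0 →
        (∀ s ∈ P.inertiaSubgroupIn ℚ, s • (Pic0.mk D : JZero (N' * q * q)) = Pic0.mk D) →
        (Divisor.pushforwardAlong (heckeAlphaBar Kbar (N' * q) q) (hib_alphaIntegral (N' * q) q)
          (D : Divisor Kbar (Fbar (N' * q * q)))).IsPrincipal →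
        (Divisor.pushforwardAlong (heckeBetaBar Kbar (N' * q) q) (hib_betaIntegral (N' * q) q)
          (D : Divisor Kbar (Fbar (N' * q * q)))).IsPrincipal →
        d • (Pic0.mk D : JZero (N' * q * q)) = 0

/-- **Kummer seam.** For `P` over `q` there is `d ≠ 0` (uniform in `m`) such that for `q ∤ m` and
`f ≠ 0` with all orders divisible by `m`, whose Kummer class is fixed by the inertia group and whose
norms along `α` and `β` (to level `N' q`) are `m`-th powers up to constants: `f ^ d = c · r ^ m`. -/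
def s36_KeyBar : Prop :=
  ∀ P : ValuationSubring Qb, P.LiesOverPrime q →
    ∃ d : ℕ, d ≠ 0 ∧ ∀ m : ℕ, ¬ q ∣ m →
      ∀ f : Fbar (N' * q * q), f ≠ 0 →
        (∀ v : Place Kbar (Fbar (N' * q * q)), (m : ℤ) ∣ v.ord f) →
        (∀ s ∈ P.inertiaSubgroupIn ℚ, ∃ (c : Kbar) (r : Fbar (N' * q * q)), r ≠ 0 ∧
          ss_act (N' * q * q) s f = algebraMap Kbar (Fbar (N' * q * q)) c * r ^ m * f) →
        (∃ (c : Kbar) (r : Fbar (N' * q)), r ≠ 0 ∧
          s35_normA (N' * q) q f = algebraMap Kbar (Fbar (N' * q)) c * r ^ m) →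
        (∃ (c : Kbar) (r : Fbar (N' * q)), r ≠ 0 ∧
          s35_normB (N' * q) q f = algebraMap Kbar (Fbar (N' * q)) c * r ^ m) →
        ∃ (c : Kbar) (r : Fbar (N' * q * q)), r ≠ 0 ∧
          f ^ d = algebraMap Kbar (Fbar (N' * q * q)) c * r ^ m

end Bar

/-! ### Over an unramified base: Legendre cover (`q` odd) -/

section Legendre

variable {L : Type*} [Field L] [CharZero L] [Algebra L (AlgebraicClosure ℚ)]
  (N' q : ℕ) [NeZero N'] [NeZero q] (hq2 : ¬ 2 ∣ q)

/-- the norm `E₂ = lg_E L (N' q q) → E₁ = lg_E L (N' q)` (along the inclusion). -/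
def s36_normE (g : ↥(lg_E L (N' * q * q))) : ↥(lg_E L (N' * q)) :=
  letI := ssm_gi_algebra (ssm_al_E_le L (N' * q) q)
  Algebra.norm ↥(lg_E L (N' * q)) g

/-- the norm `E₂ = lg_E L (N' q q) → β E₁ = E₁(X^q)` (along the second degeneracy map). -/
def s36_normEB (g : ↥(lg_E L (N' * q * q))) :
    ↥((lg_E L (N' * q)).map (qExpandAlgHomC L q)) :=
  letI := ssm_gi_algebra (ssm_al_E_beta_le L (N' * q) q hq2)
  Algebra.norm ↥((lg_E L (N' * q)).map (qExpandAlgHomC L q)) g

/-- all orders of `g` at the places of `E₂ / L` are divisible by `m`, and the norms of `g` to `E₁`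
and to `β E₁` are `m`-th powers up to constants. -/
def s36_NewAt (m : ℕ) (g : ↥(lg_E L (N' * q * q))) : Prop :=
  g ≠ 0 ∧ (∀ v : Place L ↥(lg_E L (N' * q * q)), (m : ℤ) ∣ v.ord g) ∧
    (∃ (c : L) (r : ↥(lg_E L (N' * q))), r ≠ 0 ∧
      s36_normE N' q g = algebraMap L ↥(lg_E L (N' * q)) c * r ^ m) ∧
    (∃ (c : L) (r : ↥((lg_E L (N' * q)).map (qExpandAlgHomC L q))), r ≠ 0 ∧
      s36_normEB N' q hq2 g =
        algebraMap L ↥((lg_E L (N' * q)).map (qExpandAlgHomC L q)) c * r ^ m)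

/-- **THE CORE** over `L` in the Legendre cover field: for `g` as in `s36_NewAt`,
`g ^ d = c · r ^ m`.  (TRUE when `L` carries a discrete valuation ring with uniformiser `q`, i.e.
over an UNRAMIFIED base: see `s36_CoreNF`.) -/
def s36_CoreAt (m d : ℕ) : Prop :=
  ∀ g : ↥(lg_E L (N' * q * q)), s36_NewAt N' q hq2 m g →
    ∃ (c : L) (r : ↥(lg_E L (N' * q * q))), r ≠ 0 ∧
      g ^ d = algebraMap L ↥(lg_E L (N' * q * q)) c * r ^ m

end Legendre

/-! ### Over an unramified base: Hesse cover (`q ≠ 3`, in the application `q = 2`) -/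

section Hesse

variable {L : Type*} [Field L] [CharZero L] [Algebra L (AlgebraicClosure ℚ)] (h3 : (3 : L) ≠ 0)
  (N' q : ℕ) [NeZero N'] [NeZero q] (hq3 : ¬ 3 ∣ q)

/-- the norm `E₂ = hs_E L h3 (N' q q) → E₁ = hs_E L h3 (N' q)` (along the inclusion). -/
def s36h_normE (g : ↥(hs_E L h3 (N' * q * q))) : ↥(hs_E L h3 (N' * q)) :=
  letI := ssm_gi_algebra (ssm_alh_E_le L h3 (ssm_fh_hF9 h3) (N' * q) q)
  Algebra.norm ↥(hs_E L h3 (N' * q)) g

/-- the norm `E₂ = hs_E L h3 (N' q q) → β E₁ = E₁(X^q)`. -/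
def s36h_normEB (g : ↥(hs_E L h3 (N' * q * q))) :
    ↥((hs_E L h3 (N' * q)).map (qExpandAlgHomC L q)) :=
  letI := ssm_gi_algebra (ssm_alh_E_beta_le L h3 (ssm_fh_hF9 h3) (N' * q) q hq3)
  Algebra.norm ↥((hs_E L h3 (N' * q)).map (qExpandAlgHomC L q)) g

/-- Hesse twin of `s36_NewAt`. -/
def s36h_NewAt (m : ℕ) (g : ↥(hs_E L h3 (N' * q * q))) : Prop :=
  g ≠ 0 ∧ (∀ v : Place L ↥(hs_E L h3 (N' * q * q)), (m : ℤ) ∣ v.ord g) ∧
    (∃ (c : L) (r : ↥(hs_E L h3 (N' * q))), r ≠ 0 ∧
      s36h_normE h3 N' q g = algebraMap L ↥(hs_E L h3 (N' * q)) c * r ^ m) ∧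
    (∃ (c : L) (r : ↥((hs_E L h3 (N' * q)).map (qExpandAlgHomC L q))), r ≠ 0 ∧
      s36h_normEB h3 N' q hq3 g =
        algebraMap L ↥((hs_E L h3 (N' * q)).map (qExpandAlgHomC L q)) c * r ^ m)

/-- Hesse twin of `s36_CoreAt`. -/
def s36h_CoreAt (m d : ℕ) : Prop :=
  ∀ g : ↥(hs_E L h3 (N' * q * q)), s36h_NewAt h3 N' q hq3 m g →
    ∃ (c : L) (r : ↥(hs_E L h3 (N' * q * q))), r ≠ 0 ∧
      g ^ d = algebraMap L ↥(hs_E L h3 (N' * q * q)) c * r ^ m

end Hesse

/-! ### Over the unramified number fields -/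

section NF

variable (N' q : ℕ) [NeZero N'] [NeZero q]

/-- **The core over the unramified number fields** (Legendre cover, `q` odd): for every `A` over
`q` there are ONE exponent `d ≠ 0` and a finite set `T ⊆ Q̄` FIXED BY THE INERTIA GROUP `I_A` such
that `s36_CoreAt … m d` holds over every number field `L1 ⊇ T` in which `q` is a uniformiser of
`A ∩ L1`, for every `m` prime to `q` with `ζ_m ∈ L1`. -/
def s36_CoreNF (hq2 : ¬ 2 ∣ q) : Prop :=
  ∀ A : ValuationSubring Qb, A.LiesOverPrime q →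
    ∃ d : ℕ, d ≠ 0 ∧ ∃ T : Finset Qb, (∀ t ∈ T, ∀ s ∈ A.inertiaSubgroupIn ℚ, s t = t) ∧
      ∀ L1 : IntermediateField ℚ Qb, FiniteDimensional ℚ L1 → (↑T : Set Qb) ⊆ L1 →
        Irreducible ((q : ℕ) : ↥(A.comap (algebraMap ↥L1 Qb))) →
        ∀ m : ℕ, ¬ q ∣ m → (∃ ζ : ↥L1, IsPrimitiveRoot ζ m) →
          s36_CoreAt (L := ↥L1) N' q hq2 m d

/-- **The core over the unramified number fields**, Hesse cover (`q ≠ 3`). -/
def s36h_CoreNF (hq3 : ¬ 3 ∣ q) : Prop :=
  ∀ A : ValuationSubring Qb, A.LiesOverPrime q →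
    ∃ d : ℕ, d ≠ 0 ∧ ∃ T : Finset Qb, (∀ t ∈ T, ∀ s ∈ A.inertiaSubgroupIn ℚ, s t = t) ∧
      ∀ L1 : IntermediateField ℚ Qb, FiniteDimensional ℚ L1 → (↑T : Set Qb) ⊆ L1 →
        Irreducible ((q : ℕ) : ↥(A.comap (algebraMap ↥L1 Qb))) →
        ∀ m : ℕ, ¬ q ∣ m → (∃ ζ : ↥L1, IsPrimitiveRoot ζ m) →
          s36h_CoreAt (L := ↥L1) (three_ne_zero : (3 : ↥L1) ≠ 0) N' q hq3 m d

end NF

end Fermat.Agent.S36
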