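/-
Project S36 (Carayol), cells [TOP] + [PLUMB]: the frozen statement of S36 from node E, S18 and
the seam [INV-W] for the Tate module of `J₀(M)`; and [INV-W] from [INV-0] + [NEW-K].

* `s36t_InvW`      : the seam [INV-W]: for a newform `g` of level `M` and a prime `q ≠ λ` with
                     `v_q(M) = 2` there is a valuation ring `A` of `Q̄` over `q` such that no nonzero
                     `χ_g`-eigenvector of `Frac(O') ⊗ T_λ J₀(M)` is fixed by the inertia group `I_A`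
                     (the `hinv` hypothesis of `pku_S36_of_tate` at `D := tjp_tate M lam S ..`);
* `s36t_result_of` : the frozen statement of S36 verbatim from `tjp_NodeE`, `tjp_S18`, `s36t_InvW`
                     (the hypotheses `hlam2`, `hres` of the frozen statement are not needed);
* `s36t_InvNew`    : [INV-0] + [NEW-K]: for such `q` there are a free `ℤ_λ`-module `T'`, two
                     linear maps `P1 P2 : T_λ J₀(M) → T'` (the degeneracy maps to level `M/q`) and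
                     a valuation ring `A` over `q` such that
    [INV-0]  the only `x : T_λ J₀(M)` fixed by `I_A` and killed by `P1`, `P2` is `0`;
    [NEW-K]  the base changes of `P1`, `P2` kill the `χ_g`-eigenvectors;
* `s36t_invW_of`   : `s36t_InvNew → s36t_InvW` (by `s35pl_main` with `Φ = 0`, `c = 1`).
Prefix `s36t_`.  Owner: helper28.
-/
import Mathlib
import Fermat.Prelude.Def_CuspForm_Newforms
import Fermat.Agent.JT3.Tate.Consumers
import Fermat.Agent.S36.PackU
import Fermat.Agent.S35.Plumb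

set_option autoImplicit false
set_option linter.unusedSectionVars false
set_option linter.style.haveILetI false
set_option linter.overlappingInstances false
set_option linter.unusedVariables false

noncomputable section

namespace Fermat.Agent.S36

open IsLocalRing TensorProduct Polynomial Fermat.Agent.JT3 Fermat.Agent.S35 ModularCurve
open CuspForm CuspForm.IsNewform

local notation "GQ" => (AlgebraicClosure ℚ ≃ₐ[ℚ] AlgebraicClosure ℚ)
local notation "Qbar" => AlgebraicClosure ℚ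

/-- **The seam [INV-W] for `J₀(M)`.** -/
def s36t_InvW : Prop :=
  ∀ {M : ℕ} [NeZero M] {g : CuspForm (CongruenceSubgroup.Gamma0 M) 2} (_ : g.IsNewform)
    (lam : ℕ) [Fact lam.Prime] (S : Finset ℕ)
    (O' : Type) [CommRing O'] [IsDomain O'] [IsDiscreteValuationRing O']
    [IsAdicComplete (IsLocalRing.maximalIdeal O') O'] [Finite (IsLocalRing.ResidueField O')]
    [CharZero O'] (hlamO' : (lam : O') ∈ IsLocalRing.maximalIdeal O')
    (chig : CuspForm.heckeAlgebra M 2 (↑S : Set ℕ) →+* ℂ)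
    (_ : ∀ (ℓ : ℕ) (hℓ : ℓ.Prime) (hℓM : ¬ ℓ ∣ M) (hℓS : ℓ ∉ (↑S : Set ℕ)),
      chig (CuspForm.heckeAlgebra.T hℓ hℓM hℓS) = ModularFormClass.qCoeff g ℓ)
    (iota : chig.range →+* O')
    (_ : lam ∈ S) (_ : ∀ q : ℕ, q.Prime → q ∣ M → q ∈ S),
    letI : Algebra ℤ_[lam] O' := (cya_padicHom lam O' hlamO').toAlgebra
    ∀ q : ℕ, q.Prime → q ≠ lam → M.factorization q = 2 →
      ∃ A : ValuationSubring Qbar, A.LiesOverPrime q ∧
        ∀ u : FractionRing O' ⊗[ℤ_[lam]] tj_T M lam,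
          (∀ (ℓ : ℕ) (hℓ : ℓ.Prime) (hℓM : ¬ ℓ ∣ M) (hℓS : ℓ ∉ (↑S : Set ℕ)),
            (tjp_Tl M lam S ℓ).baseChange (FractionRing O') u =
              algebraMap O' (FractionRing O')
                ((iota.comp chig.rangeRestrict) (CuspForm.heckeAlgebra.T hℓ hℓM hℓS)) • u) →
          (∀ s ∈ A.inertiaSubgroupIn ℚ, (tj_rho M lam s).baseChange (FractionRing O') u = u) →
            u = 0

/-- **S36 from node E, S18 and the seam [INV-W]** (the frozen statement verbatim). -/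
theorem s36t_result_of (hE : tjp_NodeE) (hS18 : tjp_S18) (hI : s36t_InvW)
    {M : ℕ} [NeZero M] {g : CuspForm (CongruenceSubgroup.Gamma0 M) 2} (hg : g.IsNewform)
    (lam : ℕ) [Fact lam.Prime]
    (S : Finset ℕ)
    (O' : Type) [CommRing O'] [IsDomain O'] [IsDiscreteValuationRing O']
    [IsAdicComplete (IsLocalRing.maximalIdeal O') O'] [Finite (IsLocalRing.ResidueField O')]
    [CharZero O'] (hlamO' : (lam : O') ∈ IsLocalRing.maximalIdeal O')
    (hlam2 : lam ≠ 2)
    (chig : CuspForm.heckeAlgebra M 2 (↑S : Set ℕ) →+* ℂ)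
    (hchig : ∀ (ℓ : ℕ) (hℓ : ℓ.Prime) (hℓM : ¬ ℓ ∣ M) (hℓS : ℓ ∉ (↑S : Set ℕ)),
      chig (CuspForm.heckeAlgebra.T hℓ hℓM hℓS) = ModularFormClass.qCoeff g ℓ)
    (iota : chig.range →+* O')
    (hlamS : lam ∈ S) (hMS : ∀ q : ℕ, q.Prime → q ∣ M → q ∈ S)
    (hres : ∀ (O'' : Type) [CommRing O''] [IsDomain O''] [IsDiscreteValuationRing O'']
      [IsAdicComplete (IsLocalRing.maximalIdeal O'') O''] [Finite (IsLocalRing.ResidueField O'')] [CharZero O'']
      [Algebra O' O''] [Module.Finite O' O''] [IsLocalHom (algebraMap O' O'')],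
      Function.Injective (algebraMap O' O'') → ∀ (ρ : GaloisRepAdic O''),
      (∀ (ℓ : ℕ) (hℓ : ℓ.Prime) (hℓlam : ℓ ≠ lam) (hℓM : ¬ ℓ ∣ M) (hℓS : ℓ ∉ (↑S : Set ℕ)),
        ∀ A : ValuationSubring (AlgebraicClosure ℚ), A.LiesOverPrime ℓ →
          ∀ σ : AlgebraicClosure ℚ ≃ₐ[ℚ] AlgebraicClosure ℚ, A.IsFrobeniusAt σ ℓ →
            LinearMap.charpoly (ρ.ρ σ) =
              X ^ 2 - C (algebraMap O' O'' ((iota.comp chig.rangeRestrict) (CuspForm.heckeAlgebra.T hℓ hℓM hℓS))) * X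
                + C ((ℓ : O'')))
      → ρ.residual.IsAbsolutelyIrreducible ∧ ρ.residual.IsOdd)
    :
    ∃ (O'' : Type) (_ : CommRing O'') (_ : IsDomain O'') (_ : IsDiscreteValuationRing O'')
      (_ : IsAdicComplete (IsLocalRing.maximalIdeal O'') O'') (_ : Finite (IsLocalRing.ResidueField O''))
      (_ : CharZero O'') (_ : Algebra O' O'') (_ : Module.Finite O' O'') (_ : IsLocalHom (algebraMap O' O'')),
      Function.Injective (algebraMap O' O'') ∧
      ∃ ρ : GaloisRepAdic O'',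
        (∀ (ℓ : ℕ) (hℓ : ℓ.Prime) (hℓM : ¬ ℓ ∣ M) (hℓS : ℓ ∉ (↑S : Set ℕ)),
          ∀ A : ValuationSubring (AlgebraicClosure ℚ), A.LiesOverPrime ℓ →
            ∀ σ : AlgebraicClosure ℚ ≃ₐ[ℚ] AlgebraicClosure ℚ, A.IsFrobeniusAt σ ℓ →
              LinearMap.charpoly (ρ.ρ σ) =
                X ^ 2 - C (algebraMap O' O'' ((iota.comp chig.rangeRestrict) (CuspForm.heckeAlgebra.T hℓ hℓM hℓS))) * X
                  + C ((ℓ : O''))) ∧
        (∀ q : ℕ, q.Prime → q ≠ lam → M.factorization q = 2 → ¬ ρ.IsUnipotentOnInertiaAt q) := by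
  letI : Algebra ℤ_[lam] O' := (cya_padicHom lam O' hlamO').toAlgebra
  obtain ⟨χ₀, hχ₀⟩ := tjp_eigen_gen M lam S (iota.comp chig.rangeRestrict)
  exact pku_S36_of_tate (tjp_tate M lam S hlamS (hE M) (hS18 M)) hlamS hMS O' hlamO'
    (iota.comp chig.rangeRestrict) χ₀ hχ₀
    (hI hg lam S O' hlamO' chig hchig iota hlamS hMS)

/-- **[INV-0] + [NEW-K]** for `J₀(M)` at the primes `q` with `v_q(M) = 2`. -/
def s36t_InvNew : Prop :=
  ∀ {M : ℕ} [NeZero M] {g : CuspForm (CongruenceSubgroup.Gamma0 M) 2} (_ : g.IsNewform)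
    (lam : ℕ) [Fact lam.Prime] (S : Finset ℕ)
    (O' : Type) [CommRing O'] [IsDomain O'] [IsDiscreteValuationRing O']
    [IsAdicComplete (IsLocalRing.maximalIdeal O') O'] [Finite (IsLocalRing.ResidueField O')]
    [CharZero O'] (hlamO' : (lam : O') ∈ IsLocalRing.maximalIdeal O')
    (chig : CuspForm.heckeAlgebra M 2 (↑S : Set ℕ) →+* ℂ)
    (_ : ∀ (ℓ : ℕ) (hℓ : ℓ.Prime) (hℓM : ¬ ℓ ∣ M) (hℓS : ℓ ∉ (↑S : Set ℕ)),
      chig (CuspForm.heckeAlgebra.T hℓ hℓM hℓS) = ModularFormClass.qCoeff g ℓ)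
    (iota : chig.range →+* O')
    (_ : lam ∈ S) (_ : ∀ q : ℕ, q.Prime → q ∣ M → q ∈ S),
    letI : Algebra ℤ_[lam] O' := (cya_padicHom lam O' hlamO').toAlgebra
    ∀ q : ℕ, q.Prime → q ≠ lam → M.factorization q = 2 →
      ∃ (T' : Type) (_ : AddCommGroup T') (_ : Module ℤ_[lam] T') (_ : Module.Free ℤ_[lam] T')
        (P1 P2 : tj_T M lam →ₗ[ℤ_[lam]] T') (A : ValuationSubring Qbar), A.LiesOverPrime q ∧
        (∀ x : tj_T M lam, (∀ s ∈ A.inertiaSubgroupIn ℚ, tj_rho M lam s x = x) →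
            P1 x = 0 → P2 x = 0 → x = 0) ∧
        (∀ u : FractionRing O' ⊗[ℤ_[lam]] tj_T M lam,
          (∀ (ℓ : ℕ) (hℓ : ℓ.Prime) (hℓM : ¬ ℓ ∣ M) (hℓS : ℓ ∉ (↑S : Set ℕ)),
            (tjp_Tl M lam S ℓ).baseChange (FractionRing O') u =
              algebraMap O' (FractionRing O')
                ((iota.comp chig.rangeRestrict) (CuspForm.heckeAlgebra.T hℓ hℓM hℓS)) • u) →
          P1.baseChange (FractionRing O') u = 0 ∧ P2.baseChange (FractionRing O') u = 0)

/-- **[PLUMB]**: [INV-0] + [NEW-K] give the seam [INV-W]. -/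
theorem s36t_invW_of (h : s36t_InvNew) : s36t_InvW := by
  intro M _ g hg lam _ S O' _ _ _ _ _ _ hlamO' chig hchig iota hlamS hMS
  letI : Algebra ℤ_[lam] O' := (cya_padicHom lam O' hlamO').toAlgebra
  intro q hq hqlam hq2
  obtain ⟨T', _, _, _, P1, P2, A, hA, hINV, hNEW⟩ :=
    h hg lam S O' hlamO' chig hchig iota hlamS hMS q hq hqlam hq2
  refine ⟨A, hA, fun u hu hfix => ?_⟩
  obtain ⟨h1, h2⟩ := hNEW u hu
  have hinjO : Function.Injective (algebraMap ℤ_[lam] O') :=
    pk_padic_injective lam (algebraMap ℤ_[lam] O')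
  have hinj : Function.Injective (algebraMap ℤ_[lam] (FractionRing O')) := by
    rw [IsScalarTower.algebraMap_eq ℤ_[lam] O' (FractionRing O')]
    exact (IsFractionRing.injective O' (FractionRing O')).comp hinjO
  have htf : Module.IsTorsionFree ℤ_[lam] (FractionRing O') := by
    rw [Module.isTorsionFree_iff_smul_eq_zero]
    intro r m hrm
    rw [Algebra.smul_def, mul_eq_zero] at hrm
    rcases hrm with h0 | h0
    · exact Or.inl (hinj (h0.trans (map_zero _).symm))
    · exact Or.inr h0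
  have key := s35pl_main (R := ℤ_[lam]) (K := FractionRing O') P1 P2
    {f | ∃ s ∈ A.inertiaSubgroupIn ℚ, f = tj_rho M lam s} (0 : Module.End ℤ_[lam] (tj_T M lam)) 1
    (fun x hx hx1 hx2 => by
      rw [hINV x (fun s hs => hx _ ⟨s, hs, rfl⟩) hx1 hx2]
      simp)
    u (fun f hf => by
      obtain ⟨s, hs, rfl⟩ := hf
      exact hfix s hs) h1 h2
  rw [LinearMap.baseChange_zero, LinearMap.zero_apply, map_one, one_smul] at key
  exact key.symm

end Fermat.Agent.S36
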