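/-
Project S36, cells [P-EQUIV-2] + [NEW-K] at the level pair `(N' q², N' q)` (helper26; prefix
`s36pe_`): helper28's seam `s36t_InvNew` (S36/Top.lean) from the ONE geometric statement [INV-0].

* `s36pe_Inv0`       : [INV-0] at every level `N q q` (`q ∤ N`, `q ≠ λ`) for the maps `s35p_P1 (N q) q`,
                       `s35p_P2 (N q) q` of S35/PMaps.lean: for SOME valuation ring `A` of `Q̄` over
                       `q`, the only `x ∈ T_λ J₀(N q²)` fixed by the inertia group `I_A` and killed by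
                       the two degeneracy maps to level `N q` is `0`;
* `s36pe_Inv0All`    : the same for EVERY `A` over `q`;  `s36pe_inv0_of_all`;
* `s36pe_level_of_factorization` : `v_q(M) = 2 ⟹ M = N' q q`, `q ∤ N'`;
* **`s36pe_invNew_of`** : `s36pe_Inv0 → s35n_SeamSMO → s36t_InvNew`
                       ([NEW-K] = `s35n_newK` with [P-EQUIV-2] = `s36pe_P1_equiv/P2_equiv`);
* `s36pe_invW_of`    : `s36pe_Inv0 → s35n_SeamSMO → s36t_InvW`.
-/
import Mathlib
import Fermat.Agent.S36.PEquiv2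
import Fermat.Agent.S36.Top
import Fermat.Agent.S35.SMO.StrongLin

set_option autoImplicit false
set_option linter.unusedSectionVars false
set_option linter.style.haveILetI false
set_option linter.overlappingInstances false
set_option linter.unusedVariables false

noncomputable section

namespace Fermat.Agent.S36

open IsLocalRing TensorProduct Polynomial Fermat.Agent.JT3 Fermat.Agent.S35 ModularCurve
open CuspForm CuspForm.IsNewform AlgebraicCurve Fermat.Agent.S24

local notation "GQ" => (AlgebraicClosure ℚ ≃ₐ[ℚ] AlgebraicClosure ℚ)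
local notation "Qbar" => AlgebraicClosure ℚ

/-- **[INV-0]**: for some valuation ring `A` of `Q̄` over `q` (`q ∤ N`, `q ≠ λ`), the only vector of
`T_λ J₀(N q²)` fixed by the inertia group `I_A` and killed by the two degeneracy maps to level `N q`
is `0`. -/
def s36pe_Inv0 : Prop :=
  ∀ (N q : ℕ) [NeZero N] [NeZero q] (lam : ℕ) [Fact lam.Prime], q.Prime → q ≠ lam → ¬ q ∣ N →
    ∃ A : ValuationSubring Qbar, A.LiesOverPrime q ∧
      ∀ x : tj_T (N * q * q) lam,
        (∀ s ∈ A.inertiaSubgroupIn ℚ, tj_rho (N * q * q) lam s x = x) →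
          s35p_P1 (N * q) q lam x = 0 → s35p_P2 (N * q) q lam x = 0 → x = 0

/-- [INV-0] for every valuation ring over `q`. -/
def s36pe_Inv0All : Prop :=
  ∀ (N q : ℕ) [NeZero N] [NeZero q] (lam : ℕ) [Fact lam.Prime], q.Prime → q ≠ lam → ¬ q ∣ N →
    ∀ A : ValuationSubring Qbar, A.LiesOverPrime q →
      ∀ x : tj_T (N * q * q) lam,
        (∀ s ∈ A.inertiaSubgroupIn ℚ, tj_rho (N * q * q) lam s x = x) →
          s35p_P1 (N * q) q lam x = 0 → s35p_P2 (N * q) q lam x = 0 → x = 0

theorem s36pe_inv0_of_all (h : s36pe_Inv0All) : s36pe_Inv0 := by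
  intro N q _ _ lam _ hq hqlam hqN
  obtain ⟨A, hA⟩ := smos_exists_place q hq
  exact ⟨A, hA, h N q lam hq hqlam hqN A hA⟩

/-- `v_q(M) = 2 ⟹ M = N' q q` with `q ∤ N'`. -/
theorem s36pe_level_of_factorization {M q : ℕ} (hM : M ≠ 0) (hq : q.Prime)
    (h2 : M.factorization q = 2) : ∃ N' : ℕ, M = N' * q * q ∧ ¬ q ∣ N' := by
  have hdvd : q ^ 2 ∣ M := by
    rw [← h2]
    exact Nat.ordProj_dvd M q
  obtain ⟨N', hN'⟩ := hdvd
  refine ⟨N', by rw [hN']; ring, ?_⟩
  rintro ⟨c, rfl⟩
  have h3 : q ^ 3 ∣ M := ⟨c, by rw [hN']; ring⟩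
  have := (hq.pow_dvd_iff_le_factorization hM).mp h3
  omega

/-- **[INV-0] and strong multiplicity one give `s36t_InvNew`** ([NEW-K] + [P-EQUIV-2]). -/
theorem s36pe_invNew_of (hI : s36pe_Inv0) (hSMO : s35n_SeamSMO) : s36t_InvNew := by
  intro M _ g hg lam _ S O' _ _ _ _ _ _ hlamO' chig hchig iota hlamS hMS
  letI : Algebra ℤ_[lam] O' := (cya_padicHom lam O' hlamO').toAlgebra
  intro q hq hqlam hq2
  obtain ⟨N', rfl, hqN'⟩ := s36pe_level_of_factorization (NeZero.ne M) hq hq2
  have hN'0 : N' ≠ 0 := fun h => (NeZero.ne (N' * q * q)) (by rw [h, zero_mul, zero_mul])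
  haveI : NeZero N' := ⟨hN'0⟩
  haveI : NeZero q := ⟨hq.ne_zero⟩
  have hdvd : N' * q ∣ N' * q * q := Dvd.intro q rfl
  have hne : N' * q ≠ N' * q * q := by
    intro h
    have h1 : N' * q * 1 = N' * q * q := by rw [mul_one]; exact h
    exact hq.one_lt.ne
      (Nat.eq_of_mul_eq_mul_left (Nat.pos_of_ne_zero (NeZero.ne (N' * q))) h1)
  obtain ⟨A, hA, hINV⟩ := hI N' q lam hq hqlam hqN'
  refine ⟨tj_T (N' * q) lam, inferInstance, inferInstance, inferInstance,
    s35p_P1 (N' * q) q lam, s35p_P2 (N' * q) q lam, A, hA, hINV, ?_⟩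
  intro u hu
  exact ⟨s35n_newK lam hSMO hg S hMS (N' * q) hdvd hne O' (FractionRing O') chig hchig iota
      (s35p_P1 (N' * q) q lam) (fun ℓ hℓ => s36pe_P1_equiv (N' * q) q lam S hq ℓ hℓ) u hu,
    s35n_newK lam hSMO hg S hMS (N' * q) hdvd hne O' (FractionRing O') chig hchig iota
      (s35p_P2 (N' * q) q lam) (fun ℓ hℓ => s36pe_P2_equiv (N' * q) q lam S hq ℓ hℓ) u hu⟩

/-- **[INV-0] and strong multiplicity one give the seam [INV-W].** -/
theorem s36pe_invW_of (hI : s36pe_Inv0) (hSMO : s35n_SeamSMO) : s36t_InvW :=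
  s36t_invW_of (s36pe_invNew_of hI hSMO)

end Fermat.Agent.S36
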