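/-
Project S36, cell [P-EQUIV-2] (helper26; prefix `s36pe_`): the two degeneracy push-forwards
`P_1 = (α_q)_*`, `P_2 = (β_q)_* : T_p J₀(N q) → T_p J₀(N)` of S35/PMaps.lean commute with the Hecke
operators at the good primes ALSO WHEN `q ∣ N` (the level pair `(N' q², N' q)` of S36).

* `s36pe_div_comm_alpha`, `s36pe_div_comm_beta` : the divisor identity (D) = `s35p_DivComm` for
  `q` prime, `q ∣ N`, `ℓ` prime, `ℓ ∤ N q` (twin of `s35pe_div_comm_alpha/beta`, which need `q ∤ N`);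
* `s36pe_P1_equiv_dvd`, `s36pe_P2_equiv_dvd` : `P_i ∘ T_ℓ = T_ℓ ∘ P_i` for `q ∣ N`;
* **`s36pe_P1_equiv`, `s36pe_P2_equiv`** : the same for EVERY level `N` and every prime `q`
  (`q ∤ N`: helper28's `s35t_P1_equiv/P2_equiv`).
-/
import Mathlib
import Fermat.Agent.S36.PEquiv2.Inst
import Fermat.Agent.S35.TorNewOf

set_option autoImplicit false
set_option linter.unusedSectionVars false
set_option linter.unusedVariables false
set_option linter.style.haveILetI false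

noncomputable section

namespace Fermat.Agent.S36

open AlgebraicCurve ModularCurve Module
open Fermat.Agent.S24 Fermat.Agent.JT3 Fermat.Agent.S35

section Div

variable (N q ℓ : ℕ) [NeZero N] [NeZero q] [NeZero ℓ]

/-- **(D), `α`-side, for `q ∣ N`** -/
theorem s36pe_div_comm_alpha (hq : q.Prime) (hqN : q ∣ N)
    (D : Divisor Kbar (Fbar (N * q))) (m : ℕ) (hm : m ≠ 0) (hD : (m • D).IsPrincipal) :
    Divisor.pushforwardAlong (heckeAlphaBar Kbar N q) (hib_alphaIntegral N q)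
        (Divisor.correspondence (heckeBetaBar Kbar (N * q) ℓ) (heckeAlphaBar Kbar (N * q) ℓ)
          (hib_betaIntegral (N * q) ℓ) (hib_alphaIntegral (N * q) ℓ) D) =
      Divisor.correspondence (heckeBetaBar Kbar N ℓ) (heckeAlphaBar Kbar N ℓ)
        (hib_betaIntegral N ℓ) (hib_alphaIntegral N ℓ)
        (Divisor.pushforwardAlong (heckeAlphaBar Kbar N q) (hib_alphaIntegral N q) D) :=
  s35pe_div_comm (heckeAlphaBar Kbar N q) (heckeAlphaBar Kbar (N * q) ℓ)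
    (heckeBetaBar Kbar (N * q) ℓ) (heckeAlphaBar Kbar N ℓ) (heckeBetaBar Kbar N ℓ)
    (hib_alphaIntegral N q) (hib_alphaIntegral (N * q) ℓ) (hib_betaIntegral (N * q) ℓ)
    (hib_alphaIntegral N ℓ) (hib_betaIntegral N ℓ)
    (hib_finiteAlong_alpha N q) (hib_finiteAlong_alpha (N * q) ℓ) (hib_finiteAlong_alpha N ℓ)
    (hib_normFormulaAlong_alpha N q) (hib_normFormulaAlong_alpha (N * q) ℓ)
    (hib_normFormulaAlong_alpha N ℓ)
    (s36pe_norm_comm_alpha N q ℓ hq hqN) D m hm hD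

/-- **(D), `β`-side, for `q ∣ N`** (`ℓ ≠ q` prime) -/
theorem s36pe_div_comm_beta (hq : q.Prime) (hqN : q ∣ N) (hℓ : ℓ.Prime) (hqℓ : q ≠ ℓ)
    (D : Divisor Kbar (Fbar (N * q))) (m : ℕ) (hm : m ≠ 0) (hD : (m • D).IsPrincipal) :
    Divisor.pushforwardAlong (heckeBetaBar Kbar N q) (hib_betaIntegral N q)
        (Divisor.correspondence (heckeBetaBar Kbar (N * q) ℓ) (heckeAlphaBar Kbar (N * q) ℓ)
          (hib_betaIntegral (N * q) ℓ) (hib_alphaIntegral (N * q) ℓ) D) =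
      Divisor.correspondence (heckeBetaBar Kbar N ℓ) (heckeAlphaBar Kbar N ℓ)
        (hib_betaIntegral N ℓ) (hib_alphaIntegral N ℓ)
        (Divisor.pushforwardAlong (heckeBetaBar Kbar N q) (hib_betaIntegral N q) D) :=
  s35pe_div_comm (heckeBetaBar Kbar N q) (heckeAlphaBar Kbar (N * q) ℓ)
    (heckeBetaBar Kbar (N * q) ℓ) (heckeAlphaBar Kbar N ℓ) (heckeBetaBar Kbar N ℓ)
    (hib_betaIntegral N q) (hib_alphaIntegral (N * q) ℓ) (hib_betaIntegral (N * q) ℓ)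
    (hib_alphaIntegral N ℓ) (hib_betaIntegral N ℓ)
    (hib_finiteAlong_beta N q) (hib_finiteAlong_alpha (N * q) ℓ) (hib_finiteAlong_alpha N ℓ)
    (hib_normFormulaAlong_beta N q) (hib_normFormulaAlong_alpha (N * q) ℓ)
    (hib_normFormulaAlong_alpha N ℓ)
    (s36pe_norm_comm_beta N q ℓ hq hℓ hqℓ hqN) D m hm hD

end Div

section Equiv

variable (N q : ℕ) [NeZero N] [NeZero q] (p : ℕ) [Fact p.Prime] (S : Finset ℕ)

omit [NeZero N] [NeZero q] in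
/-- a good prime of level `N q` is different from `q` -/
theorem s36pe_ne_of_good {ℓ : ℕ} (hℓ : pk_Good (N * q) S ℓ) : q ≠ ℓ := by
  rintro rfl
  exact hℓ.2.1 (Dvd.intro_left N rfl)

/-- **[P-EQUIV] for `P₁`, `q ∣ N`.** -/
theorem s36pe_P1_equiv_dvd (hq : q.Prime) (hqN : q ∣ N) (ℓ : ℕ) (hℓ : pk_Good (N * q) S ℓ) :
    s35p_P1 N q p ∘ₗ tjp_Tl (N * q) p S ℓ = tjp_Tl N p S ℓ ∘ₗ s35p_P1 N q p := by
  haveI : NeZero ℓ := ⟨hℓ.1.ne_zero⟩
  rw [tjp_Tl_good (N * q) p S hℓ, tjp_Tl_good N p S (s35t_good_of_good N q S hℓ)]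
  exact s35p_P1_hecke_of p hℓ.1
    (fun D m hm hD => s36pe_div_comm_alpha N q ℓ hq hqN D m hm hD)

/-- **[P-EQUIV] for `P₂`, `q ∣ N`.** -/
theorem s36pe_P2_equiv_dvd (hq : q.Prime) (hqN : q ∣ N) (ℓ : ℕ) (hℓ : pk_Good (N * q) S ℓ) :
    s35p_P2 N q p ∘ₗ tjp_Tl (N * q) p S ℓ = tjp_Tl N p S ℓ ∘ₗ s35p_P2 N q p := by
  haveI : NeZero ℓ := ⟨hℓ.1.ne_zero⟩
  rw [tjp_Tl_good (N * q) p S hℓ, tjp_Tl_good N p S (s35t_good_of_good N q S hℓ)]
  exact s35p_P2_hecke_of p hℓ.1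
    (fun D m hm hD => s36pe_div_comm_beta N q ℓ hq hqN hℓ.1 (s36pe_ne_of_good N q S hℓ) D m hm hD)

/-- **[P-EQUIV] for `P₁`, every level `N` and every prime `q`.** -/
theorem s36pe_P1_equiv (hq : q.Prime) (ℓ : ℕ) (hℓ : pk_Good (N * q) S ℓ) :
    s35p_P1 N q p ∘ₗ tjp_Tl (N * q) p S ℓ = tjp_Tl N p S ℓ ∘ₗ s35p_P1 N q p := by
  by_cases hqN : q ∣ N
  · exact s36pe_P1_equiv_dvd N q p S hq hqN ℓ hℓ
  · exact s35t_P1_equiv N q p S hq hqN ℓ hℓ

/-- **[P-EQUIV] for `P₂`, every level `N` and every prime `q`.** -/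
theorem s36pe_P2_equiv (hq : q.Prime) (ℓ : ℕ) (hℓ : pk_Good (N * q) S ℓ) :
    s35p_P2 N q p ∘ₗ tjp_Tl (N * q) p S ℓ = tjp_Tl N p S ℓ ∘ₗ s35p_P2 N q p := by
  by_cases hqN : q ∣ N
  · exact s36pe_P2_equiv_dvd N q p S hq hqN ℓ hℓ
  · exact s35t_P2_equiv N q p S hq hqN ℓ hℓ

end Equiv

end Fermat.Agent.S36
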