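/-
Project S36 (Carayol), cell [DESC], packaging: from the core at `F`-level over the unramified levels
(`s36d_CoreF`, S36/Desc/Step.lean) at every level pair `(N q², N q)`, `q ∤ N`, to helper26's
[INV-0] (`s36pe_Inv0`) and to the frozen statement of S36.

* `s36d_CoreFAll`       : for every `N`, `q` prime, `q ∤ N`, there are a valuation ring `A` of `Q̄`
                          over `q` and `d ≠ 0` with `s36d_CoreF (N q) q A d`;
* `s36d_inv0_of_coreF`  : `s36d_CoreFAll → s36pe_Inv0`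
                          (`s36d_keyBar_of_coreF` + helper16's `s36k_geom_of_keyBar`, `s36k_inv0`);
* `s36d_result_of_coreF`: the frozen statement of S36 verbatim from `tjp_NodeE`, `tjp_S18` and
                          `s36d_CoreFAll` (helper26's `s36pe_result_of_inv0`).
Prefix `s36d_`.  Owner: helper28.
-/
import Mathlib
import Fermat.Agent.S36.Desc.Step
import Fermat.Agent.S36.ResultOfInv0

set_option autoImplicit false
set_option linter.unusedSectionVars false
set_option linter.unusedVariables false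
set_option linter.overlappingInstances false
set_option synthInstance.maxHeartbeats 400000
set_option maxHeartbeats 1000000

noncomputable section

namespace Fermat.Agent.S36

open IsLocalRing TensorProduct Polynomial Fermat.Agent.JT3 Fermat.Agent.S35 ModularCurve
open CuspForm CuspForm.IsNewform

local notation "Qb" => AlgebraicClosure ℚ

/-- the core at `F`-level at every level pair `(N q², N q)`, `q ∤ N` -/
def s36d_CoreFAll : Prop :=
  ∀ (N q : ℕ) [NeZero N] [NeZero q], q.Prime → ¬ q ∣ N →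
    ∃ A : ValuationSubring Qb, A.LiesOverPrime q ∧ ∃ d : ℕ, d ≠ 0 ∧ s36d_CoreF (N * q) q A d

/-- **[INV-0] from the core.** -/
theorem s36d_inv0_of_coreF (H : s36d_CoreFAll) : s36pe_Inv0 := by
  intro N q _ _ lam _ hq hqlam hqN
  exact s36k_inv0 (N * q) q (s36k_geom_of_keyBar (N * q) q
    (s36d_keyBar_of_coreF (N * q) q hq (Dvd.intro_left N rfl) (H N q hq hqN))) hq lam hqlam

/-- **S36 from node E, S18 and the core** (the frozen statement verbatim). -/
theorem s36d_result_of_coreF (hE : tjp_NodeE) (hS18 : tjp_S18) (H : s36d_CoreFAll)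
    {M : ℕ} [NeZero M] {g : CuspForm (CongruenceSubgroup.Gamma0 M) 2} (hg : g.IsNewform)
    (lam : ℕ) [Fact lam.Prime]
    (S : Finset ℕ)
    (O' : Type) [CommRing O'] [IsDomain O'] [IsDiscreteValuationRing O']
    [IsAdicComplete (IsLocalRing.maximalIdeal O') O'] [Finite (IsLocalRing.ResidueField O')]
    [CharZero O'] (hlamO' : (lam : O') ∈ IsLocalRing.maximalIdeal O')
    (hlam2 : lam ≠ 2)
    (chig : CuspForm.heckeAlgebra M 2 (↑S : Set ℕ) →+* ℂ)
    (hchig : ∀ (ℓ : ℕ) (hℓ : ℓ.Prime) (hℓM : ¬ ℓ ∣ M) (hℓS : ℓ ∉ (↑S : Set ℕ)),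
      chig (CuspForm.heckeAlgebra.T hℓ hℓM hℓS) = ModularFormClass.qCoeff g ℓ)
    (iota : chig.range →+* O')
    (hlamS : lam ∈ S) (hMS : ∀ q : ℕ, q.Prime → q ∣ M → q ∈ S)
    (hres : ∀ (O'' : Type) [CommRing O''] [IsDomain O''] [IsDiscreteValuationRing O'']
      [IsAdicComplete (IsLocalRing.maximalIdeal O'') O''] [Finite (IsLocalRing.ResidueField O'')] [CharZero O'']
      [Algebra O' O''] [Module.Finite O' O''] [IsLocalHom (algebraMap O' O'')],
      Function.Injective (algebraMap O' O'') → ∀ (ρ : GaloisRepAdic O''),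
      (∀ (ℓ : ℕ) (hℓ : ℓ.Prime) (hℓlam : ℓ ≠ lam) (hℓM : ¬ ℓ ∣ M) (hℓS : ℓ ∉ (↑S : Set ℕ)),
        ∀ A : ValuationSubring (AlgebraicClosure ℚ), A.LiesOverPrime ℓ →
          ∀ σ : AlgebraicClosure ℚ ≃ₐ[ℚ] AlgebraicClosure ℚ, A.IsFrobeniusAt σ ℓ →
            LinearMap.charpoly (ρ.ρ σ) =
              X ^ 2 - C (algebraMap O' O'' ((iota.comp chig.rangeRestrict) (CuspForm.heckeAlgebra.T hℓ hℓM hℓS))) * X
                + C ((ℓ : O'')))
      → ρ.residual.IsAbsolutelyIrreducible ∧ ρ.residual.IsOdd)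
    :
    ∃ (O'' : Type) (_ : CommRing O'') (_ : IsDomain O'') (_ : IsDiscreteValuationRing O'')
      (_ : IsAdicComplete (IsLocalRing.maximalIdeal O'') O'') (_ : Finite (IsLocalRing.ResidueField O''))
      (_ : CharZero O'') (_ : Algebra O' O'') (_ : Module.Finite O' O'') (_ : IsLocalHom (algebraMap O' O'')),
      Function.Injective (algebraMap O' O'') ∧
      ∃ ρ : GaloisRepAdic O'',
        (∀ (ℓ : ℕ) (hℓ : ℓ.Prime) (hℓM : ¬ ℓ ∣ M) (hℓS : ℓ ∉ (↑S : Set ℕ)),
          ∀ A : ValuationSubring (AlgebraicClosure ℚ), A.LiesOverPrime ℓ →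
            ∀ σ : AlgebraicClosure ℚ ≃ₐ[ℚ] AlgebraicClosure ℚ, A.IsFrobeniusAt σ ℓ →
              LinearMap.charpoly (ρ.ρ σ) =
                X ^ 2 - C (algebraMap O' O'' ((iota.comp chig.rangeRestrict) (CuspForm.heckeAlgebra.T hℓ hℓM hℓS))) * X
                  + C ((ℓ : O''))) ∧
        (∀ q : ℕ, q.Prime → q ≠ lam → M.factorization q = 2 → ¬ ρ.IsUnipotentOnInertiaAt q) :=
  s36pe_result_of_inv0 hE hS18 (s36d_inv0_of_coreF H) hg lam S O' hlamO' hlam2 chig hchig iota
    hlamS hMS hres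

end Fermat.Agent.S36
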