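/-
Project S36 (Carayol), THE FINAL REDUCTION, variant with the Hesse core AT `q = 2` ONLY
(architect: helper25; requested by the Hesse coordinator, [M2] HESSE NOTE H2).

* `s36_keyBar_of_cores_two` : `s36_KeyBar N q` for all `(N, q)`, `q ∤ N` prime, from the Legendre
                              descent arrow + core (`q` odd) and the Hesse descent arrow + core at
                              `q = 2` only;
* `s36_result_of_cores_two` : the frozen statement of S36 from these four inputs.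
Prefix `s36_`.
-/
import Mathlib
import Fermat.Agent.S36.Final

set_option autoImplicit false
set_option linter.unusedSectionVars false
set_option linter.unusedVariables false
set_option linter.style.haveILetI false

noncomputable section

namespace Fermat.Agent.S36

open IsLocalRing TensorProduct Polynomial Fermat.Agent.JT3 Fermat.Agent.SS ModularCurve
open CuspForm CuspForm.IsNewform

/-- `3 ∤ 2`. -/
theorem s36_not_three_dvd_two : ¬ 3 ∣ 2 := by decide

/-- the Kummer seam at `q = 2` does not depend on the `NeZero 2` instance. -/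
theorem s36_keyBar_inst (N : ℕ) [NeZero N] (i j : NeZero 2) :
    @s36_KeyBar N 2 _ i → @s36_KeyBar N 2 _ j := by
  intro h
  have hij : i = j := Subsingleton.elim _ _
  subst hij
  exact h

/-- the Kummer seam at all `(N, q)` from the Legendre descent arrow and core (`q` odd) and the
Hesse descent arrow and core at `q = 2`. -/
theorem s36_keyBar_of_cores_two
    (hDescLeg : ∀ (N q : ℕ) [NeZero N] [NeZero q] [Fact q.Prime] (hq2 : ¬ 2 ∣ q) (hqN : ¬ q ∣ N),
      s36_CoreNF N q hq2 → s36_KeyBar N q)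
    (hDescHes : ∀ (N : ℕ) [NeZero N] (hqN : ¬ 2 ∣ N),
      s36h_CoreNF N 2 s36_not_three_dvd_two → s36_KeyBar N 2)
    (hCoreLeg : ∀ (N q : ℕ) [NeZero N] [NeZero q] [Fact q.Prime] (hq2 : ¬ 2 ∣ q) (hqN : ¬ q ∣ N),
      s36_CoreNF N q hq2)
    (hCoreHes : ∀ (N : ℕ) [NeZero N] (hqN : ¬ 2 ∣ N), s36h_CoreNF N 2 s36_not_three_dvd_two)
    (N q : ℕ) [NeZero N] [hq0 : NeZero q] (hq : q.Prime) (hqN : ¬ q ∣ N) : s36_KeyBar N q := by
  haveI : Fact q.Prime := ⟨hq⟩
  by_cases h2 : 2 ∣ q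
  · -- `q = 2`: Hesse cover
    have e2 : 2 = q := (Nat.prime_dvd_prime_iff_eq Nat.prime_two hq).1 h2
    subst e2
    exact s36_keyBar_inst N _ hq0 (hDescHes N hqN (hCoreHes N hqN))
  · exact hDescLeg N q h2 hqN (hCoreLeg N q h2 hqN)

variable {M : ℕ} [NeZero M] {g : CuspForm (CongruenceSubgroup.Gamma0 M) 2}

/-- **S36 from the two descent arrows and the two cores** (Hesse at `q = 2` only); the frozen
statement verbatim. -/
theorem s36_result_of_cores_two
    (hDescLeg : ∀ (N q : ℕ) [NeZero N] [NeZero q] [Fact q.Prime] (hq2 : ¬ 2 ∣ q) (hqN : ¬ q ∣ N),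
      s36_CoreNF N q hq2 → s36_KeyBar N q)
    (hDescHes : ∀ (N : ℕ) [NeZero N] (hqN : ¬ 2 ∣ N),
      s36h_CoreNF N 2 s36_not_three_dvd_two → s36_KeyBar N 2)
    (hCoreLeg : ∀ (N q : ℕ) [NeZero N] [NeZero q] [Fact q.Prime] (hq2 : ¬ 2 ∣ q) (hqN : ¬ q ∣ N),
      s36_CoreNF N q hq2)
    (hCoreHes : ∀ (N : ℕ) [NeZero N] (hqN : ¬ 2 ∣ N), s36h_CoreNF N 2 s36_not_three_dvd_two)
    (hg : g.IsNewform)
    (lam : ℕ) [Fact lam.Prime]
    (S : Finset ℕ)
    (O' : Type) [CommRing O'] [IsDomain O'] [IsDiscreteValuationRing O']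
    [IsAdicComplete (IsLocalRing.maximalIdeal O') O'] [Finite (IsLocalRing.ResidueField O')]
    [CharZero O'] (hlamO' : (lam : O') ∈ IsLocalRing.maximalIdeal O')
    (hlam2 : lam ≠ 2)
    (chig : CuspForm.heckeAlgebra M 2 (↑S : Set ℕ) →+* ℂ)
    (hchig : ∀ (ℓ : ℕ) (hℓ : ℓ.Prime) (hℓM : ¬ ℓ ∣ M) (hℓS : ℓ ∉ (↑S : Set ℕ)),
      chig (CuspForm.heckeAlgebra.T hℓ hℓM hℓS) = ModularFormClass.qCoeff g ℓ)
    (iota : chig.range →+* O')
    (hlamS : lam ∈ S) (hMS : ∀ q : ℕ, q.Prime → q ∣ M → q ∈ S)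
    (hres : ∀ (O'' : Type) [CommRing O''] [IsDomain O''] [IsDiscreteValuationRing O'']
      [IsAdicComplete (IsLocalRing.maximalIdeal O'') O''] [Finite (IsLocalRing.ResidueField O'')] [CharZero O'']
      [Algebra O' O''] [Module.Finite O' O''] [IsLocalHom (algebraMap O' O'')],
      Function.Injective (algebraMap O' O'') → ∀ (ρ : GaloisRepAdic O''),
      (∀ (ℓ : ℕ) (hℓ : ℓ.Prime) (hℓlam : ℓ ≠ lam) (hℓM : ¬ ℓ ∣ M) (hℓS : ℓ ∉ (↑S : Set ℕ)),
        ∀ A : ValuationSubring (AlgebraicClosure ℚ), A.LiesOverPrime ℓ →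
          ∀ σ : AlgebraicClosure ℚ ≃ₐ[ℚ] AlgebraicClosure ℚ, A.IsFrobeniusAt σ ℓ →
            LinearMap.charpoly (ρ.ρ σ) =
              X ^ 2 - C (algebraMap O' O'' ((iota.comp chig.rangeRestrict) (CuspForm.heckeAlgebra.T hℓ hℓM hℓS))) * X
                + C ((ℓ : O'')))
      → ρ.residual.IsAbsolutelyIrreducible ∧ ρ.residual.IsOdd) :
    ∃ (O'' : Type) (_ : CommRing O'') (_ : IsDomain O'') (_ : IsDiscreteValuationRing O'')
      (_ : IsAdicComplete (IsLocalRing.maximalIdeal O'') O'') (_ : Finite (IsLocalRing.ResidueField O''))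
      (_ : CharZero O'') (_ : Algebra O' O'') (_ : Module.Finite O' O'') (_ : IsLocalHom (algebraMap O' O'')),
      Function.Injective (algebraMap O' O'') ∧
      ∃ ρ : GaloisRepAdic O'',
        (∀ (ℓ : ℕ) (hℓ : ℓ.Prime) (hℓM : ¬ ℓ ∣ M) (hℓS : ℓ ∉ (↑S : Set ℕ)),
          ∀ A : ValuationSubring (AlgebraicClosure ℚ), A.LiesOverPrime ℓ →
            ∀ σ : AlgebraicClosure ℚ ≃ₐ[ℚ] AlgebraicClosure ℚ, A.IsFrobeniusAt σ ℓ →
              LinearMap.charpoly (ρ.ρ σ) =
                X ^ 2 - C (algebraMap O' O'' ((iota.comp chig.rangeRestrict) (CuspForm.heckeAlgebra.T hℓ hℓM hℓS))) * X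
                  + C ((ℓ : O''))) ∧
        (∀ q : ℕ, q.Prime → q ≠ lam → M.factorization q = 2 → ¬ ρ.IsUnipotentOnInertiaAt q) :=
  s36_result_of_keyBar
    (fun N q _ _ hq hqN => s36_keyBar_of_cores_two hDescLeg hDescHes hCoreLeg hCoreHes N q hq hqN)
    hg lam S O' hlamO' hlam2 chig hchig iota hlamS hMS hres

end Fermat.Agent.S36
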