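/-
Project S36 (Carayol), cell [NON-EIS] (helper1): a two-dimensional residual representation in
which every Frobenius element at a prime outside a finite set has the eigenvalue `1` is not
absolutely irreducible; hence a Galois representation with absolutely irreducible reduction whose
Frobenius characteristic polynomials are `X² - a_ℓ X + ℓ` has `a_ℓ ≠ ℓ + 1` for some good `ℓ`.

This is the input of the "Eisenstein trick" of the S36 design: the component group of `J₀(N'q²)`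
is Eisenstein (`T_ℓ` acts on the vertical valuations by `ℓ + 1`), so the geometric cell only gives
`(T_ℓ - (ℓ+1)) • x = 0` on the inertia-fixed new classes; `[NON-EIS]` turns this into `x = 0`.

* `s36ne_not_absIrr`   : the abstract statement for a `ResidualGaloisRep`;
* `s36ne_exists_ne`    : for a `GaloisRepAdic` with the good characteristic polynomials;
* `s36ne_smul_eq_zero` : the 5-line adaptor `(a - (ℓ+1)) • u = 0 ∧ a ≠ ℓ + 1 ⟹ u = 0`.
Tools: weak Chebotarev `wc_main` (WC/Final.lean) and helper22's `lrvg_trivial_of_fixed`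
(LR/NonEis/Group.lean, Mathlib only).  Prefix `s36ne_`.
-/
import Mathlib
import Fermat.Prelude.Def_GaloisRep_Adic
import Fermat.Prelude.Def_CuspForm_Newforms
import Fermat.Prelude.Def_CuspForm_HeckeAlgebra
import Fermat.Agent.WC.Final
import Fermat.Agent.LR.NonEis.Group

set_option autoImplicit false
set_option linter.unusedVariables false

noncomputable section

namespace Fermat.Agent.S36

open Polynomial TensorProduct Fermat.Agent.WC Fermat.Agent.LR

local notation "GQ" => (AlgebraicClosure ℚ ≃ₐ[ℚ] AlgebraicClosure ℚ)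
local notation "Qbar" => AlgebraicClosure ℚ

/-- Instance-path repair (as in JT3/Unram/Main.lean): the default `Algebra ℚ (AlgebraicClosure ℚ)`
is the division-ring one. -/
local instance s36ne_qbarIsAlgebraic : Algebra.IsAlgebraic ℚ (AlgebraicClosure ℚ) :=
  AlgebraicClosure.isAlgebraic ℚ

local instance s36ne_qbarIsAlgClosure : IsAlgClosure ℚ (AlgebraicClosure ℚ) :=
  ⟨inferInstance, inferInstance⟩

/-- the value of a residual representation only depends on the restriction to a finite normal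
extension -/
theorem s36ne_exists_level {k : Type} [Field k] (ρ : ResidualGaloisRep k) :
    ∃ L : IntermediateField ℚ Qbar, FiniteDimensional ℚ L ∧ Normal ℚ L ∧
      ∀ σ τ : GQ, (∀ x ∈ L, σ x = τ x) → ρ.ρ σ = ρ.ρ τ := by
  obtain ⟨L, hL, h1⟩ := ρ.factorsThroughFiniteLevel
  have : Normal ℚ Qbar := IsAlgClosure.normal ℚ Qbar
  refine ⟨IntermediateField.normalClosure ℚ L Qbar, normalClosure.is_finiteDimensional ℚ L Qbar,
    normalClosure.normal ℚ L Qbar, fun σ τ h => ?_⟩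
  have h2 : ρ.ρ (τ⁻¹ * σ) = 1 := by
    apply h1
    intro x hx
    have hx' : x ∈ IntermediateField.normalClosure ℚ L Qbar :=
      IntermediateField.le_normalClosure L hx
    rw [AlgEquiv.mul_apply, h x hx']
    exact τ.symm_apply_apply x
  have h3 : ρ.ρ σ = ρ.ρ τ * ρ.ρ (τ⁻¹ * σ) := by
    rw [← map_mul, mul_inv_cancel_left]
  rw [h3, h2, mul_one]

/-- **[NON-EIS], abstract form.** -/
theorem s36ne_not_absIrr {k : Type} [Field k] (ρ : ResidualGaloisRep k) (S : Finset ℕ)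
    (hfix : ∀ ℓ : ℕ, ℓ.Prime → ℓ ∉ S → ∀ A : ValuationSubring Qbar, A.LiesOverPrime ℓ →
      ∀ φ : GQ, A.IsFrobeniusAt φ ℓ → ∃ v : ρ.V, v ≠ 0 ∧ ρ.ρ φ v = v) :
    ¬ ρ.IsAbsolutelyIrreducible := by
  intro hirr
  obtain ⟨L, hLfd, hLn, hL⟩ := s36ne_exists_level ρ
  -- every element has a nonzero fixed vector
  have hfix' : ∀ σ : GQ, ∃ v : ρ.V, v ≠ 0 ∧ ρ.ρ σ v = v := by
    intro σ
    obtain ⟨ℓ, A, φ, j, hℓ, hℓS, hA, hφ, hag⟩ := wc_main L S σ
    obtain ⟨v, hv0, hv⟩ := hfix ℓ hℓ hℓS A hA φ hφ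
    refine ⟨v, hv0, ?_⟩
    have h1 : ρ.ρ σ = ρ.ρ (φ ^ j) := hL σ (φ ^ j) fun x hx => (hag x hx).symm
    rw [h1, map_pow]
    clear h1 hag
    induction j with
    | zero => rfl
    | succ j ih => rw [pow_succ, Module.End.mul_apply, hv, ih]
  -- base change to the algebraic closure
  set k' := AlgebraicClosure k with hk'
  set ρ' := ρ.baseChange k' with hρ'
  have hinj : Function.Injective (TensorProduct.mk k k' ρ.V 1) := by
    have h1 : Function.Injective
        ((Algebra.linearMap k k').rTensor ρ.V) :=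
      Module.Flat.rTensor_preserves_injective_linearMap _
        (FaithfulSMul.algebraMap_injective k k')
    have h2 : (TensorProduct.mk k k' ρ.V 1 : ρ.V → k' ⊗[k] ρ.V) =
        (Algebra.linearMap k k').rTensor ρ.V ∘ (TensorProduct.lid k ρ.V).symm := by
      funext v
      simp
    rw [h2]
    exact h1.comp (TensorProduct.lid k ρ.V).symm.injective
  have hfix'' : ∀ σ ∈ (⊤ : Subgroup GQ), ∃ w : ρ'.V, w ≠ 0 ∧ ρ'.ρ σ w = w := by
    intro σ _
    obtain ⟨v, hv0, hv⟩ := hfix' σ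
    refine ⟨(1 : k') ⊗ₜ[k] v, ?_, ?_⟩
    · intro h0
      apply hv0
      apply hinj
      rw [map_zero]
      exact h0
    · change (ρ.ρ σ).baseChange k' ((1 : k') ⊗ₜ[k] v) = _
      rw [LinearMap.baseChange_tmul, hv]
  have htriv := lrvg_trivial_of_fixed (F := k') (V := ρ'.V) ρ'.ρ ρ'.finrank_eq hirr
    (⊤ : Subgroup GQ) hfix''
  -- a line is stable
  have hnt : Nontrivial ρ'.V :=
    Module.nontrivial_of_finrank_pos (R := k') (by rw [ρ'.finrank_eq]; norm_num)
  obtain ⟨w, hw⟩ := exists_ne (0 : ρ'.V)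
  have hst : ∀ σ : GQ, ∀ x ∈ Submodule.span k' ({w} : Set ρ'.V),
      ρ'.ρ σ x ∈ Submodule.span k' ({w} : Set ρ'.V) := by
    intro σ x hx
    rw [htriv σ (Subgroup.mem_top σ)]
    exact hx
  rcases hirr _ hst with h | h
  · apply hw
    have : w ∈ Submodule.span k' ({w} : Set ρ'.V) := Submodule.mem_span_singleton_self w
    rw [h] at this
    exact (Submodule.mem_bot k').mp this
  · have h1 : Module.finrank k' (Submodule.span k' ({w} : Set ρ'.V)) = 1 :=
      finrank_span_singleton hw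
    rw [h, finrank_top, ρ'.finrank_eq] at h1
    norm_num at h1

/-- **[NON-EIS]** for a `GaloisRepAdic`: if the reduction is absolutely irreducible and the
Frobenius characteristic polynomials at the primes `ℓ ∤ M`, `ℓ ∉ S` are `X² - a_ℓ X + ℓ`, then
`a_ℓ ≠ ℓ + 1` for some such `ℓ`. -/
theorem s36ne_exists_ne {O : Type} [CommRing O] [IsLocalRing O] (ρ : GaloisRepAdic O)
    (M : ℕ) [NeZero M] (S : Finset ℕ) (a : ℕ → O)
    (hchar : ∀ ℓ : ℕ, ℓ.Prime → ¬ ℓ ∣ M → ℓ ∉ S → ∀ A : ValuationSubring Qbar,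
      A.LiesOverPrime ℓ → ∀ σ : GQ, A.IsFrobeniusAt σ ℓ →
        LinearMap.charpoly (ρ.ρ σ) = X ^ 2 - C (a ℓ) * X + C ((ℓ : O)))
    (hirr : ρ.residual.IsAbsolutelyIrreducible) :
    ∃ ℓ : ℕ, ℓ.Prime ∧ ¬ ℓ ∣ M ∧ ℓ ∉ S ∧ a ℓ ≠ (ℓ : O) + 1 := by
  by_contra hcon
  push Not at hcon
  apply s36ne_not_absIrr ρ.residual (S ∪ M.primeFactors) ?_ hirr
  intro ℓ hℓ hℓS A hA φ hφ
  rw [Finset.mem_union, not_or] at hℓS
  have hℓM : ¬ ℓ ∣ M := fun h =>
    hℓS.2 (Nat.mem_primeFactors.mpr ⟨hℓ, h, NeZero.ne M⟩)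
  have h1 := hchar ℓ hℓ hℓM hℓS.1 A hA φ hφ
  rw [hcon ℓ hℓ hℓM hℓS.1] at h1
  -- the residual characteristic polynomial has the root `1`
  set κ := IsLocalRing.ResidueField O with hκ
  have h2 : LinearMap.charpoly (ρ.residual.ρ φ) =
      (LinearMap.charpoly (ρ.ρ φ)).map (algebraMap O κ) := by
    change LinearMap.charpoly ((ρ.ρ φ).baseChange κ) = _
    rw [LinearMap.charpoly_baseChange]
  have h3 : (LinearMap.charpoly (ρ.residual.ρ φ)).IsRoot 1 := by
    rw [h2, h1, Polynomial.IsRoot.def]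
    simp only [Polynomial.map_add, Polynomial.map_sub, Polynomial.map_mul, Polynomial.map_pow,
      Polynomial.map_X, Polynomial.map_one, Polynomial.map_natCast, map_add,
      map_one, map_natCast, eval_add, eval_sub, eval_mul, eval_pow, eval_X, eval_one,
      eval_natCast]
    ring
  have h4 := (Module.End.hasEigenvalue_iff_isRoot_charpoly (ρ.residual.ρ φ) 1).mpr h3
  obtain ⟨v, hv⟩ := h4.exists_hasEigenvector
  exact ⟨v, hv.2, by rw [hv.apply_eq_smul, one_smul]⟩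

/-- the adaptor: `(a - (ℓ + 1)) • u = 0` and `a ≠ ℓ + 1` give `u = 0`. -/
theorem s36ne_smul_eq_zero {K V : Type*} [Field K] [AddCommGroup V] [Module K V] {a b : K}
    (hab : a ≠ b) {u : V} (T : Module.End K V) (h1 : T u = a • u) (h2 : T u = b • u) : u = 0 := by
  have h3 : (a - b) • u = 0 := by rw [sub_smul, ← h1, ← h2, sub_self]
  exact (smul_eq_zero.mp h3).resolve_left (sub_ne_zero.mpr hab)

/-- **[NON-EIS] in the shape of the frozen S36**: from the hypothesis `hres` of S36 and an attached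
representation `ρ` (good-prime characteristic polynomials), some good `ℓ` has
`a_ℓ ≠ ℓ + 1` in `O''`. -/
theorem s36ne_of_hres {M : ℕ} [NeZero M] (lam : ℕ) [Fact lam.Prime] (S : Finset ℕ)
    (O' : Type) [CommRing O'] [IsDomain O'] [IsDiscreteValuationRing O']
    [IsAdicComplete (IsLocalRing.maximalIdeal O') O'] [Finite (IsLocalRing.ResidueField O')]
    [CharZero O']
    (chig : CuspForm.heckeAlgebra M 2 (↑S : Set ℕ) →+* ℂ)
    (iota : chig.range →+* O')
    (hres : ∀ (O'' : Type) [CommRing O''] [IsDomain O''] [IsDiscreteValuationRing O'']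
      [IsAdicComplete (IsLocalRing.maximalIdeal O'') O''] [Finite (IsLocalRing.ResidueField O'')]
      [CharZero O''] [Algebra O' O''] [Module.Finite O' O''] [IsLocalHom (algebraMap O' O'')],
      Function.Injective (algebraMap O' O'') → ∀ (ρ : GaloisRepAdic O''),
      (∀ (ℓ : ℕ) (hℓ : ℓ.Prime) (hℓlam : ℓ ≠ lam) (hℓM : ¬ ℓ ∣ M) (hℓS : ℓ ∉ (↑S : Set ℕ)),
        ∀ A : ValuationSubring (AlgebraicClosure ℚ), A.LiesOverPrime ℓ →
          ∀ σ : AlgebraicClosure ℚ ≃ₐ[ℚ] AlgebraicClosure ℚ, A.IsFrobeniusAt σ ℓ →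
            LinearMap.charpoly (ρ.ρ σ) =
              X ^ 2 - C (algebraMap O' O'' ((iota.comp chig.rangeRestrict)
                (CuspForm.heckeAlgebra.T hℓ hℓM hℓS))) * X + C ((ℓ : O'')))
      → ρ.residual.IsAbsolutelyIrreducible ∧ ρ.residual.IsOdd)
    (O'' : Type) [CommRing O''] [IsDomain O''] [IsDiscreteValuationRing O'']
    [IsAdicComplete (IsLocalRing.maximalIdeal O'') O''] [Finite (IsLocalRing.ResidueField O'')]
    [CharZero O''] [Algebra O' O''] [Module.Finite O' O''] [IsLocalHom (algebraMap O' O'')]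
    (hinj : Function.Injective (algebraMap O' O'')) (ρ : GaloisRepAdic O'')
    (hρ : ∀ (ℓ : ℕ) (hℓ : ℓ.Prime) (hℓM : ¬ ℓ ∣ M) (hℓS : ℓ ∉ (↑S : Set ℕ)),
      ∀ A : ValuationSubring (AlgebraicClosure ℚ), A.LiesOverPrime ℓ →
        ∀ σ : AlgebraicClosure ℚ ≃ₐ[ℚ] AlgebraicClosure ℚ, A.IsFrobeniusAt σ ℓ →
          LinearMap.charpoly (ρ.ρ σ) =
            X ^ 2 - C (algebraMap O' O'' ((iota.comp chig.rangeRestrict)
              (CuspForm.heckeAlgebra.T hℓ hℓM hℓS))) * X + C ((ℓ : O''))) :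
    ∃ (ℓ : ℕ) (hℓ : ℓ.Prime) (hℓM : ¬ ℓ ∣ M) (hℓS : ℓ ∉ (↑S : Set ℕ)),
      algebraMap O' O'' ((iota.comp chig.rangeRestrict) (CuspForm.heckeAlgebra.T hℓ hℓM hℓS))
        ≠ (ℓ : O'') + 1 := by
  classical
  have hirr := (hres O'' hinj ρ (fun ℓ hℓ _ hℓM hℓS => hρ ℓ hℓ hℓM hℓS)).1
  set a : ℕ → O'' := fun ℓ =>
    if h : ℓ.Prime ∧ ¬ ℓ ∣ M ∧ ℓ ∉ (↑S : Set ℕ) then
      algebraMap O' O'' ((iota.comp chig.rangeRestrict) (CuspForm.heckeAlgebra.T h.1 h.2.1 h.2.2))
    else 0 with ha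
  have ha' : ∀ (ℓ : ℕ) (hℓ : ℓ.Prime) (hℓM : ¬ ℓ ∣ M) (hℓS : ℓ ∉ (↑S : Set ℕ)),
      a ℓ = algebraMap O' O'' ((iota.comp chig.rangeRestrict)
        (CuspForm.heckeAlgebra.T hℓ hℓM hℓS)) := by
    intro ℓ hℓ hℓM hℓS
    rw [ha]
    simp only
    rw [dif_pos ⟨hℓ, hℓM, hℓS⟩]
  obtain ⟨ℓ, hℓ, hℓM, hℓS, hne⟩ := s36ne_exists_ne ρ M S a
    (fun ℓ hℓ hℓM hℓS A hA σ hσ => by
      have hℓS' : ℓ ∉ (↑S : Set ℕ) := fun h => hℓS (Finset.mem_coe.mp h)
      rw [ha' ℓ hℓ hℓM hℓS']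
      exact hρ ℓ hℓ hℓM hℓS' A hA σ hσ) hirr
  have hℓS' : ℓ ∉ (↑S : Set ℕ) := fun h => hℓS (Finset.mem_coe.mp h)
  refine ⟨ℓ, hℓ, hℓM, hℓS', ?_⟩
  rw [← ha' ℓ hℓ hℓM hℓS']
  exact hne

end Fermat.Agent.S36
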