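/-
Project S36: the frozen statement of S36 from node E, S18 and helper16's KUMMER seam
`s36k_KeyBar (N' q) q` (S36/Kum/Inv0.lean) at every level pair `(N' q², N' q)`, `q ∤ N'`.
Prefix `s36pe_`.  Owner: helper26.

* `s36pe_KeyBarAll`        : `∀ N' q, q prime → q ∤ N' → s36k_KeyBar (N' q) q`;
* `s36pe_GeomAll`          : the same with `s36k_Geom`;
* `s36pe_inv0_of_geomAll`, `s36pe_inv0_of_keyBarAll` : they give [INV-0] = `s36pe_Inv0`;
* `s36pe_result_of_keyBar` : S36 verbatim from `tjp_NodeE`, `tjp_S18` and `s36pe_KeyBarAll`.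
-/
import Mathlib
import Fermat.Agent.S36.ResultOfInv0
import Fermat.Agent.S36.Kum.Inv0

set_option autoImplicit false
set_option linter.unusedSectionVars false
set_option linter.overlappingInstances false
set_option linter.unusedVariables false

noncomputable section

namespace Fermat.Agent.S36

open IsLocalRing TensorProduct Polynomial Fermat.Agent.JT3 Fermat.Agent.S35 ModularCurve
open CuspForm CuspForm.IsNewform

/-- the geometric seam of [INV-0] at every level pair `(N' q², N' q)` -/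
def s36pe_GeomAll : Prop :=
  ∀ (N q : ℕ) [NeZero N] [NeZero q], q.Prime → ¬ q ∣ N → s36k_Geom (N * q) q

/-- the Kummer seam of [INV-0] at every level pair `(N' q², N' q)` -/
def s36pe_KeyBarAll : Prop :=
  ∀ (N q : ℕ) [NeZero N] [NeZero q], q.Prime → ¬ q ∣ N → s36k_KeyBar (N * q) q

theorem s36pe_geomAll_of_keyBarAll (h : s36pe_KeyBarAll) : s36pe_GeomAll :=
  fun N q _ _ hq hqN => s36k_geom_of_keyBar (N * q) q (h N q hq hqN)

theorem s36pe_inv0_of_geomAll (h : s36pe_GeomAll) : s36pe_Inv0 := by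
  intro N q _ _ lam _ hq hqlam hqN
  exact s36k_inv0 (N * q) q (h N q hq hqN) hq lam hqlam

theorem s36pe_inv0_of_keyBarAll (h : s36pe_KeyBarAll) : s36pe_Inv0 :=
  s36pe_inv0_of_geomAll (s36pe_geomAll_of_keyBarAll h)

/-- **S36 from node E, S18 and the Kummer seam** (the frozen statement verbatim). -/
theorem s36pe_result_of_keyBar (hE : tjp_NodeE) (hS18 : tjp_S18) (hK : s36pe_KeyBarAll)
    {M : ℕ} [NeZero M] {g : CuspForm (CongruenceSubgroup.Gamma0 M) 2} (hg : g.IsNewform)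
    (lam : ℕ) [Fact lam.Prime]
    (S : Finset ℕ)
    (O' : Type) [CommRing O'] [IsDomain O'] [IsDiscreteValuationRing O']
    [IsAdicComplete (IsLocalRing.maximalIdeal O') O'] [Finite (IsLocalRing.ResidueField O')]
    [CharZero O'] (hlamO' : (lam : O') ∈ IsLocalRing.maximalIdeal O')
    (hlam2 : lam ≠ 2)
    (chig : CuspForm.heckeAlgebra M 2 (↑S : Set ℕ) →+* ℂ)
    (hchig : ∀ (ℓ : ℕ) (hℓ : ℓ.Prime) (hℓM : ¬ ℓ ∣ M) (hℓS : ℓ ∉ (↑S : Set ℕ)),
      chig (CuspForm.heckeAlgebra.T hℓ hℓM hℓS) = ModularFormClass.qCoeff g ℓ)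
    (iota : chig.range →+* O')
    (hlamS : lam ∈ S) (hMS : ∀ q : ℕ, q.Prime → q ∣ M → q ∈ S)
    (hres : ∀ (O'' : Type) [CommRing O''] [IsDomain O''] [IsDiscreteValuationRing O'']
      [IsAdicComplete (IsLocalRing.maximalIdeal O'') O''] [Finite (IsLocalRing.ResidueField O'')] [CharZero O'']
      [Algebra O' O''] [Module.Finite O' O''] [IsLocalHom (algebraMap O' O'')],
      Function.Injective (algebraMap O' O'') → ∀ (ρ : GaloisRepAdic O''),
      (∀ (ℓ : ℕ) (hℓ : ℓ.Prime) (hℓlam : ℓ ≠ lam) (hℓM : ¬ ℓ ∣ M) (hℓS : ℓ ∉ (↑S : Set ℕ)),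
        ∀ A : ValuationSubring (AlgebraicClosure ℚ), A.LiesOverPrime ℓ →
          ∀ σ : AlgebraicClosure ℚ ≃ₐ[ℚ] AlgebraicClosure ℚ, A.IsFrobeniusAt σ ℓ →
            LinearMap.charpoly (ρ.ρ σ) =
              X ^ 2 - C (algebraMap O' O'' ((iota.comp chig.rangeRestrict) (CuspForm.heckeAlgebra.T hℓ hℓM hℓS))) * X
                + C ((ℓ : O'')))
      → ρ.residual.IsAbsolutelyIrreducible ∧ ρ.residual.IsOdd)
    :
    ∃ (O'' : Type) (_ : CommRing O'') (_ : IsDomain O'') (_ : IsDiscreteValuationRing O'')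
      (_ : IsAdicComplete (IsLocalRing.maximalIdeal O'') O'') (_ : Finite (IsLocalRing.ResidueField O''))
      (_ : CharZero O'') (_ : Algebra O' O'') (_ : Module.Finite O' O'') (_ : IsLocalHom (algebraMap O' O'')),
      Function.Injective (algebraMap O' O'') ∧
      ∃ ρ : GaloisRepAdic O'',
        (∀ (ℓ : ℕ) (hℓ : ℓ.Prime) (hℓM : ¬ ℓ ∣ M) (hℓS : ℓ ∉ (↑S : Set ℕ)),
          ∀ A : ValuationSubring (AlgebraicClosure ℚ), A.LiesOverPrime ℓ →
            ∀ σ : AlgebraicClosure ℚ ≃ₐ[ℚ] AlgebraicClosure ℚ, A.IsFrobeniusAt σ ℓ →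
              LinearMap.charpoly (ρ.ρ σ) =
                X ^ 2 - C (algebraMap O' O'' ((iota.comp chig.rangeRestrict) (CuspForm.heckeAlgebra.T hℓ hℓM hℓS))) * X
                  + C ((ℓ : O''))) ∧
        (∀ q : ℕ, q.Prime → q ≠ lam → M.factorization q = 2 → ¬ ρ.IsUnipotentOnInertiaAt q) :=
  s36pe_result_of_inv0 hE hS18 (s36pe_inv0_of_keyBarAll hK) hg lam S O' hlamO' hlam2 chig hchig
    iota hlamS hMS hres

end Fermat.Agent.S36
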