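/-
Project S36 (Carayol), cell [C-INS] (F2) (helper25): THE WEAK ONE-BRANCH LEMMA (prefix `s36wk_`).

The local hypothesis of `sfc_main` at a closed point `𝔫` of a normal chart `B` lying on ONE vertical
component `Q` only, of ARBITRARY multiplicity, WITHOUT factoriality of `R = B_𝔫`, WITHOUT a
generator of `Q` and WITHOUT regularity.  What is needed instead:

* a local factorisation `G ^ m * f = ω`, `ω ∈ Rˣ` (for the insurance route [C-INS] it comes from a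
  norm from a regular cover; for the main route from factoriality);
* `R / Q` integrally closed (the reduced component is smooth at the point);
* `ϖ ∣ q` and `ϖ ∣ y ^ (q ^ k)` for every `y ∈ Q` (the multiplicity is at most `q ^ k`);
* `m` prime to `q`;
* `f ≡ 1` modulo `ϖ R_Q`.

Then there is a unit `b₀` of `R` with `G ≡ b₀` modulo `ϖ R_Q` (`s36wk_local`), and the local
hypothesis of `sfc_main` holds for `f` at `𝔫` (`s36wk_hloc`).  The proof extracts `m`-th roots in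
the unipotent group `1 + Q` modulo `ϖ`, which is killed by `q ^ k`, by Bezout.
-/
import Mathlib
import Fermat.Agent.S36.Glue.Rel
import Fermat.Agent.S36.Glue.Semilocal

set_option autoImplicit false
set_option linter.unusedSectionVars false
set_option linter.unusedVariables false
set_option linter.style.haveILetI false

namespace Fermat.Agent.S36

open Fermat.Agent.SS

section Arith

/-- Bezout with natural exponents. -/
theorem s36wk_bezout {m P : ℕ} (hm : 0 < m) (hP : 0 < P) (h : Nat.Coprime m P) :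
    ∃ a b : ℕ, a * m = 1 + b * P := by
  rcases Nat.lt_or_ge 1 P with h1 | h1
  · obtain ⟨a, -, ha⟩ := Nat.exists_mul_mod_eq_one_of_coprime h h1
    refine ⟨a, m * a / P, ?_⟩
    have := Nat.div_add_mod (m * a) P
    rw [ha] at this
    rw [mul_comm a m, mul_comm (m * a / P) P]
    omega
  · have hP1 : P = 1 := by omega
    subst hP1
    exact ⟨1, m - 1, by omega⟩

variable {V : Type*} [CommRing V]

/-- uniqueness of unipotent `m`-th roots modulo `ϖ`. -/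
theorem s36wk_unip_unique {ϖ s : V} {m P a b : ℕ} (hab : a * m = 1 + b * P)
    (hP : ϖ ∣ s ^ P - 1) (hm : ϖ ∣ s ^ m - 1) : ϖ ∣ s - 1 := by
  have h1 : ϖ ∣ s ^ (a * m) - 1 := by
    have := sub_dvd_pow_sub_pow (s ^ m) 1 a
    rw [one_pow, ← pow_mul, mul_comm m a] at this
    exact hm.trans this
  have h2 : ϖ ∣ s ^ (b * P) - 1 := by
    have := sub_dvd_pow_sub_pow (s ^ P) 1 b
    rw [one_pow, ← pow_mul, mul_comm P b] at this
    exact hP.trans this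
  have e : s - 1 = (s ^ (a * m) - 1) - s * (s ^ (b * P) - 1) := by
    rw [hab, pow_add, pow_one]; ring
  rw [e]
  exact dvd_sub h1 (Dvd.dvd.mul_left h2 s)

/-- existence of unipotent `m`-th roots modulo `ϖ`. -/
theorem s36wk_unip_root {ϖ v : V} {m P a b : ℕ} (hab : a * m = 1 + b * P)
    (hP : ϖ ∣ v ^ P - 1) : ϖ ∣ (v ^ a) ^ m - v := by
  have h2 : ϖ ∣ v ^ (b * P) - 1 := by
    have := sub_dvd_pow_sub_pow (v ^ P) 1 b
    rw [one_pow, ← pow_mul, mul_comm P b] at this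
    exact hP.trans this
  have e : (v ^ a) ^ m - v = v * (v ^ (b * P) - 1) := by
    rw [← pow_mul, hab, pow_add, pow_one]; ring
  rw [e]
  exact Dvd.dvd.mul_left h2 v

end Arith

section Loc

variable {R : Type*} [CommRing R] [IsDomain R] [IsNoetherianRing R] [IsIntegrallyClosed R]
  {F : Type*} [Field F] [Algebra R F] [IsFractionRing R F] (Q : Ideal R) [hQ : Q.IsPrime]

/-- `z ∈ ϖ R_Q`. -/
def s36wk_PiM (ϖ : R) (z : F) : Prop :=
  ∃ y : F, ssl_MemAt F Q y ∧ z = algebraMap R F ϖ * y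

/-- divisibility by `ϖ` in the ring `R_Q ⊆ F`. -/
theorem s36wk_dvd_iff (ϖ : R) (z : ssl_locSub F Q) :
    algebraMap R (ssl_locSub F Q) ϖ ∣ z ↔ s36wk_PiM Q ϖ (z : F) := by
  constructor
  · rintro ⟨y, rfl⟩
    exact ⟨(y : F), (ssl_mem_locSub Q _).1 y.2, rfl⟩
  · rintro ⟨y, hy, h⟩
    exact ⟨⟨y, (ssl_mem_locSub Q _).2 hy⟩, Subtype.ext h⟩

/-- an `m`-th root of a unit of `R_Q` is a unit of `R_Q`. -/
theorem s36wk_unitAt_of_pow {m : ℕ} (hm : 0 < m) {z : F} (h : ssl_UnitAt F Q (z ^ m)) :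
    ssl_UnitAt F Q z := by
  have hz0 : z ≠ 0 := by
    rintro rfl
    rw [zero_pow hm.ne'] at h
    exact ssl_unitAt_ne_zero Q h rfl
  haveI : IsIntegrallyClosed (ssl_locSub F Q) :=
    isIntegrallyClosed_of_isLocalization _ Q.primeCompl Q.primeCompl_le_nonZeroDivisors
  have key : ∀ w : F, ssl_MemAt F Q (w ^ m) → ssl_MemAt F Q w := by
    intro w hw
    have hmem : w ^ m ∈ ssl_locSub F Q := (ssl_mem_locSub Q _).2 hw
    have hint : IsIntegral (ssl_locSub F Q) (w ^ m) := by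
      have : w ^ m = algebraMap (ssl_locSub F Q) F ⟨w ^ m, hmem⟩ := rfl
      rw [this]
      exact isIntegral_algebraMap
    obtain ⟨y, hy⟩ := IsIntegrallyClosed.exists_algebraMap_eq_of_isIntegral_pow
      (R := ssl_locSub F Q) (K := F) hm hint
    have : w ∈ ssl_locSub F Q := by rw [← hy]; exact y.2
    exact (ssl_mem_locSub Q _).1 this
  refine (ssl_unitAt_iff Q hz0).2 ⟨key z (ssl_memAt_of_unitAt Q h), key z⁻¹ ?_⟩
  rw [inv_pow]
  exact ssl_memAt_of_unitAt Q (ssl_unitAt_inv Q h)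

/-- the `q^k`-th power of an element of `1 + Q R_Q` is `≡ 1` modulo `ϖ R_Q`. -/
theorem s36wk_pow_sub_one {q : ℕ} (hq : q.Prime) (ϖ : R) (hqϖ : ϖ ∣ (q : R)) (k : ℕ)
    (hpow : ∀ y ∈ Q, ϖ ∣ y ^ q ^ k) {s : F} (hs : s36g_MemM Q (s - 1)) :
    s36wk_PiM Q ϖ (s ^ q ^ k - 1) := by
  have hsS : s - 1 ∈ ssl_locSub F Q := (ssl_mem_locSub Q _).2 (s36g_memAt_of_memM Q hs)
  set n : ssl_locSub F Q := ⟨s - 1, hsS⟩ with hn
  have hqS : algebraMap R (ssl_locSub F Q) ϖ ∣ ((q : ℕ) : ssl_locSub F Q) := by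
    obtain ⟨c, hc⟩ := hqϖ
    refine ⟨algebraMap R (ssl_locSub F Q) c, ?_⟩
    rw [← map_mul, ← hc, map_natCast]
  have hnP : algebraMap R (ssl_locSub F Q) ϖ ∣ n ^ q ^ k := by
    rw [s36wk_dvd_iff]
    obtain ⟨b, s0, hb, hs0, hbs⟩ := hs
    obtain ⟨c, hc⟩ := hpow b hb
    have hs0F : algebraMap R F s0 ≠ 0 := ssl_algebraMap_ne_zero fun h0 => hs0 (h0 ▸ Q.zero_mem)
    refine ⟨algebraMap R F c * (algebraMap R F s0 ^ q ^ k)⁻¹, ?_, ?_⟩
    · refine ssl_memAt_mul Q (ssl_memAt_algebraMap Q c) ?_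
      rw [← inv_pow]
      exact ssl_memAt_of_unitAt Q (ssl_unitAt_pow Q (ssl_unitAt_inv Q (ssl_unitAt_algebraMap Q hs0)) _)
    · show ((n ^ q ^ k : ssl_locSub F Q) : F) = _
      rw [SubmonoidClass.coe_pow, hn]
      show (s - 1) ^ q ^ k = _
      have h1 : (s - 1) ^ q ^ k * algebraMap R F s0 ^ q ^ k = algebraMap R F ϖ * algebraMap R F c := by
        rw [← mul_pow, hbs, ← map_pow, hc, map_mul]
      have h2 : algebraMap R F s0 ^ q ^ k ≠ 0 := pow_ne_zero _ hs0F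
      field_simp
      rw [h1]
  have h := s36g_one_add_pow hq hqS n k hnP
  rw [s36wk_dvd_iff] at h
  obtain ⟨y, hy, hyE⟩ := h
  refine ⟨y, hy, ?_⟩
  rw [← hyE]
  show s ^ q ^ k - 1 = (((1 + n) ^ q ^ k - 1 : ssl_locSub F Q) : F)
  have : (1 : F) + ((n : ssl_locSub F Q) : F) = s := by
    show (1 : F) + (s - 1) = s
    ring
  push_cast
  rw [this]

omit [IsNoetherianRing R] [IsIntegrallyClosed R] in
theorem s36wk_piM_memM {ϖ : R} (hϖQ : ϖ ∈ Q) {z : F} (h : s36wk_PiM Q ϖ z) : s36g_MemM Q z := by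
  obtain ⟨y, hy, rfl⟩ := h
  exact s36g_memM_mul_memAt Q (s36g_memM_of_mem Q hϖQ) hy

omit [IsNoetherianRing R] [IsIntegrallyClosed R] in
theorem s36wk_piM_mul {ϖ : R} {z w : F} (h : s36wk_PiM Q ϖ z) (hw : ssl_MemAt F Q w) :
    s36wk_PiM Q ϖ (z * w) := by
  obtain ⟨y, hy, rfl⟩ := h
  exact ⟨y * w, ssl_memAt_mul Q hy hw, by ring⟩

omit [IsNoetherianRing R] [IsIntegrallyClosed R] in
theorem s36wk_piM_add {ϖ : R} {z w : F} (h : s36wk_PiM Q ϖ z) (hw : s36wk_PiM Q ϖ w) :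
    s36wk_PiM Q ϖ (z + w) := by
  obtain ⟨y, hy, rfl⟩ := h
  obtain ⟨y', hy', rfl⟩ := hw
  exact ⟨y + y', ssl_memAt_add Q hy hy', by ring⟩

omit [IsNoetherianRing R] [IsIntegrallyClosed R] in
theorem s36wk_piM_of_dvd {ϖ r : R} (h : ϖ ∣ r) : s36wk_PiM Q ϖ (algebraMap R F r) := by
  obtain ⟨c, rfl⟩ := h
  exact ⟨algebraMap R F c, ssl_memAt_algebraMap Q c, by rw [map_mul]⟩

omit [IsNoetherianRing R] [IsIntegrallyClosed R] in
theorem s36wk_memAt_one : ssl_MemAt F Q (1 : F) := by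
  have := ssl_memAt_algebraMap (F := F) Q (1 : R)
  rwa [map_one] at this

/-- **the weak one-branch lemma, local form.** -/
theorem s36wk_local [IsLocalRing R] [IsIntegrallyClosed (R ⧸ Q)]
    {q : ℕ} (hq : q.Prime) (ϖ : R) (hϖQ : ϖ ∈ Q) (hqϖ : ϖ ∣ (q : R)) (k : ℕ)
    (hpow : ∀ y ∈ Q, ϖ ∣ y ^ q ^ k) {m : ℕ} (hm : 0 < m) (hqm : ¬ q ∣ m)
    {f G : F} (ω : Rˣ) (hfG : G ^ m * f = algebraMap R F (ω : R))
    (hf1 : s36wk_PiM Q ϖ (f - 1)) :
    ∃ b0 : R, IsUnit b0 ∧ s36wk_PiM Q ϖ (G - algebraMap R F b0) := by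
  have h1Q : (1 : R) ∉ Q := fun h => hQ.ne_top ((Ideal.eq_top_iff_one _).2 h)
  have hQm : Q ≤ IsLocalRing.maximalIdeal R := IsLocalRing.le_maximalIdeal hQ.ne_top
  have hunit_of : ∀ r : R, r - 1 ∈ Q → IsUnit r := by
    intro r hr
    rw [← IsLocalRing.notMem_maximalIdeal]
    intro hmem
    have : (1 : R) ∈ IsLocalRing.maximalIdeal R := by
      have e : (1 : R) = r - (r - 1) := by ring
      rw [e]
      exact Ideal.sub_mem _ hmem (hQm hr)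
    exact (IsLocalRing.maximalIdeal.isMaximal R).ne_top ((Ideal.eq_top_iff_one _).2 this)
  have hinvC : ∀ (υ : Rˣ), algebraMap R F ((υ⁻¹ : Rˣ) : R) = (algebraMap R F (υ : R))⁻¹ := by
    intro υ
    have h1 : algebraMap R F (υ : R) * algebraMap R F ((υ⁻¹ : Rˣ) : R) = 1 := by
      rw [← map_mul, ← Units.val_mul, mul_inv_cancel, Units.val_one, map_one]
    exact eq_inv_of_mul_eq_one_right h1
  have hunitC : ∀ (υ : Rˣ), ssl_UnitAt F Q (algebraMap R F (υ : R)) := fun υ =>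
    ssl_unitAt_algebraMap Q fun h => hQ.ne_top (Ideal.eq_top_of_isUnit_mem _ h υ.isUnit)
  -- (1) `f ≡ 1`, `f` a unit at `Q`
  have hfM : s36g_MemM Q (f - 1) := s36wk_piM_memM Q hϖQ hf1
  have hfU : ssl_UnitAt F Q f :=
    s36g_unitAt_of_memM_sub Q h1Q (by rwa [map_one])
  have hf0 : f ≠ 0 := ssl_unitAt_ne_zero Q hfU
  have hω0 : algebraMap R F (ω : R) ≠ 0 := ssl_algebraMap_ne_zero ω.ne_zero
  -- (2) `G` is a unit at `Q`
  have hGm : G ^ m = algebraMap R F (ω : R) * f⁻¹ := by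
    rw [← hfG]; field_simp
  have hGU : ssl_UnitAt F Q G := by
    apply s36wk_unitAt_of_pow Q hm
    rw [hGm]
    exact ssl_unitAt_mul Q (hunitC ω) (ssl_unitAt_inv Q hfU)
  have hG0 : G ≠ 0 := ssl_unitAt_ne_zero Q hGU
  -- (3) branch values of `G` and `G⁻¹`
  have hfinvM : s36g_MemM Q (f⁻¹ - 1) := by
    have e : f⁻¹ - 1 = -(f - 1) * f⁻¹ := by field_simp; ring
    rw [e]
    exact s36g_memM_mul_memAt Q (s36g_memM_neg Q hfM)
      (ssl_memAt_of_unitAt Q (ssl_unitAt_inv Q hfU))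
  obtain ⟨a', ha'Q, ha'⟩ := s36g_exists_branch_value Q hm hGU ω⁻¹ (by
    have e : algebraMap R F ((ω⁻¹ : Rˣ) : R) * G ^ m - 1 = f⁻¹ - 1 := by
      rw [hinvC, hGm]; field_simp
    rw [e]; exact hfinvM)
  obtain ⟨a'', ha''Q, ha''⟩ := s36g_exists_branch_value Q hm (ssl_unitAt_inv Q hGU) ω (by
    have e : algebraMap R F (ω : R) * G⁻¹ ^ m - 1 = f - 1 := by
      rw [inv_pow, hGm]; field_simp
    rw [e]; exact hfM)
  have ha'u : IsUnit a' := by
    have h2 : s36g_MemM Q (G * G⁻¹ - algebraMap R F a' * algebraMap R F a'') :=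
      s36g_memM_mul_sub Q ha' ha'' (ssl_memAt_algebraMap Q a') (ssl_memAt_algebraMap Q a'')
    rw [mul_inv_cancel₀ hG0, ← map_mul, ← map_one (algebraMap R F), ← map_sub,
      s36g_memM_algebraMap_iff] at h2
    have h3 : a' * a'' - 1 ∈ Q := by
      have e : a' * a'' - 1 = -(1 - a' * a'') := by ring
      rw [e]; exact Q.neg_mem h2
    exact isUnit_of_mul_isUnit_left (hunit_of _ h3)
  obtain ⟨u', rfl⟩ := ha'u
  -- (4) `s1 = G / a'`, `v = ω / a'^m`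
  set s1 : F := G * algebraMap R F ((u'⁻¹ : Rˣ) : R) with hs1
  set v : Rˣ := ω * (u'⁻¹) ^ m with hv
  have hs1M : s36g_MemM Q (s1 - 1) := by
    have e : s1 - 1 = (G - algebraMap R F (u' : R)) * algebraMap R F ((u'⁻¹ : Rˣ) : R) := by
      rw [hs1, sub_mul, ← map_mul, ← Units.val_mul, mul_inv_cancel, Units.val_one, map_one]
    rw [e]
    exact s36g_memM_mul_memAt Q ha' (ssl_memAt_algebraMap Q _)
  have hs1U : ssl_UnitAt F Q s1 := ssl_unitAt_mul Q hGU (hunitC u'⁻¹)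
  have hs1f : s1 ^ m * f = algebraMap R F (v : R) := by
    rw [hs1, mul_pow, mul_right_comm, hfG, hv, Units.val_mul, Units.val_pow_eq_pow_val, map_mul,
      map_pow]
  have hvQ : (v : R) - 1 ∈ Q := by
    rw [← s36g_memM_algebraMap_iff (F := F) Q, map_sub, map_one, ← hs1f]
    have e : s1 ^ m * f - 1 = (s1 ^ m - 1 ^ m) * f + (f - 1) := by ring
    rw [e]
    exact s36g_memM_add Q (s36g_memM_mul_memAt Q
      (s36g_memM_pow_sub Q hs1M (s36wk_memAt_one Q) m) (ssl_memAt_of_unitAt Q hfU)) hfM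
  -- (5) the `m`-th root of `v` modulo `ϖ`
  have hP : 0 < q ^ k := pow_pos hq.pos k
  have hcop : Nat.Coprime m (q ^ k) :=
    Nat.Coprime.pow_right k ((Nat.Prime.coprime_iff_not_dvd hq).2 hqm).symm
  obtain ⟨a, b, hab⟩ := s36wk_bezout hm hP hcop
  have hvP : ϖ ∣ (v : R) ^ q ^ k - 1 := by
    have := s36g_one_add_pow hq hqϖ ((v : R) - 1) k (hpow _ hvQ)
    rwa [add_sub_cancel] at this
  have hroot : ϖ ∣ ((v : R) ^ a) ^ m - (v : R) := s36wk_unip_root hab hvP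
  set w : Rˣ := v ^ a with hw
  have hwv : ((w : Rˣ) : R) = (v : R) ^ a := by rw [hw, Units.val_pow_eq_pow_val]
  have hwQ : (w : R) - 1 ∈ Q := by
    rw [hwv]
    have h2 := sub_dvd_pow_sub_pow (v : R) 1 a
    rw [one_pow] at h2
    obtain ⟨c, hc⟩ := h2
    rw [hc]
    exact Q.mul_mem_right _ hvQ
  -- (6) `s = s1 / w`
  set s : F := s1 * algebraMap R F ((w⁻¹ : Rˣ) : R) with hs
  have hsM : s36g_MemM Q (s - 1) := by
    have e : s - 1 = (s1 - 1) * algebraMap R F ((w⁻¹ : Rˣ) : R) +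
        algebraMap R F (((w⁻¹ : Rˣ) : R) * (1 - (w : R))) := by
      rw [hs, map_mul, map_sub, map_one]
      have : algebraMap R F ((w⁻¹ : Rˣ) : R) * algebraMap R F (w : R) = 1 := by
        rw [← map_mul, ← Units.val_mul, inv_mul_cancel, Units.val_one, map_one]
      linear_combination this
    rw [e]
    refine s36g_memM_add Q (s36g_memM_mul_memAt Q hs1M (ssl_memAt_algebraMap Q _))
      (s36g_memM_of_mem Q (Q.mul_mem_left _ ?_))
    have e2 : 1 - (w : R) = -((w : R) - 1) := by ring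
    rw [e2]; exact Q.neg_mem hwQ
  have hsU : ssl_UnitAt F Q s := ssl_unitAt_mul Q hs1U (hunitC w⁻¹)
  have hsS : s ∈ ssl_locSub F Q := (ssl_mem_locSub Q _).2 (ssl_memAt_of_unitAt Q hsU)
  -- `s^P ≡ 1`
  have hsP : s36wk_PiM Q ϖ (s ^ q ^ k - 1) := s36wk_pow_sub_one Q hq ϖ hqϖ k hpow hsM
  -- `s^m ≡ 1`
  have hsm : s36wk_PiM Q ϖ (s ^ m - 1) := by
    obtain ⟨c1, hc1⟩ := hroot
    have hwm0 : algebraMap R F ((w : R) ^ m) ≠ 0 :=
      ssl_algebraMap_ne_zero (pow_ne_zero _ w.ne_zero)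
    have e : s ^ m - 1 = (algebraMap R F (ϖ * (-c1)) + (f - 1) * (-algebraMap R F ((w : R) ^ m))) *
        (f * algebraMap R F ((w : R) ^ m))⁻¹ := by
      have h1 : s ^ m * (f * algebraMap R F ((w : R) ^ m)) = algebraMap R F (v : R) := by
        rw [hs, mul_pow, ← hs1f, hinvC, inv_pow, map_pow]
        have : algebraMap R F (w : R) ^ m ≠ 0 := by rw [← map_pow]; exact hwm0
        field_simp
      have h2 : algebraMap R F (ϖ * (-c1)) = algebraMap R F (v : R) - algebraMap R F ((w : R) ^ m) := by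
        rw [← map_sub, hwv]
        congr 1
        linear_combination hc1
      have h3 : f * algebraMap R F ((w : R) ^ m) ≠ 0 := mul_ne_zero hf0 hwm0
      rw [eq_mul_inv_iff_mul_eq₀ h3, sub_mul, h1, h2]
      ring
    rw [e]
    refine s36wk_piM_mul Q (s36wk_piM_add Q (s36wk_piM_of_dvd Q (Dvd.intro _ rfl))
      (s36wk_piM_mul Q hf1 ?_)) ?_
    · have := ssl_memAt_algebraMap (F := F) Q (-((w : R) ^ m))
      rwa [map_neg] at this
    · refine ssl_memAt_of_unitAt Q (ssl_unitAt_inv Q (ssl_unitAt_mul Q hfU ?_))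
      rw [map_pow]
      exact ssl_unitAt_pow Q (hunitC w) m
  -- uniqueness of the unipotent root
  have hsub : s36wk_PiM Q ϖ (s - 1) := by
    have hP' : algebraMap R (ssl_locSub F Q) ϖ ∣ (⟨s, hsS⟩ : ssl_locSub F Q) ^ q ^ k - 1 := by
      rw [s36wk_dvd_iff]; exact hsP
    have hm' : algebraMap R (ssl_locSub F Q) ϖ ∣ (⟨s, hsS⟩ : ssl_locSub F Q) ^ m - 1 := by
      rw [s36wk_dvd_iff]; exact hsm
    have := s36wk_unip_unique hab hP' hm'
    rw [s36wk_dvd_iff] at this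
    exact this
  -- conclusion
  refine ⟨(u' : R) * (w : R), u'.isUnit.mul w.isUnit, ?_⟩
  have e : G - algebraMap R F ((u' : R) * (w : R)) =
      (s - 1) * algebraMap R F ((u' : R) * (w : R)) := by
    rw [hs, hs1, map_mul, hinvC, hinvC]
    have h1 : algebraMap R F (u' : R) ≠ 0 := ssl_algebraMap_ne_zero u'.ne_zero
    have h2 : algebraMap R F (w : R) ≠ 0 := ssl_algebraMap_ne_zero w.ne_zero
    field_simp
  rw [e]
  exact s36wk_piM_mul Q hsub (ssl_memAt_algebraMap Q _)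

end Loc

universe v

section Chart

variable {A0 : Type*} [CommRing A0] {F0 : Type v} [Field F0] [Algebra A0 F0]
variable {B : Subalgebra A0 F0} [IsFractionRing B F0] [IsNoetherianRing B] [IsIntegrallyClosed B]

/-- **[C-INS] (F2): the weak one-branch lemma.**  The local hypothesis of `sfc_main` at a closed
point lying on one vertical component `Q` only, from a local factorisation `G ^ m * f = ω`
(NO factoriality, NO generator of `Q`). -/
theorem s36wk_hloc (π : A0) (hϖ0 : algebraMap A0 F0 π ≠ 0) (𝔫 : Ideal B) [h𝔫 : 𝔫.IsPrime]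
    (hπ𝔫 : algebraMap A0 B π ∈ 𝔫) {q : ℕ} (hq : q.Prime)
    (hqπ : algebraMap B (ssl_locSub F0 𝔫) (algebraMap A0 B π) ∣ (q : ssl_locSub F0 𝔫))
    (Q : Ideal (ssl_locSub F0 𝔫)) [hQ : Q.IsPrime]
    (hϖQ : algebraMap B (ssl_locSub F0 𝔫) (algebraMap A0 B π) ∈ Q)
    (hvert : ∀ 𝔭 : Ideal B, 𝔭.IsPrime → 𝔭.height = 1 → algebraMap A0 B π ∈ 𝔭 → 𝔭 ≤ 𝔫 →
      𝔭 ≤ Q.comap (algebraMap B (ssl_locSub F0 𝔫)))
    (hsm : IsIntegrallyClosed (ssl_locSub F0 𝔫 ⧸ Q)) (k : ℕ)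
    (hpow : ∀ y ∈ Q, algebraMap B (ssl_locSub F0 𝔫) (algebraMap A0 B π) ∣ y ^ q ^ k)
    (m : ℕ) (hm : 0 < m) (hqm : ¬ q ∣ m) {f G : F0} (ω : (ssl_locSub F0 𝔫)ˣ)
    (hfG : G ^ m * f = ((ω : ssl_locSub F0 𝔫) : F0))
    (hf1 : s36g_MemM Q (f - 1)) :
    ∃ (b1 : B) (h : F0), b1 ∉ 𝔫 ∧ h ^ m * f ^ q ^ k ∈ B ∧
      h - (b1 : F0) ∈ sfc_piO B.toSubring (algebraMap A0 F0 π) := by
  haveI : IsNoetherianRing (ssl_locSub F0 𝔫) := ssl_loc_isNoetherianRing 𝔫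
  haveI : IsIntegrallyClosed (ssl_locSub F0 𝔫) := ssl_loc_isIntegrallyClosed 𝔫
  haveI : IsLocalRing (ssl_locSub F0 𝔫) := ssl_loc_isLocalRing 𝔫
  set ϖ := algebraMap A0 F0 π with hϖ
  set ϖR : ssl_locSub F0 𝔫 := algebraMap B (ssl_locSub F0 𝔫) (algebraMap A0 B π) with hϖR
  have hϖRF : algebraMap (ssl_locSub F0 𝔫) F0 ϖR = ϖ := rfl
  set P := q ^ k with hP
  -- the factorisation and the congruence for `f ^ P`
  have hfG' : (G ^ P) ^ m * f ^ P = algebraMap (ssl_locSub F0 𝔫) F0 ((ω ^ P : (ssl_locSub F0 𝔫)ˣ) : ssl_locSub F0 𝔫) := by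
    rw [Units.val_pow_eq_pow_val, map_pow]
    show (G ^ P) ^ m * f ^ P = ((ω : ssl_locSub F0 𝔫) : F0) ^ P
    rw [← hfG, mul_pow, ← pow_mul, ← pow_mul, mul_comm P m]
  have hf1' : s36wk_PiM Q ϖR (f ^ P - 1) := s36wk_pow_sub_one Q hq ϖR hqπ k hpow hf1
  obtain ⟨b0, hb0u, Y, hY, hGY⟩ :=
    s36wk_local Q hq ϖR hϖQ hqπ k hpow hm hqm (ω ^ P) hfG' hf1'
  rw [hϖRF] at hGY
  -- `Y ∈ B_𝔭` at the vertical primes through `𝔫`
  have hYmem : ∀ 𝔭 : Ideal B, 𝔭.IsPrime → 𝔭.height = 1 → algebraMap A0 B π ∈ 𝔭 → 𝔭 ≤ 𝔫 →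
      ssl_MemAt F0 𝔭 Y := by
    intro 𝔭 h𝔭 h1 hπ𝔭 h𝔭𝔫
    obtain ⟨a, s, hs, has⟩ := hY
    obtain ⟨a1, t2, ht2, hat⟩ := (ssl_mem_loc 𝔫).1 a.2
    obtain ⟨s1, t1, ht1, hst⟩ := (ssl_mem_loc 𝔫).1 s.2
    have has' : Y * (s : F0) = (a : F0) := has
    refine ⟨a1 * t1, s1 * t2, fun hmem => ?_, ?_⟩
    · rcases h𝔭.mem_or_mem hmem with h | h
      · -- `s1 ∈ 𝔭 ⊆ Q ∩ B`
        have h2 : algebraMap B (ssl_locSub F0 𝔫) s1 ∈ Q := hvert 𝔭 h𝔭 h1 hπ𝔭 h𝔭𝔫 h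
        have h3 : algebraMap B (ssl_locSub F0 𝔫) s1 = s * algebraMap B (ssl_locSub F0 𝔫) t1 :=
          Subtype.ext hst.symm
        rw [h3] at h2
        rcases hQ.mem_or_mem h2 with h4 | h4
        · exact hs h4
        · have hu : IsUnit (algebraMap B (ssl_locSub F0 𝔫) t1) :=
            (IsLocalization.AtPrime.isUnit_to_map_iff (ssl_locSub F0 𝔫) 𝔫 t1).2 ht1
          exact hQ.ne_top (Ideal.eq_top_of_isUnit_mem _ h4 hu)
      · exact ht2 (h𝔭𝔫 h)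
    · show Y * ((s1 * t2 : B) : F0) = ((a1 * t1 : B) : F0)
      push_cast
      rw [← hst, ← hat, ← has']
      ring
  obtain ⟨T, hT, hTY⟩ := s36g_semilocal π hϖ0 𝔫 hπ𝔫 hYmem
  -- clear the denominators of `b0` and of `ω ^ P`
  obtain ⟨c0, s0, hs0, hcs0⟩ := (ssl_mem_loc 𝔫).1 b0.2
  obtain ⟨c, s', hs', hcs'⟩ := (ssl_mem_loc 𝔫).1 ((ω ^ P : (ssl_locSub F0 𝔫)ˣ) : ssl_locSub F0 𝔫).2
  have hc0 : c0 ∉ 𝔫 := by
    intro hc0𝔫
    have h1 : algebraMap B (ssl_locSub F0 𝔫) c0 = b0 * algebraMap B (ssl_locSub F0 𝔫) s0 :=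
      Subtype.ext hcs0.symm
    have hu : IsUnit (algebraMap B (ssl_locSub F0 𝔫) c0) := by
      rw [h1]
      exact hb0u.mul ((IsLocalization.AtPrime.isUnit_to_map_iff (ssl_locSub F0 𝔫) 𝔫 s0).2 hs0)
    exact ((IsLocalization.AtPrime.isUnit_to_map_iff (ssl_locSub F0 𝔫) 𝔫 c0).1 hu) hc0𝔫
  have hGY' : G ^ P - (b0 : F0) = ϖ * Y := hGY
  have hωP : (((ω ^ P : (ssl_locSub F0 𝔫)ˣ) : ssl_locSub F0 𝔫) : F0) = (G ^ P) ^ m * f ^ P :=
    hfG'.symm
  refine ⟨s' * T * c0, ((s0 * s' * T : B) : F0) * G ^ P, fun hmem => ?_, ?_, ?_⟩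
  · rcases h𝔫.mem_or_mem hmem with h | h
    · rcases h𝔫.mem_or_mem h with h | h
      · exact hs' h
      · exact hT h
    · exact hc0 h
  · obtain ⟨m', rfl⟩ : ∃ m', m = m' + 1 := ⟨m - 1, by omega⟩
    have e : (((s0 * s' * T : B) : F0) * G ^ P) ^ (m' + 1) * f ^ P =
        ((s0 : F0) ^ (m' + 1) * (s' : F0) ^ m' * (T : F0) ^ (m' + 1)) * (c : F0) := by
      rw [← hcs', hωP]
      push_cast
      ring
    rw [e]
    exact B.mul_mem (B.mul_mem (B.mul_mem (B.pow_mem s0.2 _) (B.pow_mem s'.2 _)) (B.pow_mem T.2 _))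
      c.2
  · refine ⟨((s0 * s' : B) : F0) * ((T : F0) * Y), mul_mem (sfc_le_O (s0 * s').2) hTY, ?_⟩
    have e : ((s0 * s' * T : B) : F0) * G ^ P - ((s' * T * c0 : B) : F0) =
        ((s0 : F0) * (s' : F0) * (T : F0)) * (G ^ P - (b0 : F0)) := by
      push_cast
      rw [← hcs0]
      ring
    rw [e, hGY']
    push_cast
    ring

/-- the same in the shape of a local factorisation `f ^ d₁ = ω g ^ m` of a power of `f`
(the output of the norm-down argument of [C-INS] (F1), `d₁ = q - 1`). -/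
theorem s36wk_hloc_of_factor (π : A0) (hϖ0 : algebraMap A0 F0 π ≠ 0) (𝔫 : Ideal B)
    [h𝔫 : 𝔫.IsPrime] (hπ𝔫 : algebraMap A0 B π ∈ 𝔫) {q : ℕ} (hq : q.Prime)
    (hqπ : algebraMap B (ssl_locSub F0 𝔫) (algebraMap A0 B π) ∣ (q : ssl_locSub F0 𝔫))
    (Q : Ideal (ssl_locSub F0 𝔫)) [hQ : Q.IsPrime]
    (hϖQ : algebraMap B (ssl_locSub F0 𝔫) (algebraMap A0 B π) ∈ Q)
    (hvert : ∀ 𝔭 : Ideal B, 𝔭.IsPrime → 𝔭.height = 1 → algebraMap A0 B π ∈ 𝔭 → 𝔭 ≤ 𝔫 →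
      𝔭 ≤ Q.comap (algebraMap B (ssl_locSub F0 𝔫)))
    (hsm : IsIntegrallyClosed (ssl_locSub F0 𝔫 ⧸ Q)) (k : ℕ)
    (hpow : ∀ y ∈ Q, algebraMap B (ssl_locSub F0 𝔫) (algebraMap A0 B π) ∣ y ^ q ^ k)
    (m : ℕ) (hm : 0 < m) (hqm : ¬ q ∣ m) (d1 : ℕ) {f g : F0} (hf : f ≠ 0)
    (ω : (ssl_locSub F0 𝔫)ˣ) (hfg : f ^ d1 = ((ω : ssl_locSub F0 𝔫) : F0) * g ^ m)
    (hf1 : s36g_MemM Q (f - 1)) :
    ∃ (b1 : B) (h : F0), b1 ∉ 𝔫 ∧ h ^ m * (f ^ d1) ^ q ^ k ∈ B ∧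
      h - (b1 : F0) ∈ sfc_piO B.toSubring (algebraMap A0 F0 π) := by
  have hg0 : g ≠ 0 := by
    rintro rfl
    rw [zero_pow hm.ne', mul_zero] at hfg
    exact pow_ne_zero d1 hf hfg
  have hfG : g⁻¹ ^ m * f ^ d1 = ((ω : ssl_locSub F0 𝔫) : F0) := by
    rw [hfg, inv_pow]
    have : g ^ m ≠ 0 := pow_ne_zero m hg0
    field_simp
  have h1 : ssl_MemAt F0 Q (1 : F0) := s36wk_memAt_one Q
  have hf1' : s36g_MemM Q (f ^ d1 - 1) := by
    have := s36g_memM_pow_sub Q hf1 h1 d1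
    rwa [one_pow] at this
  exact s36wk_hloc π hϖ0 𝔫 hπ𝔫 hq hqπ Q hϖQ hvert hsm k hpow m hm hqm ω hfG hf1'

end Chart

end Fermat.Agent.S36
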