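/-
Project S36 (Carayol), cell [C-INS] (F2'), (helper25): THE WEAK ONE-BRANCH LEMMA ON A CHART WITH THE
VERTICAL PRIMES OF [TP3] (prefix `s36wk_`).

`B` a noetherian integrally closed chart, `H : s36tp_Hyp π V e` helper24's package (the vertical
primes of `B` are the `P j = ssm_tp_P B (V j)`), `𝔫` a prime of `B` through EXACTLY ONE vertical
prime `P i` (`hone`).  Then for `Q := P i · B_𝔫`:

* `s36wk_tp_isPrime`, `s36wk_tp_pi_mem`, `s36wk_tp_vert`, `s36wk_tp_pow` : the hypotheses `hQ`,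
  `hϖQ`, `hvert`, `hpow` of `s36wk_hloc` (with `e i ≤ n`);
* `s36wk_tp_memM` : `z ∈ 𝔪(V i)` gives `s36g_MemM Q z`;
* `s36wk_ic_of_gen` : `R / Q` is integrally closed as soon as the maximal ideal of `B_𝔫 / Q` is
  principal (the clause `∃ t ∈ 𝔫, ∀ x ∈ 𝔫, ∃ s ∉ 𝔫, s x ∈ P ⊔ (t)` of helper17's `s36cp_comp_gen`);
* `s36wk_tp_hloc` : the local hypothesis of `sfc_main` at `𝔫` for `(f ^ d₁) ^ (q ^ k)` from a local
  factorisation `f ^ d₁ = ω g ^ m`, `f ≡ 1` at `V i`, `e i ≤ q ^ k`, `m` prime to `q`.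
-/
import Mathlib
import Fermat.Agent.S36.WeakOne
import Fermat.Agent.S36.Model.Primes3

set_option autoImplicit false
set_option linter.unusedSectionVars false
set_option linter.unusedVariables false
set_option linter.style.haveILetI false

namespace Fermat.Agent.S36

open Fermat.Agent.SS Fermat.Agent.JT3

section IC

variable {B : Type*} [CommRing B] [IsDomain B] [IsNoetherianRing B]

/-- a noetherian local domain whose maximal ideal is principal modulo a prime `Q` has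
`R / Q` integrally closed. -/
theorem s36wk_ic_of_principal {R : Type*} [CommRing R] [IsNoetherianRing R]
    [IsLocalRing R] (Q : Ideal R) [hQ : Q.IsPrime] (t : R)
    (hmax : IsLocalRing.maximalIdeal R ≤ Q ⊔ Ideal.span {t}) (ht : t ∈ IsLocalRing.maximalIdeal R) :
    IsIntegrallyClosed (R ⧸ Q) := by
  set mk := Ideal.Quotient.mk Q with hmk
  have hsurj : Function.Surjective mk := Ideal.Quotient.mk_surjective
  haveI : IsLocalRing (R ⧸ Q) := IsLocalRing.of_surjective' mk hsurj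
  have hQm : Q ≤ IsLocalRing.maximalIdeal R := IsLocalRing.le_maximalIdeal hQ.ne_top
  have hprinc : (IsLocalRing.maximalIdeal (R ⧸ Q)).IsPrincipal := by
    refine ⟨mk t, ?_⟩
    have h1 : IsLocalRing.maximalIdeal (R ⧸ Q) = (IsLocalRing.maximalIdeal R).map mk := by
      have hmaxmap : ((IsLocalRing.maximalIdeal R).map mk).IsMaximal := by
        refine Ideal.IsMaximal.map_of_surjective_of_ker_le hsurj ?_
        rw [Ideal.mk_ker]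
        exact hQm
      exact (IsLocalRing.eq_maximalIdeal hmaxmap).symm
    rw [h1]
    apply le_antisymm
    · rw [Ideal.map_le_iff_le_comap]
      intro x hx
      obtain ⟨a, ha, b, hb, rfl⟩ := Submodule.mem_sup.1 (hmax hx)
      obtain ⟨c, rfl⟩ := Ideal.mem_span_singleton'.1 hb
      rw [Ideal.mem_comap, map_add, map_mul, Ideal.Quotient.eq_zero_iff_mem.2 ha, zero_add]
      exact Ideal.mul_mem_left _ _ (Ideal.subset_span rfl)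
    · change Ideal.span {mk t} ≤ _
      rw [Ideal.span_singleton_le_iff_mem]
      exact Ideal.mem_map_of_mem _ ht
  have h43 := (tfae_of_isNoetherianRing_of_isLocalRing_of_isDomain (R ⧸ Q)).out 4 3
  exact (h43.1 hprinc).1

end IC

section TP

variable {R : Type*} [CommRing R] [IsDomain R] [IsIntegrallyClosed R]
  {E : Type*} [Field E] [Algebra R E] [FaithfulSMul R E]
  {A : Type*} [CommRing A] [Algebra A E] {ι : Type*} [Fintype ι]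
  {π : R} {V : ι → ValuationSubring E} {e : ι → ℕ} {B : Subalgebra A E}
  [IsFractionRing B E] [IsNoetherianRing B] [IsIntegrallyClosed B]

/-- `P i · B_𝔫` is prime when `P i ≤ 𝔫`. -/
theorem s36wk_tp_isPrime (H : s36tp_Hyp π V e) (hC : ssm_tp_Chart π B) (𝔫 : Ideal B)
    [h𝔫 : 𝔫.IsPrime] (i : ι) (hi : ssm_tp_P B (V i) ≤ 𝔫) :
    ((ssm_tp_P B (V i)).map (algebraMap B (ssl_locSub E 𝔫))).IsPrime := by
  have hp := H.P_isPrime hC i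
  refine IsLocalization.isPrime_of_isPrime_disjoint 𝔫.primeCompl (ssl_locSub E 𝔫) _ hp ?_
  rw [Set.disjoint_left]
  intro x hx hxP
  exact hx (hi hxP)

/-- `(P i · B_𝔫) ∩ B = P i`. -/
theorem s36wk_tp_comap (H : s36tp_Hyp π V e) (hC : ssm_tp_Chart π B) (𝔫 : Ideal B)
    [h𝔫 : 𝔫.IsPrime] (i : ι) (hi : ssm_tp_P B (V i) ≤ 𝔫) :
    ((ssm_tp_P B (V i)).map (algebraMap B (ssl_locSub E 𝔫))).comap
      (algebraMap B (ssl_locSub E 𝔫)) = ssm_tp_P B (V i) := by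
  have hp := H.P_isPrime hC i
  refine IsLocalization.under_map_of_isPrime_disjoint 𝔫.primeCompl (ssl_locSub E 𝔫) hp ?_
  rw [Set.disjoint_left]
  intro x hx hxP
  exact hx (hi hxP)

/-- `ϖ ∈ P i · B_𝔫`. -/
theorem s36wk_tp_pi_mem (H : s36tp_Hyp π V e) (hC : ssm_tp_Chart π B) (ϖ : B)
    (hϖ : (ϖ : E) = algebraMap R E π) (𝔫 : Ideal B) [h𝔫 : 𝔫.IsPrime] (i : ι) :
    algebraMap B (ssl_locSub E 𝔫) ϖ ∈
      (ssm_tp_P B (V i)).map (algebraMap B (ssl_locSub E 𝔫)) :=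
  Ideal.mem_map_of_mem _ (H.pi_mem_P hC ϖ hϖ i)

/-- the vertical primes of height one through `𝔫` lie in `P i` (they are equal to it). -/
theorem s36wk_tp_vert (H : s36tp_Hyp π V e) (hC : ssm_tp_Chart π B) (ϖ : B)
    (hϖ : (ϖ : E) = algebraMap R E π) (𝔫 : Ideal B) [h𝔫 : 𝔫.IsPrime] (i : ι)
    (hone : ∀ j, ssm_tp_P B (V j) ≤ 𝔫 → j = i)
    (𝔭 : Ideal B) (h𝔭 : 𝔭.IsPrime) (h1 : 𝔭.height = 1) (hϖ𝔭 : ϖ ∈ 𝔭) (h𝔭𝔫 : 𝔭 ≤ 𝔫) :
    𝔭 ≤ ((ssm_tp_P B (V i)).map (algebraMap B (ssl_locSub E 𝔫))).comap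
      (algebraMap B (ssl_locSub E 𝔫)) := by
  haveI := h𝔭
  obtain ⟨j, hj⟩ := H.P_le_of_mem hC ϖ hϖ 𝔭 hϖ𝔭
  have hji : j = i := hone j (hj.trans h𝔭𝔫)
  subst hji
  haveI := H.P_isPrime hC j
  have hϖ0 : ϖ ≠ 0 := by
    intro h0
    apply H.algebraMap_ne_zero
    rw [← hϖ, h0, ZeroMemClass.coe_zero]
  have hP0 : ssm_tp_P B (V j) ≠ ⊥ := by
    intro h0
    have := H.pi_mem_P hC ϖ hϖ j
    rw [h0, Ideal.mem_bot] at this
    exact hϖ0 this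
  have heq : ssm_tp_P B (V j) = 𝔭 := ssl_eq_of_le_of_ne_bot hP0 h1 hj
  rw [← heq]
  exact Ideal.le_comap_map

/-- `ϖ ∣ y ^ n` in `B_𝔫` for `y ∈ P i · B_𝔫`, `e i ≤ n`, when `P i` is the only vertical prime
through `𝔫`. -/
theorem s36wk_tp_pow (H : s36tp_Hyp π V e) (hC : ssm_tp_Chart π B) (ϖ : B)
    (hϖ : (ϖ : E) = algebraMap R E π) (𝔫 : Ideal B) [h𝔫 : 𝔫.IsPrime] (i : ι)
    (hone : ∀ j, ssm_tp_P B (V j) ≤ 𝔫 → j = i) (n : ℕ) (hn : e i ≤ n) :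
    ∀ y ∈ (ssm_tp_P B (V i)).map (algebraMap B (ssl_locSub E 𝔫)),
      algebraMap B (ssl_locSub E 𝔫) ϖ ∣ y ^ n := by
  classical
  intro y hy
  obtain ⟨⟨⟨b, hb⟩, ⟨s, hs⟩⟩, hys⟩ :=
    (IsLocalization.mem_map_algebraMap_iff 𝔫.primeCompl (ssl_locSub E 𝔫)).1 hy
  simp only at hys
  -- separating elements `t j ∈ P j ∖ 𝔫`, `j ≠ i`
  have hex : ∀ j, ∃ t : B, t ∉ 𝔫 ∧ (j ≠ i → t ∈ ssm_tp_P B (V j)) := by
    intro j
    by_cases hji : j = i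
    · exact ⟨1, fun h => h𝔫.ne_top ((Ideal.eq_top_iff_one _).2 h), fun h => absurd hji h⟩
    · have : ¬ ssm_tp_P B (V j) ≤ 𝔫 := fun h => hji (hone j h)
      obtain ⟨t, htP, ht𝔫⟩ := SetLike.not_le_iff_exists.1 this
      exact ⟨t, ht𝔫, fun _ => htP⟩
  choose t ht𝔫 htP using hex
  set T : B := ∏ j, t j ^ e j with hT
  have hT𝔫 : T ∉ 𝔫 := by
    intro h
    obtain ⟨j, -, hj⟩ := (Ideal.IsPrime.prod_mem_iff).1 h
    exact ht𝔫 j (h𝔫.mem_of_pow_mem _ hj)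
  -- `ϖ ∣ T b ^ n` in `B`
  have hdvd : T * b ^ n ∈ Ideal.span {ϖ} := by
    rw [H.mem_span_iff hC ϖ hϖ]
    intro j
    have hbV : ∀ j', ((b ^ n : B) : E) ∈ V j' := fun j' => H.chart_le hC j' (b ^ n).2
    have hTV : ∀ j', ((T : B) : E) ∈ V j' := fun j' => H.chart_le hC j' T.2
    by_cases hji : j = i
    · subst hji
      have h1 : (algebraMap R E π)⁻¹ * ((b : B) : E) ^ n ∈ V j :=
        H.ram_le j ((H.mem_P hC j).1 hb) hn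
      have e1 : (algebraMap R E π)⁻¹ * ((T * b ^ n : B) : E) =
          ((T : B) : E) * ((algebraMap R E π)⁻¹ * ((b : B) : E) ^ n) := by
        push_cast; ring
      rw [e1]
      exact (V j).mul_mem _ _ (hTV j) h1
    · have h1 : (algebraMap R E π)⁻¹ * ((t j : B) : E) ^ e j ∈ V j :=
        H.ram j _ ((H.mem_P hC j).1 (htP j hji))
      have hrest : ((∏ j' ∈ Finset.univ.erase j, t j' ^ e j' : B) : E) ∈ V j :=
        H.chart_le hC j (∏ j' ∈ Finset.univ.erase j, t j' ^ e j').2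
      have hTe : T = t j ^ e j * ∏ j' ∈ Finset.univ.erase j, t j' ^ e j' := by
        rw [hT, Finset.mul_prod_erase Finset.univ (fun j' => t j' ^ e j') (Finset.mem_univ j)]
      have e1 : (algebraMap R E π)⁻¹ * ((T * b ^ n : B) : E) =
          ((algebraMap R E π)⁻¹ * ((t j : B) : E) ^ e j) *
            (((∏ j' ∈ Finset.univ.erase j, t j' ^ e j' : B) : E) * ((b ^ n : B) : E)) := by
        rw [hTe]; push_cast; ring
      rw [e1]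
      exact (V j).mul_mem _ _ h1 ((V j).mul_mem _ _ hrest (hbV j))
  obtain ⟨c, hc⟩ := Ideal.mem_span_singleton'.1 hdvd
  -- pass to `B_𝔫`
  have hsu : IsUnit (algebraMap B (ssl_locSub E 𝔫) s) :=
    (IsLocalization.AtPrime.isUnit_to_map_iff (ssl_locSub E 𝔫) 𝔫 s).2 hs
  have hTu : IsUnit (algebraMap B (ssl_locSub E 𝔫) T) :=
    (IsLocalization.AtPrime.isUnit_to_map_iff (ssl_locSub E 𝔫) 𝔫 T).2 hT𝔫
  obtain ⟨su, hsu'⟩ := hsu
  obtain ⟨Tu, hTu'⟩ := hTu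
  refine ⟨algebraMap B (ssl_locSub E 𝔫) c * ((Tu⁻¹ : (ssl_locSub E 𝔫)ˣ) : ssl_locSub E 𝔫) *
    ((su⁻¹ : (ssl_locSub E 𝔫)ˣ) : ssl_locSub E 𝔫) ^ n, ?_⟩
  have h2 : algebraMap B (ssl_locSub E 𝔫) T * (y * algebraMap B (ssl_locSub E 𝔫) s) ^ n =
      algebraMap B (ssl_locSub E 𝔫) c * algebraMap B (ssl_locSub E 𝔫) ϖ := by
    rw [hys, ← map_pow, ← map_mul, ← map_mul, hc]
  rw [← hsu', ← hTu'] at h2
  have h3 : y ^ n = ((Tu⁻¹ : (ssl_locSub E 𝔫)ˣ) : ssl_locSub E 𝔫) *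
      ((su⁻¹ : (ssl_locSub E 𝔫)ˣ) : ssl_locSub E 𝔫) ^ n *
        ((Tu : ssl_locSub E 𝔫) * (y * (su : ssl_locSub E 𝔫)) ^ n) := by
    rw [mul_pow]
    have e1 : ((Tu⁻¹ : (ssl_locSub E 𝔫)ˣ) : ssl_locSub E 𝔫) * (Tu : ssl_locSub E 𝔫) = 1 := by
      rw [← Units.val_mul, inv_mul_cancel, Units.val_one]
    have e2 : ((su⁻¹ : (ssl_locSub E 𝔫)ˣ) : ssl_locSub E 𝔫) ^ n * (su : ssl_locSub E 𝔫) ^ n = 1 := by
      rw [← mul_pow, ← Units.val_mul, inv_mul_cancel, Units.val_one, one_pow]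
    calc y ^ n = (((Tu⁻¹ : (ssl_locSub E 𝔫)ˣ) : ssl_locSub E 𝔫) * (Tu : ssl_locSub E 𝔫)) *
          ((((su⁻¹ : (ssl_locSub E 𝔫)ˣ) : ssl_locSub E 𝔫) ^ n * (su : ssl_locSub E 𝔫) ^ n)) * y ^ n := by
            rw [e1, e2]; ring
      _ = _ := by ring
  rw [h3, h2]
  ring

/-- `z ∈ 𝔪(V i)` lies in `P i · (B_𝔫)_{P i}`. -/
theorem s36wk_tp_memM (H : s36tp_Hyp π V e) (hC : ssm_tp_Chart π B) (𝔫 : Ideal B)
    [h𝔫 : 𝔫.IsPrime] (i : ι) (hi : ssm_tp_P B (V i) ≤ 𝔫) {z : E} (hz : z ∈ (V i).nonunits) :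
    s36g_MemM ((ssm_tp_P B (V i)).map (algebraMap B (ssl_locSub E 𝔫))) z := by
  have hzV : z ∈ V i := ValuationSubring.nonunits_le hz
  obtain ⟨t, ht, htz⟩ := (H.mem_V_iff hC i).1 hzV
  have hb : (⟨(t : E) * z, htz⟩ : B) ∈ ssm_tp_P B (V i) := by
    rw [H.mem_P hC i]
    show (t : E) * z ∈ (V i).nonunits
    rw [mul_comm]
    exact ssm_tp_nonunits_mul (V i) hz (H.chart_le hC i t.2)
  refine ⟨algebraMap B (ssl_locSub E 𝔫) ⟨(t : E) * z, htz⟩, algebraMap B (ssl_locSub E 𝔫) t,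
    Ideal.mem_map_of_mem _ hb, fun hmem => ht ?_, ?_⟩
  · have := Ideal.mem_comap.2 hmem
    rwa [s36wk_tp_comap H hC 𝔫 i hi] at this
  · show z * (t : E) = (t : E) * z
    ring

/-- `B_𝔫 / P B_𝔫` is integrally closed when the maximal ideal of `B_𝔫` is generated by `P` and
one more element (the clause of `s36cp_comp_gen`). -/
theorem s36wk_ic_of_gen (𝔫 : Ideal B) [h𝔫 : 𝔫.IsPrime] (P : Ideal B) [hP : P.IsPrime]
    (hP𝔫 : P ≤ 𝔫)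
    (hgen : ∃ t ∈ 𝔫, ∀ x ∈ 𝔫, ∃ s : B, s ∉ 𝔫 ∧ s * x ∈ P ⊔ Ideal.span {t}) :
    haveI : (P.map (algebraMap B (ssl_locSub E 𝔫))).IsPrime :=
      IsLocalization.isPrime_of_isPrime_disjoint 𝔫.primeCompl (ssl_locSub E 𝔫) _ hP
        (Set.disjoint_left.2 fun x hx hxP => hx (hP𝔫 hxP))
    IsIntegrallyClosed (ssl_locSub E 𝔫 ⧸ P.map (algebraMap B (ssl_locSub E 𝔫))) := by
  haveI : IsNoetherianRing (ssl_locSub E 𝔫) := ssl_loc_isNoetherianRing 𝔫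
  haveI : IsLocalRing (ssl_locSub E 𝔫) := ssl_loc_isLocalRing 𝔫
  haveI : (P.map (algebraMap B (ssl_locSub E 𝔫))).IsPrime :=
    IsLocalization.isPrime_of_isPrime_disjoint 𝔫.primeCompl (ssl_locSub E 𝔫) _ hP
      (Set.disjoint_left.2 fun x hx hxP => hx (hP𝔫 hxP))
  obtain ⟨t, ht𝔫, hgen⟩ := hgen
  have hmaxeq : IsLocalRing.maximalIdeal (ssl_locSub E 𝔫) =
      𝔫.map (algebraMap B (ssl_locSub E 𝔫)) :=
    (IsLocalization.AtPrime.map_eq_maximalIdeal 𝔫 (ssl_locSub E 𝔫)).symm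
  refine s36wk_ic_of_principal _ (algebraMap B (ssl_locSub E 𝔫) t) ?_ ?_
  · rw [hmaxeq]
    intro y hy
    obtain ⟨⟨⟨x, hx⟩, ⟨s0, hs0⟩⟩, hys⟩ :=
      (IsLocalization.mem_map_algebraMap_iff 𝔫.primeCompl (ssl_locSub E 𝔫)).1 hy
    simp only at hys
    obtain ⟨s, hs, hsx⟩ := hgen x hx
    obtain ⟨p, hp, c', hc', hpc⟩ := Submodule.mem_sup.1 hsx
    obtain ⟨c, rfl⟩ := Ideal.mem_span_singleton'.1 hc'
    have hs0u : IsUnit (algebraMap B (ssl_locSub E 𝔫) s0) :=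
      (IsLocalization.AtPrime.isUnit_to_map_iff (ssl_locSub E 𝔫) 𝔫 s0).2 hs0
    have hsu : IsUnit (algebraMap B (ssl_locSub E 𝔫) s) :=
      (IsLocalization.AtPrime.isUnit_to_map_iff (ssl_locSub E 𝔫) 𝔫 s).2 hs
    obtain ⟨u0, hu0⟩ := hs0u
    obtain ⟨u, hu⟩ := hsu
    have h1 : (u : ssl_locSub E 𝔫) * (y * (u0 : ssl_locSub E 𝔫)) =
        algebraMap B (ssl_locSub E 𝔫) p + algebraMap B (ssl_locSub E 𝔫) c *
          algebraMap B (ssl_locSub E 𝔫) t := by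
      rw [hu, hu0, hys, ← map_mul, ← map_mul, ← map_add, hpc]
    have h2 : y = ((u⁻¹ : (ssl_locSub E 𝔫)ˣ) : ssl_locSub E 𝔫) *
        ((u0⁻¹ : (ssl_locSub E 𝔫)ˣ) : ssl_locSub E 𝔫) *
          ((u : ssl_locSub E 𝔫) * (y * (u0 : ssl_locSub E 𝔫))) := by
      have e1 : ((u⁻¹ : (ssl_locSub E 𝔫)ˣ) : ssl_locSub E 𝔫) * (u : ssl_locSub E 𝔫) = 1 := by
        rw [← Units.val_mul, inv_mul_cancel, Units.val_one]
      have e2 : ((u0⁻¹ : (ssl_locSub E 𝔫)ˣ) : ssl_locSub E 𝔫) * (u0 : ssl_locSub E 𝔫) = 1 := by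
        rw [← Units.val_mul, inv_mul_cancel, Units.val_one]
      calc y = (((u⁻¹ : (ssl_locSub E 𝔫)ˣ) : ssl_locSub E 𝔫) * (u : ssl_locSub E 𝔫)) *
            ((((u0⁻¹ : (ssl_locSub E 𝔫)ˣ) : ssl_locSub E 𝔫) * (u0 : ssl_locSub E 𝔫))) * y := by
              rw [e1, e2]; ring
        _ = _ := by ring
    rw [h2, h1, mul_add]
    refine Submodule.add_mem_sup (Ideal.mul_mem_left _ _ (Ideal.mem_map_of_mem _ hp)) ?_
    rw [← mul_assoc]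
    exact Ideal.mul_mem_left _ _ (Ideal.subset_span rfl)
  · rw [hmaxeq]
    exact Ideal.mem_map_of_mem _ ht𝔫

/-- **[C-INS] (F2'): the weak one-branch lemma in the vocabulary of [TP3].** -/
theorem s36wk_tp_hloc (H : s36tp_Hyp π V e) (hC : ssm_tp_Chart π B) (π₀ : A)
    (hππ : algebraMap A E π₀ = algebraMap R E π) (𝔫 : Ideal B) [h𝔫 : 𝔫.IsPrime] (i : ι)
    (hi : ssm_tp_P B (V i) ≤ 𝔫) (hone : ∀ j, ssm_tp_P B (V j) ≤ 𝔫 → j = i)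
    (hgen : ∃ t ∈ 𝔫, ∀ x ∈ 𝔫, ∃ s : B, s ∉ 𝔫 ∧ s * x ∈ ssm_tp_P B (V i) ⊔ Ideal.span {t})
    {q : ℕ} (hq : q.Prime) (hqπ : algebraMap A B π₀ ∣ (q : B)) (k : ℕ) (hek : e i ≤ q ^ k)
    (m : ℕ) (hm : 0 < m) (hqm : ¬ q ∣ m) (d1 : ℕ) {f g : E} (hf : f ≠ 0)
    (ω : (ssl_locSub E 𝔫)ˣ) (hfg : f ^ d1 = ((ω : ssl_locSub E 𝔫) : E) * g ^ m)
    (hf1 : f - 1 ∈ (V i).nonunits) :
    ∃ (b1 : B) (h : E), b1 ∉ 𝔫 ∧ h ^ m * (f ^ d1) ^ q ^ k ∈ B ∧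
      h - (b1 : E) ∈ sfc_piO B.toSubring (algebraMap A E π₀) := by
  have hϖ : ((algebraMap A B π₀ : B) : E) = algebraMap R E π := hππ
  haveI := H.P_isPrime hC i
  haveI hQ := s36wk_tp_isPrime H hC 𝔫 i hi
  have hϖ0 : algebraMap A E π₀ ≠ 0 := by rw [hππ]; exact H.algebraMap_ne_zero
  have hπ𝔫 : algebraMap A B π₀ ∈ 𝔫 := hi (H.pi_mem_P hC _ hϖ i)
  have hqπ' : algebraMap B (ssl_locSub E 𝔫) (algebraMap A B π₀) ∣ (q : ssl_locSub E 𝔫) := by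
    obtain ⟨c, hc⟩ := hqπ
    exact ⟨algebraMap B (ssl_locSub E 𝔫) c, by rw [← map_mul, ← hc, map_natCast]⟩
  exact s36wk_hloc_of_factor π₀ hϖ0 𝔫 hπ𝔫 hq hqπ'
    ((ssm_tp_P B (V i)).map (algebraMap B (ssl_locSub E 𝔫)))
    (s36wk_tp_pi_mem H hC _ hϖ 𝔫 i)
    (fun 𝔭 h𝔭 h1 hϖ𝔭 h𝔭𝔫 => s36wk_tp_vert H hC _ hϖ 𝔫 i hone 𝔭 h𝔭 h1 hϖ𝔭 h𝔭𝔫)
    (s36wk_ic_of_gen 𝔫 (ssm_tp_P B (V i)) hi hgen) k
    (s36wk_tp_pow H hC _ hϖ 𝔫 i hone (q ^ k) hek) m hm hqm d1 hf ω hfg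
    (s36wk_tp_memM H hC 𝔫 i hi hf1)

end TP

end Fermat.Agent.S36
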